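import Mathlib.FieldTheory.Galois.Infinite
import Mathlib.Algebra.Algebra.Rat
import Mathlib.FieldTheory.IsAlgClosed.AlgebraicClosure

set_option autoImplicit false

namespace Fermat.Agent.S51

/-- `ℚ̄ / ℚ` is Galois, for the default `Algebra ℚ (AlgebraicClosure ℚ)` instance
(which is `DivisionRing.toRatAlgebra`, not `AlgebraicClosure.instAlgebra`). -/
lemma isGalois_Qbar : IsGalois ℚ (AlgebraicClosure ℚ) := by
  have h : (DivisionRing.toRatAlgebra : Algebra ℚ (AlgebraicClosure ℚ))
      = AlgebraicClosure.instAlgebra ℚ := Subsingleton.elim _ _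
  rw [h]
  infer_instance

/-- An element of `ℚ̄` fixed by every automorphism is rational. -/
theorem fixed_rational (x : AlgebraicClosure ℚ)
    (h : ∀ σ : AlgebraicClosure ℚ ≃ₐ[ℚ] AlgebraicClosure ℚ, σ x = x) :
    ∃ q : ℚ, algebraMap ℚ (AlgebraicClosure ℚ) q = x := by
  have := isGalois_Qbar
  exact (InfiniteGalois.mem_range_algebraMap_iff_fixed (k := ℚ) (K := AlgebraicClosure ℚ) x).mpr h

end Fermat.Agent.S51
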