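import Mathlib.FieldTheory.Finiteness
import Mathlib.LinearAlgebra.FiniteDimensional.Lemmas
import Mathlib.LinearAlgebra.FiniteDimensional.Basic
import Mathlib.Algebra.Field.ZMod
import Mathlib.RingTheory.Finiteness.Cardinality

set_option autoImplicit false

namespace Fermat.Agent.S51

/-- In a module over `ZMod p` with fewer than `p ^ 3` elements, every element of a proper
submodule `N` containing a nonzero vector `v` is a multiple of `v`. -/
theorem exists_smul_eq_of_mem_proper_submodule {p : ℕ} [Fact p.Prime] {V : Type*}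
    [AddCommGroup V] [Module (ZMod p) V] [Finite V]
    (hcard : Nat.card V < p ^ 3) (N : Submodule (ZMod p) V) (hN : N ≠ ⊤)
    {v : V} (hv : v ∈ N) (hv0 : v ≠ 0) {w : V} (hw : w ∈ N) :
    ∃ c : ZMod p, c • v = w := by
  have : Module.Finite (ZMod p) V := Module.Finite.of_finite
  have hp : 1 < p := (Fact.out : p.Prime).one_lt
  have h1 : Nat.card V = p ^ Module.finrank (ZMod p) V := by
    rw [Module.natCard_eq_pow_finrank (K := ZMod p) (V := V), Nat.card_zmod]
  have h2 : Module.finrank (ZMod p) V < 3 := by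
    rw [h1] at hcard
    exact (Nat.pow_lt_pow_iff_right hp).mp hcard
  have h3 : Module.finrank (ZMod p) N < Module.finrank (ZMod p) V := Submodule.finrank_lt hN
  have hne : (⟨v, hv⟩ : N) ≠ 0 := fun h => hv0 (congrArg Subtype.val h)
  have h4 : 0 < Module.finrank (ZMod p) N :=
    Module.finrank_pos_iff_exists_ne_zero.mpr ⟨⟨v, hv⟩, hne⟩
  have h5 : Module.finrank (ZMod p) N = 1 := by omega
  obtain ⟨c, hc⟩ := (finrank_eq_one_iff_of_nonzero' (⟨v, hv⟩ : N) hne).mp h5 ⟨w, hw⟩
  exact ⟨c, congrArg Subtype.val hc⟩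

end Fermat.Agent.S51
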