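import Fermat.Prelude.Def_FLTPrelim_ModularRep
import Mathlib.FieldTheory.Galois.Infinite
import Mathlib.FieldTheory.IsAlgClosed.AlgebraicClosure
import Mathlib.LinearAlgebra.Dimension.Free
import Mathlib.FieldTheory.Finiteness
import Mathlib.Tactic.ComputeDegree
import Mathlib.AlgebraicGeometry.EllipticCurve.DivisionPolynomial.Degree
import Fermat.Agent.S51.LinAlg
import Fermat.Agent.S51.GaloisFixed

set_option autoImplicit false
open WeierstrassCurve

namespace Fermat.Agent.S51

section generic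

variable {F : Type*} [Field F] [DecidableEq F] (W : WeierstrassCurve.Affine F)

lemma psi3_aux (x y a₁ a₂ a₃ a₄ a₆ d n : F) (hd : d ≠ 0) (hdd : d = 2*y + a₁*x + a₃)
    (hn : n = 3*x^2 + 2*a₂*x + a₄ - a₁*y)
    (hx : (n/d)^2 + a₁*(n/d) - a₂ - x - x = x)
    (h : y ^ 2 + a₁ * x * y + a₃ * y = x ^ 3 + a₂ * x ^ 2 + a₄ * x + a₆) :
    3*x^4 + (a₁^2 + 4*a₂)*x^3 + 3*(2*a₄ + a₁*a₃)*x^2 + 3*(a₃^2 + 4*a₆)*x
      + (a₁^2*a₆ + 4*a₂*a₆ - a₁*a₃*a₄ + a₂*a₃^2 - a₄^2) = 0 := by
  field_simp at hx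
  subst hdd hn
  linear_combination (-1 : F) * hx + (-12*x - a₁^2 - 4*a₂) * h

/-- x-coordinate of `2P` equals the x-coordinate of `P` forces `ψ₃(x) = 0`. -/
lemma psi3_eq_zero_of_addX_eq {x y : F} (h : W.Equation x y) (hy : y ≠ W.negY x y)
    (hx : W.addX x x (W.slope x x y y) = x) :
    3*x^4 + W.b₂*x^3 + 3*W.b₄*x^2 + 3*W.b₆*x + W.b₈ = 0 := by
  have hd : y - W.negY x y ≠ 0 := sub_ne_zero.mpr hy
  rw [WeierstrassCurve.Affine.slope_of_Y_ne rfl hy] at hx
  rw [WeierstrassCurve.Affine.equation_iff] at h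
  simp only [WeierstrassCurve.Affine.addX] at hx
  simp only [WeierstrassCurve.b₂, WeierstrassCurve.b₄, WeierstrassCurve.b₆, WeierstrassCurve.b₈]
  exact psi3_aux x y W.a₁ W.a₂ W.a₃ W.a₄ W.a₆ (y - W.negY x y)
    (3 * x ^ 2 + 2 * W.a₂ * x + W.a₄ - W.a₁ * y) hd
    (by simp only [WeierstrassCurve.Affine.negY]; ring) rfl hx h

/-- A nonzero point killed by `3` has `ψ₃(x) = 0`. -/
lemma psi3_of_three_torsion {x y : F} (h : W.Nonsingular x y)
    (h3 : (3:ℤ) • (Affine.Point.some x y h) = 0) :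
    3*x^4 + W.b₂*x^3 + 3*W.b₄*x^2 + 3*W.b₆*x + W.b₈ = 0 := by
  have hPP : Affine.Point.some x y h + Affine.Point.some x y h = -Affine.Point.some x y h := by
    have : (3:ℤ) • (Affine.Point.some x y h)
        = Affine.Point.some x y h + Affine.Point.some x y h + Affine.Point.some x y h := by
      rw [show (3:ℤ) = 1 + 1 + 1 by norm_num, add_zsmul, add_zsmul, one_zsmul]
    rw [this] at h3
    exact eq_neg_of_add_eq_zero_left h3
  by_cases hy : y = W.negY x y
  · rw [Affine.Point.add_self_of_Y_eq hy] at hPP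
    exact absurd (neg_eq_zero.mp hPP.symm) (Affine.Point.some_ne_zero h)
  · rw [Affine.Point.add_self_of_Y_ne hy, Affine.Point.neg_some] at hPP
    have hx : W.addX x x (W.slope x x y y) = x := by
      injection hPP
    exact psi3_eq_zero_of_addX_eq W h.1 hy hx

end generic

section counting

open Polynomial

variable {F : Type*} [Field F] [DecidableEq F] (W : WeierstrassCurve.Affine F)

/-- The quadratic polynomial in `Y` whose roots are the `y`-coordinates above `x`. -/
noncomputable def quadY (x : F) : F[X] :=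
  X ^ 2 + C (W.a₁ * x + W.a₃) * X - C (x ^ 3 + W.a₂ * x ^ 2 + W.a₄ * x + W.a₆)

lemma quadY_natDegree (x : F) : (quadY W x).natDegree = 2 := by
  unfold quadY
  compute_degree!

lemma quadY_ne_zero (x : F) : quadY W x ≠ 0 := by
  intro h
  have := quadY_natDegree W x
  rw [h] at this
  simp at this

lemma quadY_eval (x y : F) : (quadY W x).eval y = 0 ↔ W.Equation x y := by
  rw [WeierstrassCurve.Affine.equation_iff]
  simp only [quadY, eval_sub, eval_add, eval_pow, eval_X, eval_mul, eval_C]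
  constructor <;> intro h <;> linear_combination h

/-- the finite set of affine points `(x, y)` on the curve with `p(x) = 0`. -/
noncomputable def ptsOver (p : F[X]) : Finset (F × F) :=
  p.roots.toFinset.biUnion fun x => (quadY W x).roots.toFinset.image fun y => (x, y)

lemma mem_ptsOver {p : F[X]} (hp : p ≠ 0) {x y : F} (hx : p.eval x = 0) (h : W.Equation x y) :
    (x, y) ∈ ptsOver W p := by
  unfold ptsOver
  rw [Finset.mem_biUnion]
  refine ⟨x, ?_, ?_⟩
  · rw [Multiset.mem_toFinset, mem_roots hp]; exact hx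
  · rw [Finset.mem_image]
    refine ⟨y, ?_, rfl⟩
    rw [Multiset.mem_toFinset, mem_roots (quadY_ne_zero W x)]
    exact (quadY_eval W x y).mpr h

lemma card_ptsOver_le (p : F[X]) : (ptsOver W p).card ≤ 2 * p.natDegree := by
  unfold ptsOver
  refine le_trans Finset.card_biUnion_le ?_
  have h1 : ∀ x ∈ p.roots.toFinset,
      ((quadY W x).roots.toFinset.image fun y => (x, y)).card ≤ 2 := by
    intro x _
    refine le_trans Finset.card_image_le ?_
    refine le_trans (Multiset.toFinset_card_le _) ?_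
    refine le_trans (card_roots' _) ?_
    rw [quadY_natDegree]
  refine le_trans (Finset.sum_le_card_nsmul _ _ 2 h1) ?_
  rw [smul_eq_mul, mul_comm]
  exact Nat.mul_le_mul_left 2 (le_trans (Multiset.toFinset_card_le _) (card_roots' _))

/-- coordinates of a point, `none` for the point at infinity. -/
def ptCoords : W.Point → Option (F × F)
  | .zero => none
  | .some x y _ => some (x, y)

lemma ptCoords_injective : Function.Injective (ptCoords W) := by
  rintro (_ | ⟨x₁, y₁, h₁⟩) (_ | ⟨x₂, y₂, h₂⟩) h <;>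
    simp only [ptCoords, Option.some.injEq, Prod.mk.injEq, reduceCtorEq] at h
  · rfl
  · obtain ⟨rfl, rfl⟩ := h; rfl

/-- If every nonzero point of a set `S` of points has `x`-coordinate a root of `p ≠ 0`, then `S`
is finite with at most `2 deg p + 1` elements. -/
lemma finite_and_card_le_of_forall_root (S : Set W.Point) (p : F[X]) (hp : p ≠ 0)
    (hS : ∀ x y (h : W.Nonsingular x y), Affine.Point.some x y h ∈ S → p.eval x = 0) :
    Finite S ∧ Nat.card S ≤ 2 * p.natDegree + 1 := by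
  classical
  let B : Finset (Option (F × F)) := insert none ((ptsOver W p).image some)
  have hB : B.card ≤ 2 * p.natDegree + 1 := by
    refine le_trans (Finset.card_insert_le _ _) ?_
    exact Nat.succ_le_succ (le_trans Finset.card_image_le (card_ptsOver_le W p))
  let g : S → B := fun P => ⟨ptCoords W P.1, by
    obtain ⟨P, hP⟩ := P
    cases P with
    | zero => exact Finset.mem_insert_self _ _
    | some x y h =>
      refine Finset.mem_insert_of_mem (Finset.mem_image_of_mem _ ?_)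
      exact mem_ptsOver W hp (hS x y h hP) h.1⟩
  have hg : Function.Injective g := by
    intro P Q hPQ
    have : ptCoords W P.1 = ptCoords W Q.1 := congrArg Subtype.val hPQ
    exact Subtype.ext (ptCoords_injective W this)
  have hfin : Finite S := Finite.of_injective g hg
  refine ⟨hfin, ?_⟩
  calc Nat.card S ≤ Nat.card B := Nat.card_le_card_of_injective g hg
    _ = B.card := by rw [Nat.card_eq_fintype_card, Fintype.card_coe]
    _ ≤ _ := hB

end counting

section existence

variable {F : Type*} [Field F] [DecidableEq F] (W : WeierstrassCurve.Affine F)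

/-- Bezout identity between `ψ₃` and `Ψ₂Sq` with the discriminant. -/
lemma bezout_psi3_psi2sq (x : F) :
    (48*x^2 + 8*W.b₂*x - W.b₂^2 + 32*W.b₄) * (3*x^4 + W.b₂*x^3 + 3*W.b₄*x^2 + 3*W.b₆*x + W.b₈)
      + (-36*x^3 - 9*W.b₂*x^2 + (W.b₂^2 - 42*W.b₄)*x + W.b₂*W.b₄ - 27*W.b₆)
        * (4*x^3 + W.b₂*x^2 + 2*W.b₄*x + W.b₆) = W.Δ := by
  simp only [WeierstrassCurve.Δ, WeierstrassCurve.b₂, WeierstrassCurve.b₄, WeierstrassCurve.b₆,
    WeierstrassCurve.b₈]
  ring

/-- `(y - negY)^2 = Ψ₂Sq(x)` on the curve. -/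
lemma sub_negY_sq {x y : F} (h : W.Equation x y) :
    (y - W.negY x y)^2 = 4*x^3 + W.b₂*x^2 + 2*W.b₄*x + W.b₆ := by
  rw [WeierstrassCurve.Affine.equation_iff] at h
  simp only [WeierstrassCurve.Affine.negY, WeierstrassCurve.b₂, WeierstrassCurve.b₄,
    WeierstrassCurve.b₆]
  linear_combination (4 : F) * h

lemma addX_aux (x y a₁ a₂ a₃ a₄ a₆ d n : F) (hd : d ≠ 0) (hdd : d = 2*y + a₁*x + a₃)
    (hn : n = 3*x^2 + 2*a₂*x + a₄ - a₁*y)
    (hψ : 3*x^4 + (a₁^2 + 4*a₂)*x^3 + 3*(2*a₄ + a₁*a₃)*x^2 + 3*(a₃^2 + 4*a₆)*x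
      + (a₁^2*a₆ + 4*a₂*a₆ - a₁*a₃*a₄ + a₂*a₃^2 - a₄^2) = 0)
    (h : y ^ 2 + a₁ * x * y + a₃ * y = x ^ 3 + a₂ * x ^ 2 + a₄ * x + a₆) :
    (n/d)^2 + a₁*(n/d) - a₂ - x - x = x := by
  field_simp
  subst hdd hn
  linear_combination (-1 : F) * hψ + (-12*x - a₁^2 - 4*a₂) * h

/-- A point whose `x`-coordinate is a root of `ψ₃` is killed by `3` (if `Δ ≠ 0`). -/
lemma three_smul_eq_zero_of_psi3 (hΔ : W.Δ ≠ 0) {x y : F} (h : W.Nonsingular x y)
    (hψ : 3*x^4 + W.b₂*x^3 + 3*W.b₄*x^2 + 3*W.b₆*x + W.b₈ = 0) :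
    (3:ℤ) • (Affine.Point.some x y h) = 0 := by
  have hy : y ≠ W.negY x y := by
    intro hy
    have h1 := sub_negY_sq W h.1
    rw [← hy, sub_self] at h1
    have h2 := bezout_psi3_psi2sq W x
    rw [hψ, ← h1] at h2
    apply hΔ
    rw [← h2]; ring
  have hx : W.addX x x (W.slope x x y y) = x := by
    have hd : y - W.negY x y ≠ 0 := sub_ne_zero.mpr hy
    rw [WeierstrassCurve.Affine.slope_of_Y_ne rfl hy]
    have hE := h.1
    rw [WeierstrassCurve.Affine.equation_iff] at hE
    simp only [WeierstrassCurve.Affine.addX]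
    simp only [WeierstrassCurve.b₂, WeierstrassCurve.b₄, WeierstrassCurve.b₆,
      WeierstrassCurve.b₈] at hψ
    exact addX_aux x y W.a₁ W.a₂ W.a₃ W.a₄ W.a₆ (y - W.negY x y)
      (3 * x ^ 2 + 2 * W.a₂ * x + W.a₄ - W.a₁ * y) hd
      (by simp only [WeierstrassCurve.Affine.negY]; ring) rfl hψ hE
  have hPP : Affine.Point.some x y h + Affine.Point.some x y h = -Affine.Point.some x y h := by
    have h2 := Affine.Point.add_self_of_Y_ne (h₁ := h) hy
    -- the double has the same x-coordinate as P, so it is ±P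
    have hor := (Affine.Point.X_eq_iff (h₁ := (Affine.nonsingular_add h h
      (fun hxy => hy hxy.2))) (h₂ := h)).mp hx
    rw [← Affine.Point.add_some (fun hxy => hy hxy.2)] at hor
    rcases hor with h3 | h3
    · exfalso
      have : Affine.Point.some x y h = 0 := by
        have := congrArg (· - Affine.Point.some x y h) h3
        simpa using this
      exact Affine.Point.some_ne_zero h this
    · exact h3
  rw [show (3:ℤ) = 1 + 1 + 1 by norm_num, add_zsmul, add_zsmul, one_zsmul, hPP]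
  exact neg_add_cancel _

/-- Existence of a nonzero point killed by `3` over an algebraically closed field. -/
theorem exists_three_torsion_point [IsAlgClosed F] (h3 : (3 : F) ≠ 0) (hΔ : W.Δ ≠ 0) :
    ∃ P : W.Point, P ≠ 0 ∧ (3:ℤ) • P = 0 := by
  have hdeg : (WeierstrassCurve.Ψ₃ W).degree ≠ 0 := by
    rw [Polynomial.degree_eq_natDegree (WeierstrassCurve.Ψ₃_ne_zero W h3),
      WeierstrassCurve.natDegree_Ψ₃ W h3]
    norm_num
  obtain ⟨x, hx⟩ := IsAlgClosed.exists_root _ hdeg
  have hdegY : (quadY W x).degree ≠ 0 := by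
    rw [Polynomial.degree_eq_natDegree (quadY_ne_zero W x), quadY_natDegree]
    norm_num
  obtain ⟨y, hy⟩ := IsAlgClosed.exists_root _ hdegY
  have hE : W.Equation x y := (quadY_eval W x y).mp hy
  have : WeierstrassCurve.IsElliptic W := ⟨isUnit_iff_ne_zero.mpr hΔ⟩
  have hns : W.Nonsingular x y := WeierstrassCurve.Affine.equation_iff_nonsingular.mp hE
  refine ⟨Affine.Point.some x y hns, Affine.Point.some_ne_zero hns, ?_⟩
  apply three_smul_eq_zero_of_psi3 W hΔ hns
  have : Polynomial.eval x (WeierstrassCurve.Ψ₃ W) = 0 := hx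
  simp only [WeierstrassCurve.Ψ₃, Polynomial.eval_add, Polynomial.eval_mul,
    Polynomial.eval_pow, Polynomial.eval_X, Polynomial.eval_C, Polynomial.eval_ofNat] at this
  linear_combination this

end existence

lemma zmod3_cases : ∀ c : ZMod 3, c = 0 ∨ c = 1 ∨ c = 2 := by decide

section galois

open scoped WeierstrassCurve.Affine

variable (E : WeierstrassCurve.Affine ℚ)

local notation "Kbar" => AlgebraicClosure ℚ

/-- The `3`-torsion of `E` over `ℚ̄` is finite of cardinality at most `9`. -/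
lemma three_torsion_finite_card :
    Finite (Submodule.torsionBy ℤ (E⁄Kbar).Point ((3 : ℕ) : ℤ)) ∧
      Nat.card (Submodule.torsionBy ℤ (E⁄Kbar).Point ((3 : ℕ) : ℤ)) ≤ 9 := by
  have h3 : (3 : Kbar) ≠ 0 := by norm_num
  have hp : (E⁄Kbar).Ψ₃ ≠ 0 := WeierstrassCurve.Ψ₃_ne_zero _ h3
  have key := finite_and_card_le_of_forall_root (E⁄Kbar)
    (Submodule.torsionBy ℤ (E⁄Kbar).Point ((3 : ℕ) : ℤ) : Set (E⁄Kbar).Point) (E⁄Kbar).Ψ₃ hp
    (by
      intro x y h hmem
      have h3' : (3 : ℤ) • Affine.Point.some x y h = 0 := by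
        have := (Submodule.mem_torsionBy_iff _ _).mp hmem
        simpa using this
      have := psi3_of_three_torsion (E⁄Kbar) h h3'
      simp only [WeierstrassCurve.Ψ₃, Polynomial.eval_add, Polynomial.eval_mul,
        Polynomial.eval_pow, Polynomial.eval_X, Polynomial.eval_C, Polynomial.eval_ofNat]
      linear_combination this)
  refine ⟨key.1, le_trans key.2 ?_⟩
  have := WeierstrassCurve.natDegree_Ψ₃_le (E⁄Kbar)
  omega

/-- The Galois action on a point with coordinates. -/
lemma smul_some (σ : Kbar ≃ₐ[ℚ] Kbar) {x y : Kbar} (h : (E⁄Kbar).Nonsingular x y) :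
    σ • (Affine.Point.some x y h : (E⁄Kbar).Point) = Affine.Point.some (σ x) (σ y)
      ((E.baseChange_nonsingular σ.toAlgHom.injective ..).mpr h) :=
  rfl

theorem exists_three_data_aux
    (hnt : Nontrivial (Submodule.torsionBy ℤ (E⁄Kbar).Point ((3 : ℕ) : ℤ)))
    (h : ¬ Affine.Point.GaloisRepIsIrreducible (K := Kbar) ℚ E 3) :
    ∃ x₃ : ℚ, 3*x₃^4 + E.b₂*x₃^3 + 3*E.b₄*x₃^2 + 3*E.b₆*x₃ + E.b₈ = 0 := by
  unfold Affine.Point.GaloisRepIsIrreducible at h
  push Not at h
  obtain ⟨N, hstab, hbot, htop⟩ := h hnt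
  obtain ⟨P, hPN, hP0⟩ := Submodule.exists_mem_ne_zero_of_ne_bot hbot
  obtain ⟨hfin, hcard⟩ := three_torsion_finite_card E
  have := hfin
  have : Fact (Nat.Prime 3) := ⟨Nat.prime_three⟩
  have hmul : ∀ Q ∈ N, ∃ c : ZMod 3, c • P = Q := fun Q hQ =>
    exists_smul_eq_of_mem_proper_submodule (p := 3) (by omega) N htop hPN hP0 hQ
  obtain ⟨P₀, hP₀⟩ := P
  have hP₀ne : P₀ ≠ 0 := fun h0 => hP0 (Subtype.ext h0)
  have h3P : (3:ℤ) • P₀ = 0 := by simpa using (Submodule.mem_torsionBy_iff _ _).mp hP₀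
  cases P₀ with
  | zero => exact absurd rfl hP₀ne
  | some x y hxy =>
    have hPP : Affine.Point.some x y hxy + Affine.Point.some x y hxy
        = -Affine.Point.some x y hxy := by
      have : (3:ℤ) • (Affine.Point.some x y hxy)
          = Affine.Point.some x y hxy + Affine.Point.some x y hxy + Affine.Point.some x y hxy := by
        rw [show (3:ℤ) = 1 + 1 + 1 by norm_num, add_zsmul, add_zsmul, one_zsmul]
      rw [this] at h3P
      exact eq_neg_of_add_eq_zero_left h3P
    have hfix : ∀ σ : Kbar ≃ₐ[ℚ] Kbar, σ x = x := by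
      intro σ
      obtain ⟨c, hc⟩ := hmul _ (hstab σ _ hPN)
      have hσ : Subtype.val (σ • (⟨Affine.Point.some x y hxy, hP₀⟩ :
          Submodule.torsionBy ℤ (E⁄Kbar).Point ((3:ℕ):ℤ)))
          = Affine.Point.some (σ x) (σ y)
            ((E.baseChange_nonsingular σ.toAlgHom.injective ..).mpr hxy) := smul_some E σ hxy
      rcases zmod3_cases c with rfl | rfl | rfl
      · rw [zero_smul] at hc
        have h0 := congrArg Subtype.val hc
        rw [hσ] at h0
        exact absurd h0.symm (Affine.Point.some_ne_zero _)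
      · rw [one_smul] at hc
        have h0 := congrArg Subtype.val hc
        rw [hσ] at h0
        injection h0 with h1 h2
        exact h1.symm
      · rw [two_smul] at hc
        have h0 := congrArg Subtype.val hc
        rw [hσ, Submodule.coe_add] at h0
        change Affine.Point.some x y hxy + Affine.Point.some x y hxy = _ at h0
        rw [hPP, Affine.Point.neg_some] at h0
        injection h0 with h1 h2
        exact h1.symm
    obtain ⟨q, hq⟩ := fixed_rational x hfix
    refine ⟨q, ?_⟩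
    have hψ := psi3_of_three_torsion (E⁄Kbar) hxy h3P
    simp only [WeierstrassCurve.baseChange, WeierstrassCurve.map_b₂, WeierstrassCurve.map_b₄,
      WeierstrassCurve.map_b₆, WeierstrassCurve.map_b₈] at hψ
    rw [← hq] at hψ
    apply (algebraMap ℚ Kbar).injective
    rw [map_zero, ← hψ]
    simp only [map_add, map_mul, map_pow, map_ofNat]

/-- `E[3]` over `ℚ̄` is nontrivial when `Δ ≠ 0`. -/
theorem nontrivial_three_torsion (hΔ : E.Δ ≠ 0) :
    Nontrivial (Submodule.torsionBy ℤ (E⁄Kbar).Point ((3 : ℕ) : ℤ)) := by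
  have h3 : (3 : Kbar) ≠ 0 := by norm_num
  have hΔ' : (E⁄Kbar).Δ ≠ 0 := by
    simp only [WeierstrassCurve.baseChange, WeierstrassCurve.map_Δ]
    exact (map_ne_zero_iff _ (algebraMap ℚ Kbar).injective).mpr hΔ
  obtain ⟨P, hP0, hP3⟩ := exists_three_torsion_point (E⁄Kbar) h3 hΔ'
  have hmem : P ∈ Submodule.torsionBy ℤ (E⁄Kbar).Point ((3 : ℕ) : ℤ) := by
    rw [Submodule.mem_torsionBy_iff]
    simpa using hP3
  exact ⟨⟨⟨P, hmem⟩, 0, fun h => hP0 (congrArg Subtype.val h)⟩⟩

end galois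

/-- (I6-3) If the mod `3` representation is not irreducible, `ψ₃` has a rational root. -/
theorem exists_three_data (W : WeierstrassCurve ℤ) (hΔ : W.Δ ≠ 0)
    (h : ¬ W.ModRepIsIrreducible 3) :
    ∃ x₃ : ℚ, 3*x₃^4 + (W.b₂ : ℚ)*x₃^3 + 3*(W.b₄ : ℚ)*x₃^2 + 3*(W.b₆ : ℚ)*x₃ + (W.b₈ : ℚ) = 0 := by
  have hΔ' : (W.map (Int.castRingHom ℚ)).Δ ≠ 0 := by
    rw [WeierstrassCurve.map_Δ]
    simpa using hΔ
  obtain ⟨x₃, hx₃⟩ := exists_three_data_aux (W.map (Int.castRingHom ℚ))
    (nontrivial_three_torsion _ hΔ') h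
  refine ⟨x₃, ?_⟩
  simpa [WeierstrassCurve.map_b₂, WeierstrassCurve.map_b₄, WeierstrassCurve.map_b₆,
    WeierstrassCurve.map_b₈] using hx₃


end Fermat.Agent.S51
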