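/-
Rational points of `y^2 = x (x + 9) (x - 16)` (the modular curve `X_0(15)`).

We prove by an elementary infinite descent that the system
`A^2 = B^2 + e^2`, `A^2 = C^2 + 81 e^2` has no integer solution with `e ≠ 0`
(this says `2 E_2(ℚ) = 0` for `E_2 : y^2 = x (x - 1) (x - 81)`), deduce that the only rational
points of `E_2` are the points of order two, and pull this back along the 2-isogeny
`E → E_2` to get the rational points of `E : y^2 = x (x + 9) (x - 16)`.
-/
import Mathlib

set_option autoImplicit false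

namespace Fermat.Agent.S51.helper2

/-- Parity and the square modulo `8`. -/
lemma sq_facts (x : ℤ) :
    (x % 2 = 0 ∧ (x ^ 2 % 8 = 0 ∨ x ^ 2 % 8 = 4)) ∨ (x % 2 = 1 ∧ x ^ 2 % 8 = 1) := by
  have h : x % 8 = 0 ∨ x % 8 = 1 ∨ x % 8 = 2 ∨ x % 8 = 3 ∨ x % 8 = 4 ∨ x % 8 = 5 ∨
      x % 8 = 6 ∨ x % 8 = 7 := by omega
  have h2 : x ^ 2 % 8 = (x % 8) * (x % 8) % 8 := by
    rw [pow_two, Int.mul_emod]
  rcases h with h | h | h | h | h | h | h | h <;> rw [h] at h2 <;> omega

/-- Divisibility by three and the square modulo `9`, `3`. -/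
lemma sq_facts3 (x : ℤ) :
    (x % 3 = 0 ∧ x ^ 2 % 9 = 0) ∨ (x % 3 ≠ 0 ∧ x ^ 2 % 3 = 1) := by
  have h : x % 9 = 0 ∨ x % 9 = 1 ∨ x % 9 = 2 ∨ x % 9 = 3 ∨ x % 9 = 4 ∨ x % 9 = 5 ∨
      x % 9 = 6 ∨ x % 9 = 7 ∨ x % 9 = 8 := by omega
  have h2 : x ^ 2 % 9 = (x % 9) * (x % 9) % 9 := by
    rw [pow_two, Int.mul_emod]
  rcases h with h | h | h | h | h | h | h | h | h <;> rw [h] at h2 <;> omega

lemma not_both_even {x y : ℤ} (h : IsCoprime x y) : ¬ (x % 2 = 0 ∧ y % 2 = 0) := by
  rintro ⟨hx, hy⟩
  have h2x : (2 : ℤ) ∣ x := Int.dvd_of_emod_eq_zero hx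
  have h2y : (2 : ℤ) ∣ y := Int.dvd_of_emod_eq_zero hy
  have := h.isUnit_of_dvd' h2x h2y
  rw [Int.isUnit_iff] at this
  omega

lemma not_both_three {x y : ℤ} (h : IsCoprime x y) : ¬ (x % 3 = 0 ∧ y % 3 = 0) := by
  rintro ⟨hx, hy⟩
  have h2x : (3 : ℤ) ∣ x := Int.dvd_of_emod_eq_zero hx
  have h2y : (3 : ℤ) ∣ y := Int.dvd_of_emod_eq_zero hy
  have := h.isUnit_of_dvd' h2x h2y
  rw [Int.isUnit_iff] at this
  omega

lemma natAbs_lt_two_mul (x y : ℤ) (hx : x ≠ 0) (hy : y ≠ 0) :
    x.natAbs < 2 * (x * y).natAbs := by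
  rw [Int.natAbs_mul]
  have h1 := Int.natAbs_pos.2 hx
  have h2 := Int.natAbs_pos.2 hy
  nlinarith


/-- The heart of the descent: from a factorisation `p' q = s t`, `s² + t² = 81 p'² + q²`
we produce a smaller solution of the original system. -/
lemma core (s t p' q : ℤ) (hs : s ≠ 0) (ht : t ≠ 0) (hst : IsCoprime s t)
    (hmul : p' * q = s * t) (hsum : s ^ 2 + t ^ 2 = 81 * p' ^ 2 + q ^ 2)
    (ih : ∀ A B C e : ℤ, e ≠ 0 → e.natAbs < 2 * (s * t).natAbs →
      A ^ 2 = B ^ 2 + e ^ 2 → A ^ 2 = C ^ 2 + 81 * e ^ 2 → False) : False := by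
  -- four number lemma
  have hg : 0 < Int.gcd s p' := Int.gcd_pos_of_ne_zero_left _ hs
  obtain ⟨b, c, hbc1, hsb, hpc⟩ := Int.exists_gcd_one hg
  set a : ℤ := (Int.gcd s p' : ℤ) with ha_def
  have ha0 : a ≠ 0 := by
    have : (0 : ℤ) < (Int.gcd s p' : ℤ) := by exact_mod_cast hg
    exact this.ne'
  have hb0 : b ≠ 0 := by
    rintro rfl
    apply hs
    rw [hsb]; ring
  have hbc : IsCoprime b c := Int.isCoprime_iff_gcd_eq_one.2 hbc1
  have h1 : c * q = b * t := by
    have : a * (c * q) = a * (b * t) := by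
      have e1 : p' * q = (c * a) * q := by rw [← hpc]
      have e2 : s * t = (b * a) * t := by rw [← hsb]
      linear_combination hmul - e1 + e2
    exact mul_left_cancel₀ ha0 this
  have hbq : b ∣ q := by
    have : b ∣ c * q := ⟨t, h1⟩
    exact hbc.dvd_of_dvd_mul_left this
  obtain ⟨d, hd⟩ := hbq
  have htcd : t = c * d := by
    have : b * t = b * (c * d) := by rw [← h1, hd]; ring
    exact mul_left_cancel₀ hb0 this
  have hc0 : c ≠ 0 := by
    rintro rfl
    apply ht
    rw [htcd]; ring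
  have hd0 : d ≠ 0 := by
    rintro rfl
    apply ht
    rw [htcd]; ring
  have hsab : s = a * b := by rw [hsb]; ring
  have hpac : p' = a * c := by rw [hpc]; ring
  have had : IsCoprime a d := by
    have h := hst
    rw [hsab, htcd] at h
    exact (h.of_mul_left_left).of_mul_right_right
  -- the key relation
  have hrel : a ^ 2 * (b ^ 2 - 81 * c ^ 2) = d ^ 2 * (b ^ 2 - c ^ 2) := by
    have h := hsum
    rw [hsab, htcd, hpac, hd] at h
    linear_combination h
  have hdvd : a ^ 2 ∣ b ^ 2 - c ^ 2 := by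
    have hcop : IsCoprime (a ^ 2) (d ^ 2) := had.pow
    have : a ^ 2 ∣ d ^ 2 * (b ^ 2 - c ^ 2) := ⟨_, hrel.symm⟩
    exact hcop.dvd_of_dvd_mul_left this
  obtain ⟨K, hK1⟩ := hdvd
  have ha2 : a ^ 2 ≠ 0 := pow_ne_zero 2 ha0
  have hK2 : b ^ 2 - 81 * c ^ 2 = d ^ 2 * K := by
    have : a ^ 2 * (b ^ 2 - 81 * c ^ 2) = a ^ 2 * (d ^ 2 * K) := by
      rw [hrel, hK1]; ring
    exact mul_left_cancel₀ ha2 this
  have hK80 : K ∣ 80 := by
    have hcop : IsCoprime (b ^ 2) (c ^ 2) := hbc.pow
    obtain ⟨u, v, huv⟩ := hcop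
    refine ⟨u * (81 * a ^ 2 - d ^ 2) + v * (a ^ 2 - d ^ 2), ?_⟩
    linear_combination (-80 : ℤ) * huv + (81 * u + v) * hK1 - (u + v) * hK2
  have hK0 : K ≠ 0 := by
    rintro rfl
    simp at hK80
  -- size bounds
  have hst_eq : s * t = a * b * c * d := by rw [hsab, htcd]; ring
  have hsize_a : a.natAbs < 2 * (s * t).natAbs := by
    rw [show s * t = a * (b * c * d) by rw [hst_eq]; ring]
    exact natAbs_lt_two_mul a _ ha0 (mul_ne_zero (mul_ne_zero hb0 hc0) hd0)
  have hsize_b : b.natAbs < 2 * (s * t).natAbs := by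
    rw [show s * t = b * (a * c * d) by rw [hst_eq]; ring]
    exact natAbs_lt_two_mul b _ hb0 (mul_ne_zero (mul_ne_zero ha0 hc0) hd0)
  have hsize_c : c.natAbs < 2 * (s * t).natAbs := by
    rw [show s * t = c * (a * b * d) by rw [hst_eq]; ring]
    exact natAbs_lt_two_mul c _ hc0 (mul_ne_zero (mul_ne_zero ha0 hb0) hd0)
  have hsize_d : d.natAbs < 2 * (s * t).natAbs := by
    rw [show s * t = d * (a * b * c) by rw [hst_eq]; ring]
    exact natAbs_lt_two_mul d _ hd0 (mul_ne_zero (mul_ne_zero ha0 hb0) hc0)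
  -- parity information
  have hpa := sq_facts a
  have hpb := sq_facts b
  have hpc' := sq_facts c
  have hpd := sq_facts d
  have hnbc := not_both_even hbc
  have hnad := not_both_even had
  -- enumerate the divisors of 80
  have hKabs : K.natAbs ∣ 80 := by
    have := Int.natAbs_dvd_natAbs.2 hK80
    simpa using this
  have hKmem : K.natAbs ∈ Nat.divisors 80 := Nat.mem_divisors.2 ⟨hKabs, by norm_num⟩
  have hdiv : Nat.divisors 80 = {1, 2, 4, 5, 8, 10, 16, 20, 40, 80} := by decide
  rw [hdiv] at hKmem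
  simp only [Finset.mem_insert, Finset.mem_singleton] at hKmem
  have hKcases : K = 1 ∨ K = -1 ∨ K = 2 ∨ K = -2 ∨ K = 4 ∨ K = -4 ∨ K = 5 ∨ K = -5 ∨
      K = 8 ∨ K = -8 ∨ K = 10 ∨ K = -10 ∨ K = 16 ∨ K = -16 ∨ K = 20 ∨ K = -20 ∨
      K = 40 ∨ K = -40 ∨ K = 80 ∨ K = -80 := by omega
  rcases hKcases with rfl | rfl | rfl | rfl | rfl | rfl | rfl | rfl | rfl | rfl | rfl | rfl |
    rfl | rfl | rfl | rfl | rfl | rfl | rfl | rfl
  · -- K = 1
    exact ih b (1 * a) (1 * d) c hc0 hsize_c (by linear_combination hK1)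
      (by linear_combination hK2)
  · -- K = -1
    exact ih (9 * c) (1 * d) (9 * a) b hb0 hsize_b (by linear_combination -hK2)
      (by linear_combination (-81 : ℤ) * hK1)
  · -- K = 2
    omega
  · -- K = -2
    omega
  · -- K = 4
    exact ih b (2 * a) (2 * d) c hc0 hsize_c (by linear_combination hK1)
      (by linear_combination hK2)
  · -- K = -4
    exact ih (9 * c) (2 * d) (18 * a) b hb0 hsize_b (by linear_combination -hK2)
      (by linear_combination (-81 : ℤ) * hK1)
  · -- K = 5
    exact ih (9 * a) (4 * b) (36 * c) d hd0 hsize_d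
      (by linarith [hK1, hK2])
      (by linarith [hK1, hK2])
  · -- K = -5
    exact ih d (4 * c) (4 * b) a ha0 hsize_a
      (by linarith [hK1, hK2])
      (by linarith [hK1, hK2])
  · -- K = 8
    omega
  · -- K = -8
    omega
  · -- K = 10
    omega
  · -- K = -10
    omega
  · -- K = 16
    exact ih b (4 * a) (4 * d) c hc0 hsize_c (by linear_combination hK1)
      (by linear_combination hK2)
  · -- K = -16
    exact ih (9 * c) (4 * d) (36 * a) b hb0 hsize_b (by linear_combination -hK2)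
      (by linear_combination (-81 : ℤ) * hK1)
  · -- K = 20
    exact ih (9 * a) (2 * b) (18 * c) d hd0 hsize_d
      (by linarith [hK1, hK2])
      (by linarith [hK1, hK2])
  · -- K = -20
    exact ih d (2 * c) (2 * b) a ha0 hsize_a
      (by linarith [hK1, hK2])
      (by linarith [hK1, hK2])
  · -- K = 40
    omega
  · -- K = -40
    omega
  · -- K = 80
    exact ih (9 * a) (1 * b) (9 * c) d hd0 hsize_d
      (by linarith [hK1, hK2])
      (by linarith [hK1, hK2])
  · -- K = -80
    exact ih d (1 * c) (1 * b) a ha0 hsize_a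
      (by linarith [hK1, hK2])
      (by linarith [hK1, hK2])

/-- Infinite descent: the system `A² = B² + e²`, `A² = C² + 81 e²` has no solution with
`e ≠ 0`. -/
theorem no_solution_aux : ∀ n : ℕ, ∀ A B C e : ℤ, e.natAbs = n → e ≠ 0 →
    A ^ 2 = B ^ 2 + e ^ 2 → A ^ 2 = C ^ 2 + 81 * e ^ 2 → False := by
  intro n
  induction n using Nat.strong_induction_on with
  | _ n ih =>
  intro A B C e hn he h1 h2
  by_cases hcop : IsCoprime A e
  · -- the primitive case
    have hBe : IsCoprime B e := by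
      have h : IsCoprime (A ^ 2) e := hcop.pow_left
      rw [h1] at h
      have h' : IsCoprime (B * B + e * e) e := by
        have : B * B + e * e = B ^ 2 + e ^ 2 := by ring
        rwa [this]
      exact (IsCoprime.of_add_mul_left_left h').of_mul_left_left
    have hCe : IsCoprime C e := by
      have h : IsCoprime (A ^ 2) e := hcop.pow_left
      rw [h2] at h
      have h' : IsCoprime (C * C + e * (81 * e)) e := by
        have : C * C + e * (81 * e) = C ^ 2 + 81 * e ^ 2 := by ring
        rwa [this]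
      exact (IsCoprime.of_add_mul_left_left h').of_mul_left_left
    have hfA := sq_facts3 A
    have hfB := sq_facts3 B
    have hfC := sq_facts3 C
    have hfe := sq_facts3 e
    have hn3 := not_both_three hcop
    have hC3 : ¬ (3 : ℤ) ∣ C := by
      intro h3
      have hC0 : C % 3 = 0 := Int.emod_eq_zero_of_dvd h3
      omega
    have hC3' : IsCoprime C (3 : ℤ) :=
      ((Prime.coprime_iff_not_dvd Int.prime_three).2 hC3).symm
    have hC9 : IsCoprime C (9 : ℤ) := by
      have := hC3'.pow_right (n := 2)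
      norm_num at this
      exact this
    have hC9e : IsCoprime (9 * e) C := (hC9.mul_right hCe).symm
    have hpt1 : PythagoreanTriple e B A := by
      unfold PythagoreanTriple
      linear_combination -h1
    have hpt2 : PythagoreanTriple (9 * e) C A := by
      unfold PythagoreanTriple
      linear_combination -h2
    obtain ⟨m, k, hform, hz, hmk, hpar⟩ :=
      PythagoreanTriple.coprime_classification.1
        ⟨hpt1, Int.isCoprime_iff_gcd_eq_one.1 hBe.symm⟩
    obtain ⟨p, q, hform', hz', hpq, hpar'⟩ :=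
      PythagoreanTriple.coprime_classification.1
        ⟨hpt2, Int.isCoprime_iff_gcd_eq_one.1 hC9e⟩
    have hmkc : IsCoprime m k := Int.isCoprime_iff_gcd_eq_one.2 hmk
    have hpqc : IsCoprime p q := Int.isCoprime_iff_gcd_eq_one.2 hpq
    have hsumsq : m ^ 2 + k ^ 2 = p ^ 2 + q ^ 2 := by
      have hm := sq_nonneg m
      have hk := sq_nonneg k
      have hp := sq_nonneg p
      have hq := sq_nonneg q
      rcases hz with hz | hz <;> rcases hz' with hz' | hz' <;> linarith
    have hsm := sq_facts m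
    have hsk := sq_facts k
    have hsp := sq_facts p
    have hsq := sq_facts q
    rcases hform with ⟨he1, -⟩ | ⟨he1, -⟩ <;> rcases hform' with ⟨he2, -⟩ | ⟨he2, -⟩
    · -- both odd type: impossible modulo 8
      exfalso
      omega
    · -- parity mismatch
      exfalso
      have : 2 * p * q = 2 * (p * q) := by ring
      omega
    · exfalso
      have : 2 * m * k = 2 * (m * k) := by ring
      omega
    · -- both of even type: the real descent
      have hpq9 : p * q = 9 * (m * k) := by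
        have : (2 : ℤ) * (p * q) = 2 * (9 * (m * k)) := by
          linear_combination -he2 + 9 * he1
        exact mul_left_cancel₀ two_ne_zero this
      have hm0 : m ≠ 0 := by
        rintro rfl
        apply he
        rw [he1]; ring
      have hk0 : k ≠ 0 := by
        rintro rfl
        apply he
        rw [he1]; ring
      have hsize : ∀ e' : ℤ, e'.natAbs < 2 * (m * k).natAbs → e'.natAbs < n := by
        intro e' he'
        have : e.natAbs = 2 * (m * k).natAbs := by
          rw [he1, show 2 * m * k = 2 * (m * k) by ring, Int.natAbs_mul]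
          rfl
        omega
      have ih' : ∀ A B C e' : ℤ, e' ≠ 0 → e'.natAbs < 2 * (m * k).natAbs →
          A ^ 2 = B ^ 2 + e' ^ 2 → A ^ 2 = C ^ 2 + 81 * e' ^ 2 → False :=
        fun A' B' C' e' he'0 he'lt h1' h2' =>
          ih e'.natAbs (hsize e' he'lt) A' B' C' e' rfl he'0 h1' h2'
      have h3 : (3 : ℤ) ∣ p * q := ⟨3 * (m * k), by rw [hpq9]; ring⟩
      have h9 : (9 : ℤ) ∣ p * q := ⟨m * k, hpq9⟩
      rcases Int.prime_three.dvd_or_dvd h3 with h3p | h3q
      · have hcq : IsCoprime (3 : ℤ) q := IsCoprime.of_isCoprime_of_dvd_left hpqc h3p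
        have h9q : IsCoprime (9 : ℤ) q := by
          have := hcq.pow_left (m := 2)
          norm_num at this
          exact this
        obtain ⟨p', rfl⟩ := h9q.dvd_of_dvd_mul_right h9
        refine core m k p' q hm0 hk0 hmkc ?_ ?_ ih'
        · have : (9 : ℤ) * (p' * q) = 9 * (m * k) := by linear_combination hpq9
          exact mul_left_cancel₀ (by norm_num) this
        · linear_combination hsumsq
      · have hcp : IsCoprime (3 : ℤ) p := IsCoprime.of_isCoprime_of_dvd_left hpqc.symm h3q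
        have h9p : IsCoprime (9 : ℤ) p := by
          have := hcp.pow_left (m := 2)
          norm_num at this
          exact this
        obtain ⟨q', rfl⟩ := h9p.dvd_of_dvd_mul_left h9
        refine core m k q' p hm0 hk0 hmkc ?_ ?_ ih'
        · have : (9 : ℤ) * (q' * p) = 9 * (m * k) := by linear_combination hpq9
          exact mul_left_cancel₀ (by norm_num) this
        · linear_combination hsumsq
  · -- a common factor can be divided out
    have hg1 : Int.gcd A e ≠ 1 := fun h => hcop (Int.isCoprime_iff_gcd_eq_one.2 h)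
    have hg0 : 0 < Int.gcd A e := Int.gcd_pos_of_ne_zero_right _ he
    set g : ℤ := (Int.gcd A e : ℤ) with hg_def
    have hgpos : (0 : ℤ) < g := by
      rw [hg_def]; exact_mod_cast hg0
    have hg2 : (2 : ℤ) ≤ g := by
      have : 2 ≤ Int.gcd A e := by omega
      rw [hg_def]; exact_mod_cast this
    obtain ⟨A', hA'⟩ : g ∣ A := Int.gcd_dvd_left A e
    obtain ⟨e', he'⟩ : g ∣ e := Int.gcd_dvd_right A e
    have hgB : g ∣ B := by
      rw [← Int.pow_dvd_pow_iff (n := 2) two_ne_zero]
      refine ⟨A' ^ 2 - e' ^ 2, ?_⟩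
      rw [hA', he'] at h1
      linear_combination -h1
    have hgC : g ∣ C := by
      rw [← Int.pow_dvd_pow_iff (n := 2) two_ne_zero]
      refine ⟨A' ^ 2 - 81 * e' ^ 2, ?_⟩
      rw [hA', he'] at h2
      linear_combination -h2
    obtain ⟨B', hB'⟩ := hgB
    obtain ⟨C', hC'⟩ := hgC
    have hg2ne : g ^ 2 ≠ 0 := pow_ne_zero 2 hgpos.ne'
    have he'0 : e' ≠ 0 := by
      rintro rfl
      apply he
      rw [he']; ring
    have hlt : e'.natAbs < n := by
      rw [← hn, he', Int.natAbs_mul]
      have h1 : 2 ≤ g.natAbs := by omega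
      have h2 := Int.natAbs_pos.2 he'0
      nlinarith
    refine ih e'.natAbs hlt A' B' C' e' rfl he'0 ?_ ?_
    · have : g ^ 2 * A' ^ 2 = g ^ 2 * (B' ^ 2 + e' ^ 2) := by
        rw [hA', he', hB'] at h1
        linear_combination h1
      exact mul_left_cancel₀ hg2ne this
    · have : g ^ 2 * A' ^ 2 = g ^ 2 * (C' ^ 2 + 81 * e' ^ 2) := by
        rw [hA', he', hC'] at h2
        linear_combination h2
      exact mul_left_cancel₀ hg2ne this

/-- The system `A² = B² + e²`, `A² = C² + 81 e²` has no integer solution with `e ≠ 0`. -/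
theorem no_solution (A B C e : ℤ) (he : e ≠ 0) (h1 : A ^ 2 = B ^ 2 + e ^ 2)
    (h2 : A ^ 2 = C ^ 2 + 81 * e ^ 2) : False :=
  no_solution_aux _ A B C e rfl he h1 h2

/-- Rational version. -/
theorem no_solution_rat (α β γ : ℚ) (h1 : α ^ 2 = β ^ 2 + 1) (h2 : α ^ 2 = γ ^ 2 + 81) :
    False := by
  have hα : (α.den : ℚ) ≠ 0 := by exact_mod_cast α.den_nz
  have hβ : (β.den : ℚ) ≠ 0 := by exact_mod_cast β.den_nz
  have hγ : (γ.den : ℚ) ≠ 0 := by exact_mod_cast γ.den_nz
  have eα : α * α.den = α.num := Rat.mul_den_eq_num α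
  have eβ : β * β.den = β.num := Rat.mul_den_eq_num β
  have eγ : γ * γ.den = γ.num := Rat.mul_den_eq_num γ
  refine no_solution (α.num * β.den * γ.den) (β.num * α.den * γ.den) (γ.num * α.den * β.den)
    (α.den * β.den * γ.den) ?_ ?_ ?_
  · have : (α.den : ℤ) ≠ 0 := by exact_mod_cast α.den_nz
    have : (β.den : ℤ) ≠ 0 := by exact_mod_cast β.den_nz
    have : (γ.den : ℤ) ≠ 0 := by exact_mod_cast γ.den_nz
    positivity
  · have : ((α.num * β.den * γ.den : ℤ) : ℚ) ^ 2 =
        ((β.num * α.den * γ.den : ℤ) : ℚ) ^ 2 + ((α.den * β.den * γ.den : ℤ) : ℚ) ^ 2 := by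
      push_cast
      rw [← eα, ← eβ]
      linear_combination ((α.den : ℚ) * β.den * γ.den) ^ 2 * h1
    exact_mod_cast this
  · have : ((α.num * β.den * γ.den : ℤ) : ℚ) ^ 2 =
        ((γ.num * α.den * β.den : ℤ) : ℚ) ^ 2 + 81 * ((α.den * β.den * γ.den : ℤ) : ℚ) ^ 2 := by
      push_cast
      rw [← eα, ← eγ]
      linear_combination ((α.den : ℚ) * β.den * γ.den) ^ 2 * h2
    exact_mod_cast this

/-- The rational points of `y² = x (x - 1) (x - 81)` are the points of order two. -/
theorem points_E2 (x y : ℚ) (h : y ^ 2 = x * (x - 1) * (x - 81)) :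
    x = 0 ∨ x = 1 ∨ x = 81 := by
  by_cases hy : y = 0
  · subst hy
    have h0 : x * (x - 1) * (x - 81) = 0 := by rw [← h]; ring
    rcases mul_eq_zero.1 h0 with h0 | h0
    · rcases mul_eq_zero.1 h0 with h0 | h0
      · exact Or.inl h0
      · exact Or.inr (Or.inl (by linarith))
    · exact Or.inr (Or.inr (by linarith))
  · exfalso
    have h2y : 2 * y ≠ 0 := mul_ne_zero two_ne_zero hy
    refine no_solution_rat ((x ^ 2 - 81) / (2 * y)) ((x ^ 2 - 2 * x + 81) / (2 * y))
      ((x ^ 2 - 162 * x + 81) / (2 * y)) ?_ ?_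
    · field_simp
      linear_combination (-4 : ℚ) * h
    · field_simp
      linear_combination (-324 : ℚ) * h

/-- The rational points of `y² = x (x + 9) (x - 16)`: the `x`-coordinate is one of
`0, -9, 16, -4, 36`. -/
theorem descent15 (x y : ℚ) (h : y ^ 2 = x * (x + 9) * (x - 16)) :
    x = 0 ∨ x = -9 ∨ x = 16 ∨ x = -4 ∨ x = 36 := by
  by_cases hx : x = 16
  · exact Or.inr (Or.inr (Or.inl hx))
  · have hX : x - 16 ≠ 0 := sub_ne_zero.2 hx
    have key := points_E2 (x * (x + 9) / (x - 16))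
      (y * ((x - 16) ^ 2 - 400) / (x - 16) ^ 2) (by
        field_simp
        linear_combination (((x - 16) ^ 2 - 400) ^ 2) * h)
    rcases key with h0 | h1 | h81
    · rw [div_eq_zero_iff] at h0
      rcases h0 with h0 | h0
      · rcases mul_eq_zero.1 h0 with h0 | h0
        · exact Or.inl h0
        · exact Or.inr (Or.inl (by linarith))
      · exact absurd h0 hX
    · rw [div_eq_iff hX] at h1
      have : (x + 4) ^ 2 = 0 := by linear_combination h1
      have := pow_eq_zero_iff (two_ne_zero) |>.1 this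
      exact Or.inr (Or.inr (Or.inr (Or.inl (by linarith))))
    · rw [div_eq_iff hX] at h81
      have : (x - 36) ^ 2 = 0 := by linear_combination h81
      have := pow_eq_zero_iff (two_ne_zero) |>.1 this
      exact Or.inr (Or.inr (Or.inr (Or.inr (by linarith))))

/-- The rational points of `y² = x (x + 9) (x - 16)`, with their `y`-coordinates. -/
theorem descent15_points (x y : ℚ) (h : y ^ 2 = x * (x + 9) * (x - 16)) :
    (x = 0 ∧ y = 0) ∨ (x = -9 ∧ y = 0) ∨ (x = 16 ∧ y = 0) ∨
      (x = -4 ∧ (y = 20 ∨ y = -20)) ∨ (x = 36 ∧ (y = 180 ∨ y = -180)) := by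
  rcases descent15 x y h with rfl | rfl | rfl | rfl | rfl
  · refine Or.inl ⟨rfl, ?_⟩
    have : y ^ 2 = 0 := by rw [h]; norm_num
    exact pow_eq_zero_iff two_ne_zero |>.1 this
  · refine Or.inr (Or.inl ⟨rfl, ?_⟩)
    have : y ^ 2 = 0 := by rw [h]; norm_num
    exact pow_eq_zero_iff two_ne_zero |>.1 this
  · refine Or.inr (Or.inr (Or.inl ⟨rfl, ?_⟩))
    have : y ^ 2 = 0 := by rw [h]; norm_num
    exact pow_eq_zero_iff two_ne_zero |>.1 this
  · refine Or.inr (Or.inr (Or.inr (Or.inl ⟨rfl, ?_⟩)))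
    have h' : (y - 20) * (y + 20) = 0 := by
      have : y ^ 2 = 400 := by rw [h]; norm_num
      linear_combination this
    rcases mul_eq_zero.1 h' with h' | h'
    · exact Or.inl (by linarith)
    · exact Or.inr (by linarith)
  · refine Or.inr (Or.inr (Or.inr (Or.inr ⟨rfl, ?_⟩)))
    have h' : (y - 180) * (y + 180) = 0 := by
      have : y ^ 2 = 32400 := by rw [h]; norm_num
      linear_combination this
    rcases mul_eq_zero.1 h' with h' | h'
    · exact Or.inl (by linarith)
    · exact Or.inr (by linarith)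

end Fermat.Agent.S51.helper2
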