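import Mathlib.AlgebraicGeometry.EllipticCurve.Weierstrass
import Mathlib.Tactic
import Fermat.Prelude.Def_FLTPrelim_Modularity

/-!
# S51, piece I5 (helper44): the four exceptional `j`-invariants are not semistable

The four non-cuspidal rational points of `X₀(15)` have
`j ∈ {-25/2, -349938025/8, -121945/32, 46969655/32768}`; in each case `v₅(j) ∈ {1, 2}`, which is
impossible for a semistable integral model (`5 ∣ Δ → ¬ 5 ∣ c₄`).
-/

set_option autoImplicit false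

namespace Fermat.Agent.S51.helper44

theorem i5_prime_five : Prime (5 : ℤ) := by
  rw [Int.prime_iff_natAbs_prime]
  norm_num

/-- Core arithmetic step: if `A * c³ = 5 * B * Δ` with `5 ∤ A`, and `5 ∤ B` or `25 ∣ ...`,
then `5 ∣ c` and `5 ∣ Δ`. Stated as: `A c³ = 5^e B Δ`, `e ∈ {1,2}`, `5 ∤ A`, `5 ∤ B`. -/
theorem i5_core (c Δ A B : ℤ) (e : ℕ) (he1 : 1 ≤ e) (he2 : e ≤ 2)
    (hA : ¬ (5 : ℤ) ∣ A) (hB : ¬ (5 : ℤ) ∣ B)
    (h : A * c ^ 3 = 5 ^ e * B * Δ) : (5 : ℤ) ∣ c ∧ (5 : ℤ) ∣ Δ := by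
  have h5 := i5_prime_five
  have hc : (5 : ℤ) ∣ c := by
    have h1 : (5 : ℤ) ∣ A * c ^ 3 := by
      rw [h]
      exact Dvd.dvd.mul_right (Dvd.dvd.mul_right (dvd_pow_self 5 (by omega)) B) Δ
    rcases h5.dvd_or_dvd h1 with h2 | h2
    · exact absurd h2 hA
    · exact h5.dvd_of_dvd_pow h2
  refine ⟨hc, ?_⟩
  obtain ⟨k, rfl⟩ := hc
  have he : e = 1 ∨ e = 2 := by omega
  rcases he with rfl | rfl
  · have h2 : (5 : ℤ) * (B * Δ) = 5 * (25 * (A * k ^ 3)) := by linear_combination -h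
    have h3 : B * Δ = 25 * (A * k ^ 3) := mul_left_cancel₀ (by norm_num) h2
    have h4 : (5 : ℤ) ∣ B * Δ := ⟨5 * (A * k ^ 3), by rw [h3]; ring⟩
    exact (h5.dvd_or_dvd h4).resolve_left hB
  · have h2 : (25 : ℤ) * (B * Δ) = 25 * (5 * (A * k ^ 3)) := by linear_combination -h
    have h3 : B * Δ = 5 * (A * k ^ 3) := mul_left_cancel₀ (by norm_num) h2
    have h4 : (5 : ℤ) ∣ B * Δ := ⟨A * k ^ 3, h3⟩
    exact (h5.dvd_or_dvd h4).resolve_left hB

/-- **I5**: a semistable integral Weierstrass model cannot have `j`-invariant (i.e. `c₄³ = j Δ`)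
equal to one of the four exceptional values attached to rational points of `X₀(15)`. -/
theorem I5 (W : WeierstrassCurve ℤ) (hW : W.IsSemistableModel) (j : ℚ)
    (hj : j = -25 / 2 ∨ j = -349938025 / 8 ∨ j = -121945 / 32 ∨ j = 46969655 / 32768)
    (h : (W.c₄ : ℚ) ^ 3 = j * (W.Δ : ℚ)) : False := by
  have key : ∀ (A B : ℤ) (e : ℕ), 1 ≤ e → e ≤ 2 → ¬ (5 : ℤ) ∣ A → ¬ (5 : ℤ) ∣ B →
      A * W.c₄ ^ 3 = 5 ^ e * B * W.Δ → False := by
    intro A B e he1 he2 hA hB hEq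
    obtain ⟨hc, hd⟩ := i5_core W.c₄ W.Δ A B e he1 he2 hA hB hEq
    exact hW 5 (by norm_num) (by exact_mod_cast hd) (by exact_mod_cast hc)
  rcases hj with rfl | rfl | rfl | rfl
  · refine key 2 (-1) 2 (by norm_num) le_rfl (by norm_num) (by norm_num) ?_
    have : ((2 * W.c₄ ^ 3 : ℤ) : ℚ) = ((5 ^ 2 * (-1) * W.Δ : ℤ) : ℚ) := by
      push_cast
      linear_combination 2 * h
    exact_mod_cast this
  · refine key 8 (-13997521) 2 (by norm_num) le_rfl (by norm_num) (by norm_num) ?_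
    have : ((8 * W.c₄ ^ 3 : ℤ) : ℚ) = ((5 ^ 2 * (-13997521) * W.Δ : ℤ) : ℚ) := by
      push_cast
      linear_combination 8 * h
    exact_mod_cast this
  · refine key 32 (-24389) 1 le_rfl (by norm_num) (by norm_num) (by norm_num) ?_
    have : ((32 * W.c₄ ^ 3 : ℤ) : ℚ) = ((5 ^ 1 * (-24389) * W.Δ : ℤ) : ℚ) := by
      push_cast
      linear_combination 32 * h
    exact_mod_cast this
  · refine key 32768 9393931 1 le_rfl (by norm_num) (by norm_num) (by norm_num) ?_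
    have : ((32768 * W.c₄ ^ 3 : ℤ) : ℚ) = ((5 ^ 1 * 9393931 * W.Δ : ℤ) : ℚ) := by
      push_cast
      linear_combination 32768 * h
    exact_mod_cast this

end Fermat.Agent.S51.helper44
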