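import Fermat.Agent.S51.helper38_Endgame
import Fermat.Agent.S51.helper44_I5
import Fermat.Prelude.Def_FLTPrelim_ModularRep

/-!
# S51 (helper38): final assembly, conditional on the three remaining inputs

* `Descent15` : the rational points of `y² = x (x + 9) (x - 16)` (rank `0` of `15a`);
* `ThreeData W` : a rational root of the 3-division polynomial of `W`;
* `FiveData W` : two distinct elements `x₁, x₂` of `AlgebraicClosure ℚ` exchanged by the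
  `x`-coordinate duplication map, with rational sum and product.

`false_of_data` shows that for a semistable integral model with `Δ ≠ 0` these cannot all hold,
and `s51_of_inputs` derives the statement of S51 from the three inputs.
-/

set_option autoImplicit false

namespace Fermat.Agent.S51.helper38

open WeierstrassCurve

/-- The statement of `descent15`. -/
def Descent15 : Prop :=
  ∀ x y : ℚ, y ^ 2 = x * (x + 9) * (x - 16) → x = 0 ∨ x = -9 ∨ x = 16 ∨ x = -4 ∨ x = 36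

/-- A rational root of the 3-division polynomial. -/
def ThreeData (E : WeierstrassCurve ℚ) : Prop :=
  ∃ x3 : ℚ, 3 * x3 ^ 4 + E.b₂ * x3 ^ 3 + 3 * E.b₄ * x3 ^ 2 + 3 * E.b₆ * x3 + E.b₈ = 0

/-- Rational 5-isogeny data: `x₁ ≠ x₂` exchanged by duplication, with rational sum and product. -/
def FiveData (E : WeierstrassCurve ℚ) : Prop :=
  ∃ (s t : ℚ) (x1 x2 : AlgebraicClosure ℚ),
    x1 + x2 = algebraMap ℚ (AlgebraicClosure ℚ) s ∧
    x1 * x2 = algebraMap ℚ (AlgebraicClosure ℚ) t ∧ x1 ≠ x2 ∧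
    x1 ^ 4 - algebraMap ℚ (AlgebraicClosure ℚ) E.b₄ * x1 ^ 2
        - 2 * algebraMap ℚ (AlgebraicClosure ℚ) E.b₆ * x1 - algebraMap ℚ (AlgebraicClosure ℚ) E.b₈
      = x2 * (4 * x1 ^ 3 + algebraMap ℚ (AlgebraicClosure ℚ) E.b₂ * x1 ^ 2
        + 2 * algebraMap ℚ (AlgebraicClosure ℚ) E.b₄ * x1 + algebraMap ℚ (AlgebraicClosure ℚ) E.b₆) ∧
    x2 ^ 4 - algebraMap ℚ (AlgebraicClosure ℚ) E.b₄ * x2 ^ 2
        - 2 * algebraMap ℚ (AlgebraicClosure ℚ) E.b₆ * x2 - algebraMap ℚ (AlgebraicClosure ℚ) E.b₈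
      = x1 * (4 * x2 ^ 3 + algebraMap ℚ (AlgebraicClosure ℚ) E.b₂ * x2 ^ 2
        + 2 * algebraMap ℚ (AlgebraicClosure ℚ) E.b₄ * x2 + algebraMap ℚ (AlgebraicClosure ℚ) E.b₆)

/-- A semistable integral model with `Δ ≠ 0` cannot carry both a rational 3-isogeny datum and
a rational 5-isogeny datum. -/
theorem false_of_data (hdesc : Descent15) (W : WeierstrassCurve ℤ) (hΔ : W.Δ ≠ 0)
    (hW : W.IsSemistableModel) (h3 : ThreeData (W.map (Int.castRingHom ℚ)))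
    (h5 : FiveData (W.map (Int.castRingHom ℚ))) : False := by
  obtain ⟨x3, hx3⟩ := h3
  obtain ⟨s, t, x1, x2, hs, ht, hne, h12, h21⟩ := h5
  set E := W.map (Int.castRingHom ℚ) with hE
  have hc4 : E.c₄ = (W.c₄ : ℚ) := by rw [hE, WeierstrassCurve.map_c₄]; rfl
  have hΔq : E.Δ = (W.Δ : ℚ) := by rw [hE, WeierstrassCurve.map_Δ]; rfl
  have hΔ0 : E.Δ ≠ 0 := by rw [hΔq]; exact_mod_cast hΔ
  simp only [eq_ratCast] at hs ht h12 h21
  have key := endgame_curve (K := AlgebraicClosure ℚ) E hΔ0 x3 hx3 s t x1 x2 hs ht hne h12 h21 hdesc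
  rw [hc4, hΔq] at key
  rcases key with h | h | h | h
  · exact Fermat.Agent.S51.helper44.I5 W hW _ (Or.inl rfl) h
  · exact Fermat.Agent.S51.helper44.I5 W hW _ (Or.inr (Or.inl rfl)) h
  · exact Fermat.Agent.S51.helper44.I5 W hW _ (Or.inr (Or.inr (Or.inl rfl))) h
  · exact Fermat.Agent.S51.helper44.I5 W hW _ (Or.inr (Or.inr (Or.inr rfl))) h

/-- **S51 from its three remaining inputs.** -/
theorem s51_of_inputs (hdesc : Descent15)
    (hthree : ∀ W : WeierstrassCurve ℤ, W.Δ ≠ 0 → ¬ W.ModRepIsIrreducible 3 →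
      ThreeData (W.map (Int.castRingHom ℚ)))
    (hfive : ∀ W : WeierstrassCurve ℤ, W.Δ ≠ 0 → ¬ W.ModRepIsIrreducible 5 →
      FiveData (W.map (Int.castRingHom ℚ)))
    (W : WeierstrassCurve ℤ) (hΔ : W.Δ ≠ 0) (hW : W.IsSemistableModel) :
    W.ModRepIsIrreducible 3 ∨ W.ModRepIsIrreducible 5 := by
  by_contra hcon
  rw [not_or] at hcon
  exact false_of_data hdesc W hΔ hW (hthree W hΔ hcon.1) (hfive W hΔ hcon.2)

/-- `ThreeData` from the integer-cast shape of the 3-torsion input. -/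
theorem threeData_of_int (W : WeierstrassCurve ℤ)
    (h : ∃ x₃ : ℚ, 3 * x₃ ^ 4 + (W.b₂ : ℚ) * x₃ ^ 3 + 3 * (W.b₄ : ℚ) * x₃ ^ 2
      + 3 * (W.b₆ : ℚ) * x₃ + (W.b₈ : ℚ) = 0) :
    ThreeData (W.map (Int.castRingHom ℚ)) := by
  obtain ⟨x₃, hx⟩ := h
  refine ⟨x₃, ?_⟩
  rw [WeierstrassCurve.map_b₂, WeierstrassCurve.map_b₄, WeierstrassCurve.map_b₆,
    WeierstrassCurve.map_b₈]
  simpa using hx

/-- `FiveData` from the integer-cast shape of the 5-torsion input. -/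
theorem fiveData_of_int (W : WeierstrassCurve ℤ)
    (h : ∃ (s t : ℚ) (x₁ x₂ : AlgebraicClosure ℚ),
      x₁ + x₂ = algebraMap ℚ (AlgebraicClosure ℚ) s ∧
      x₁ * x₂ = algebraMap ℚ (AlgebraicClosure ℚ) t ∧ x₁ ≠ x₂ ∧
      x₁ ^ 4 - (W.b₄ : AlgebraicClosure ℚ) * x₁ ^ 2 - 2 * (W.b₆ : AlgebraicClosure ℚ) * x₁
          - (W.b₈ : AlgebraicClosure ℚ)
        = x₂ * (4 * x₁ ^ 3 + (W.b₂ : AlgebraicClosure ℚ) * x₁ ^ 2
          + 2 * (W.b₄ : AlgebraicClosure ℚ) * x₁ + (W.b₆ : AlgebraicClosure ℚ)) ∧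
      x₂ ^ 4 - (W.b₄ : AlgebraicClosure ℚ) * x₂ ^ 2 - 2 * (W.b₆ : AlgebraicClosure ℚ) * x₂
          - (W.b₈ : AlgebraicClosure ℚ)
        = x₁ * (4 * x₂ ^ 3 + (W.b₂ : AlgebraicClosure ℚ) * x₂ ^ 2
          + 2 * (W.b₄ : AlgebraicClosure ℚ) * x₂ + (W.b₆ : AlgebraicClosure ℚ))) :
    FiveData (W.map (Int.castRingHom ℚ)) := by
  obtain ⟨s, t, x₁, x₂, hs, ht, hne, h1, h2⟩ := h
  refine ⟨s, t, x₁, x₂, hs, ht, hne, ?_, ?_⟩
  · rw [WeierstrassCurve.map_b₂, WeierstrassCurve.map_b₄, WeierstrassCurve.map_b₆,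
      WeierstrassCurve.map_b₈]
    simpa using h1
  · rw [WeierstrassCurve.map_b₂, WeierstrassCurve.map_b₄, WeierstrassCurve.map_b₆,
      WeierstrassCurve.map_b₈]
    simpa using h2

/-- **S51 from its three remaining inputs**, in the integer-cast shapes of the cluster
skeleton (`exists_three_data`, `exists_five_data`). -/
theorem s51_of_inputs_int (hdesc : Descent15)
    (hthree : ∀ W : WeierstrassCurve ℤ, W.Δ ≠ 0 → ¬ W.ModRepIsIrreducible 3 →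
      ∃ x₃ : ℚ, 3 * x₃ ^ 4 + (W.b₂ : ℚ) * x₃ ^ 3 + 3 * (W.b₄ : ℚ) * x₃ ^ 2
        + 3 * (W.b₆ : ℚ) * x₃ + (W.b₈ : ℚ) = 0)
    (hfive : ∀ W : WeierstrassCurve ℤ, W.Δ ≠ 0 → ¬ W.ModRepIsIrreducible 5 →
      ∃ (s t : ℚ) (x₁ x₂ : AlgebraicClosure ℚ),
        x₁ + x₂ = algebraMap ℚ (AlgebraicClosure ℚ) s ∧
        x₁ * x₂ = algebraMap ℚ (AlgebraicClosure ℚ) t ∧ x₁ ≠ x₂ ∧
        x₁ ^ 4 - (W.b₄ : AlgebraicClosure ℚ) * x₁ ^ 2 - 2 * (W.b₆ : AlgebraicClosure ℚ) * x₁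
            - (W.b₈ : AlgebraicClosure ℚ)
          = x₂ * (4 * x₁ ^ 3 + (W.b₂ : AlgebraicClosure ℚ) * x₁ ^ 2
            + 2 * (W.b₄ : AlgebraicClosure ℚ) * x₁ + (W.b₆ : AlgebraicClosure ℚ)) ∧
        x₂ ^ 4 - (W.b₄ : AlgebraicClosure ℚ) * x₂ ^ 2 - 2 * (W.b₆ : AlgebraicClosure ℚ) * x₂
            - (W.b₈ : AlgebraicClosure ℚ)
          = x₁ * (4 * x₂ ^ 3 + (W.b₂ : AlgebraicClosure ℚ) * x₂ ^ 2
            + 2 * (W.b₄ : AlgebraicClosure ℚ) * x₂ + (W.b₆ : AlgebraicClosure ℚ)))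
    (W : WeierstrassCurve ℤ) (hΔ : W.Δ ≠ 0) (hW : W.IsSemistableModel) :
    W.ModRepIsIrreducible 3 ∨ W.ModRepIsIrreducible 5 :=
  s51_of_inputs hdesc (fun W hΔ h => threeData_of_int W (hthree W hΔ h))
    (fun W hΔ h => fiveData_of_int W (hfive W hΔ h)) W hΔ hW

end Fermat.Agent.S51.helper38
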