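import Mathlib

/-!
# Doubling formula on the `x`-coordinate (helper8, S51 cluster)

Generic facts about Mathlib's affine points of a Weierstrass curve over a field:
the `x`-coordinate of `2 • P` in terms of the `b`-invariants.
-/

namespace Fermat.Agent.S51.helper8

open WeierstrassCurve WeierstrassCurve.Affine

variable {F : Type*} [Field F] (W : WeierstrassCurve F)

/-- The value at `x` of the square of the `2`-division polynomial. -/
def psi2sq (x : F) : F := 4 * x ^ 3 + W.b₂ * x ^ 2 + 2 * W.b₄ * x + W.b₆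

/-- The numerator of the duplication formula. -/
def dupNum (x : F) : F := x ^ 4 - W.b₄ * x ^ 2 - 2 * W.b₆ * x - W.b₈

/-- The value at `x` of the `3`-division polynomial. -/
def psi3 (x : F) : F := 3 * x ^ 4 + W.b₂ * x ^ 3 + 3 * W.b₄ * x ^ 2 + 3 * W.b₆ * x + W.b₈

lemma dupNum_sub (x : F) : dupNum W x - x * psi2sq W x = -psi3 W x := by
  simp only [dupNum, psi2sq, psi3]; ring

lemma sq_sub_negY {x y : F} (h : W.toAffine.Equation x y) :
    (y - W.toAffine.negY x y) ^ 2 = psi2sq W x := by
  rw [equation_iff] at h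
  simp only [negY, psi2sq, WeierstrassCurve.b₂, WeierstrassCurve.b₄, WeierstrassCurve.b₆]
  linear_combination 4 * h

lemma psi2sq_ne_zero_iff {x y : F} (h : W.toAffine.Equation x y) :
    psi2sq W x ≠ 0 ↔ y ≠ W.toAffine.negY x y := by
  rw [← sq_sub_negY W h, ne_eq, ne_eq, sq_eq_zero_iff, sub_eq_zero]

variable [DecidableEq F]

lemma addX_self_mul {x y : F} (h : W.toAffine.Equation x y) (hy : y ≠ W.toAffine.negY x y) :
    W.toAffine.addX x x (W.toAffine.slope x x y y) * psi2sq W x = dupNum W x := by
  rw [slope_of_Y_ne rfl hy, ← sq_sub_negY W h]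
  have hne : y - W.toAffine.negY x y ≠ 0 := sub_ne_zero.mpr hy
  rw [equation_iff] at h
  simp only [addX, dupNum, WeierstrassCurve.b₄, WeierstrassCurve.b₆, WeierstrassCurve.b₈]
  field_simp
  simp only [negY]
  linear_combination (-8 * x - W.a₁ ^ 2 - 4 * W.a₂) * h

end Fermat.Agent.S51.helper8
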