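import Mathlib
import Fermat.Agent.S51.helper8_Dup

/-!
# `x`-coordinates of torsion points (helper8, S51 cluster)
-/

namespace Fermat.Agent.S51.helper8

open WeierstrassCurve WeierstrassCurve.Affine

variable {F : Type*} [Field F] (V : WeierstrassCurve F)

/-- The `x`-coordinate of an affine point (junk value `0` at the point at infinity). -/
def xc : V.toAffine.Point → F
  | .zero => 0
  | .some x _ _ => x

@[simp] lemma xc_some {x y : F} (h : V.toAffine.Nonsingular x y) : xc V (.some x y h) = x := rfl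

lemma xc_neg (P : V.toAffine.Point) : xc V (-P) = xc V P := by
  cases P <;> rfl

variable {V} in
lemma xc_eq_iff {P Q : V.toAffine.Point} (hP : P ≠ 0) (hQ : Q ≠ 0) :
    xc V P = xc V Q ↔ P = Q ∨ P = -Q := by
  cases P with
  | zero => exact absurd rfl hP
  | some x₁ y₁ h₁ =>
    cases Q with
    | zero => exact absurd rfl hQ
    | some x₂ y₂ h₂ => exact Point.X_eq_iff

variable [DecidableEq F]

variable {V} in
lemma xc_two_nsmul {P : V.toAffine.Point} (hP : P ≠ 0) (h2 : 2 • P ≠ 0) :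
    psi2sq V (xc V P) ≠ 0 ∧ xc V (2 • P) * psi2sq V (xc V P) = dupNum V (xc V P) := by
  cases P with
  | zero => exact absurd rfl hP
  | some x y h =>
    have hy : y ≠ V.toAffine.negY x y := by
      intro hy
      apply h2
      rw [two_nsmul]
      exact Point.add_self_of_Y_eq hy
    refine ⟨(psi2sq_ne_zero_iff V h.1).mpr hy, ?_⟩
    rw [two_nsmul, Point.add_self_of_Y_ne hy]
    exact addX_self_mul V h.1 hy

variable {V} in
lemma two_nsmul_ne_zero {P : V.toAffine.Point} (hP : P ≠ 0) (hψ : psi2sq V (xc V P) ≠ 0) :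
    2 • P ≠ 0 := by
  cases P with
  | zero => exact absurd rfl hP
  | some x y h =>
    have hy : y ≠ V.toAffine.negY x y := (psi2sq_ne_zero_iff V h.1).mp hψ
    rw [two_nsmul, Point.add_self_of_Y_ne hy]
    exact Point.some_ne_zero _

/-- The data attached to a point of exact order `5`. -/
structure FiveData (x₁ x₂ : F) : Prop where
  ne : x₁ ≠ x₂
  psi₁ : psi2sq V x₁ ≠ 0
  psi₂ : psi2sq V x₂ ≠ 0
  dup₁ : dupNum V x₁ = x₂ * psi2sq V x₁
  dup₂ : dupNum V x₂ = x₁ * psi2sq V x₂

variable {V} in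
lemma fiveData_of_five_nsmul {P : V.toAffine.Point} (hP : P ≠ 0) (h5 : 5 • P = 0) :
    FiveData V (xc V P) (xc V (2 • P)) := by
  have h2 : 2 • P ≠ 0 := by
    intro h
    apply hP
    have : P = 5 • P - 2 • (2 • P) := by
      rw [← mul_nsmul']; simp only [show 2 * 2 = 4 from rfl]
      rw [show (5 : ℕ) = 4 + 1 from rfl, add_nsmul, one_nsmul]; abel
    rw [this, h5, h]; simp
  have h4 : 2 • (2 • P) ≠ 0 := by
    intro h
    apply hP
    have : P = 5 • P - 2 • (2 • P) := by
      rw [← mul_nsmul']; simp only [show 2 * 2 = 4 from rfl]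
      rw [show (5 : ℕ) = 4 + 1 from rfl, add_nsmul, one_nsmul]; abel
    rw [this, h5, h]; simp
  have h4' : 2 • (2 • P) = -P := by
    have : 2 • (2 • P) + P = 5 • P := by
      rw [← mul_nsmul']; simp only [show 2 * 2 = 4 from rfl]
      rw [show (5 : ℕ) = 4 + 1 from rfl, add_nsmul, one_nsmul]
    rw [h5] at this
    exact eq_neg_of_add_eq_zero_left this
  obtain ⟨hψ₁, hd₁⟩ := xc_two_nsmul hP h2
  obtain ⟨hψ₂, hd₂⟩ := xc_two_nsmul h2 h4
  rw [h4', xc_neg] at hd₂
  refine ⟨?_, hψ₁, hψ₂, hd₁.symm, hd₂.symm⟩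
  intro hx
  rcases (xc_eq_iff hP h2).mp hx with h | h
  · -- P = 2P
    apply hP
    have : P = 2 • P - P := by rw [two_nsmul]; abel
    rw [this, ← h]; simp
  · -- P = -2P, so 3P = 0, so 2P = 5P - 3P = 0
    apply h2
    have h3 : 2 • P + P = 0 := by rw [add_comm]; exact add_eq_zero_iff_eq_neg.mpr h
    have : 2 • P = 5 • P - (2 • P + P) := by
      rw [show (5 : ℕ) = 2 + 2 + 1 from rfl, add_nsmul, add_nsmul, one_nsmul]; abel
    rw [this, h5, h3]; simp

end Fermat.Agent.S51.helper8
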