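import Mathlib
import Fermat.Agent.S51.helper8_Torsion

/-!
# Algebra of the `5`-division polynomial in centred coordinates (helper8, S51 cluster)
-/

namespace Fermat.Agent.S51.helper8

open WeierstrassCurve Polynomial

variable {F : Type*} [Field F] (V : WeierstrassCurve F)

/-- The `b₂`-invariant after translating `x` to the origin. -/
def beta2 (x : F) : F := V.b₂ + 12 * x

/-- The `b₄`-invariant after translating `x` to the origin. -/
def beta4 (x : F) : F := V.b₄ + V.b₂ * x + 6 * x ^ 2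

lemma beta_relation (x : F) :
    4 * psi3 V x = beta2 V x * psi2sq V x - beta4 V x ^ 2 := by
  simp only [psi3, psi2sq, beta2, beta4]
  linear_combination V.b_relation

lemma delta_eq_beta (x : F) :
    V.Δ = -beta2 V x ^ 2 * psi3 V x - 8 * beta4 V x ^ 3 - 27 * psi2sq V x ^ 2
      + 9 * beta2 V x * beta4 V x * psi2sq V x := by
  simp only [WeierstrassCurve.Δ, psi3, psi2sq, beta2, beta4]
  linear_combination (36 * x ^ 2 + 6 * x * V.b₂) * V.b_relation

lemma psi2sq_add (x d : F) :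
    psi2sq V (x + d) = 4 * d ^ 3 + beta2 V x * d ^ 2 + 2 * beta4 V x * d + psi2sq V x := by
  simp only [psi2sq, beta2, beta4]; ring

lemma psi3_add (x d : F) :
    psi3 V (x + d) = 3 * d ^ 4 + beta2 V x * d ^ 3 + 3 * beta4 V x * d ^ 2
      + 3 * psi2sq V x * d + psi3 V x := by
  simp only [psi3, psi2sq, beta2, beta4]; ring

lemma dupNum_add (x d : F) :
    dupNum V (x + d) - x * psi2sq V (x + d)
      = d ^ 4 - beta4 V x * d ^ 2 - 2 * psi2sq V x * d - psi3 V x := by
  simp only [dupNum, psi3, psi2sq, beta4]; ring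

lemma eval_Ψ₂Sq (x : F) : V.Ψ₂Sq.eval x = psi2sq V x := by
  simp [WeierstrassCurve.Ψ₂Sq, psi2sq]

lemma eval_Ψ₃ (x : F) : V.Ψ₃.eval x = psi3 V x := by
  simp [WeierstrassCurve.Ψ₃, psi3]

lemma eval_preΨ₄ (x : F) :
    V.preΨ₄.eval x = beta4 V x * psi3 V x - psi2sq V x ^ 2 := by
  simp only [WeierstrassCurve.preΨ₄, psi3, psi2sq, beta4, eval_add, eval_mul, eval_pow, eval_C,
    eval_X, eval_ofNat]
  linear_combination x ^ 2 * V.b_relation

lemma preΨ'_five : V.preΨ' 5 = V.preΨ₄ * V.Ψ₂Sq ^ 2 - V.Ψ₃ ^ 3 := by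
  have h := V.preΨ'_odd 0
  simpa using h

lemma eval_preΨ'_five (x : F) :
    (V.preΨ' 5).eval x
      = (beta4 V x * psi3 V x - psi2sq V x ^ 2) * psi2sq V x ^ 2 - psi3 V x ^ 3 := by
  rw [preΨ'_five, eval_sub, eval_mul, eval_pow, eval_pow, eval_preΨ₄, eval_Ψ₂Sq, eval_Ψ₃]

variable {V}

/-- The `x`-coordinate of a point of exact order `5` is a root of the `5`-division polynomial. -/
theorem FiveData.eval_preΨ'_five {x₁ x₂ : F} (h : FiveData V x₁ x₂) :
    (V.preΨ' 5).eval x₁ = 0 := by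
  obtain ⟨d, rfl⟩ : ∃ d, x₂ = x₁ + d := ⟨x₂ - x₁, by ring⟩
  have hd : d ≠ 0 := fun h0 => h.ne (by rw [h0, add_zero])
  have h1 : d * psi2sq V x₁ + psi3 V x₁ = 0 := by
    have := dupNum_sub V x₁
    linear_combination this - h.dup₁
  have h2 : d ^ 4 - beta4 V x₁ * d ^ 2 - 2 * psi2sq V x₁ * d - psi3 V x₁ = 0 := by
    rw [← dupNum_add]
    linear_combination h.dup₂
  have h3 : d ^ 3 - beta4 V x₁ * d - psi2sq V x₁ = 0 := by
    apply mul_left_cancel₀ hd
    linear_combination h2 + h1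
  rw [Fermat.Agent.S51.helper8.eval_preΨ'_five]
  linear_combination psi2sq V x₁ ^ 3 * h3
    + (beta4 V x₁ * psi2sq V x₁ ^ 2 - psi3 V x₁ ^ 2 + psi3 V x₁ * d * psi2sq V x₁
        - d ^ 2 * psi2sq V x₁ ^ 2) * h1

/-- Conversely, a root of the `5`-division polynomial of an elliptic curve gives `FiveData`. -/
theorem exists_fiveData_of_eval_eq_zero (hΔ : V.Δ ≠ 0) {x₁ : F}
    (h : (V.preΨ' 5).eval x₁ = 0) : ∃ x₂, FiveData V x₁ x₂ := by
  rw [Fermat.Agent.S51.helper8.eval_preΨ'_five] at h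
  have hrel := beta_relation V x₁
  have hΔ' := delta_eq_beta V x₁
  set b2 := beta2 V x₁
  set b4 := beta4 V x₁
  set b6 := psi2sq V x₁ with hb6
  set b8 := psi3 V x₁ with hb8
  have h6 : b6 ≠ 0 := by
    intro h6
    have h8 : b8 = 0 := by
      have : b8 ^ 3 = 0 := by rw [h6] at h; linear_combination -h
      exact pow_eq_zero_iff (by norm_num) |>.mp this
    have h4 : b4 = 0 := by
      have : b4 ^ 2 = 0 := by rw [h6, h8] at hrel; linear_combination hrel
      exact pow_eq_zero_iff (by norm_num) |>.mp this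
    apply hΔ
    rw [hΔ', h6, h8, h4]; ring
  have h8 : b8 ≠ 0 := by
    intro h8
    apply h6
    have : b6 ^ 4 = 0 := by rw [h8] at h; linear_combination -h
    exact pow_eq_zero_iff (by norm_num) |>.mp this
  have hP4 : b4 * b8 - b6 ^ 2 ≠ 0 := by
    intro hP4
    apply h8
    have : b8 ^ 3 = 0 := by rw [hP4] at h; linear_combination -h
    exact pow_eq_zero_iff (by norm_num) |>.mp this
  refine ⟨x₁ + -b8 / b6, ?_, h6, ?_, ?_, ?_⟩
  · intro hx
    have : -b8 / b6 = 0 := by linear_combination -hx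
    rw [div_eq_zero_iff] at this
    rcases this with h0 | h0
    · exact h8 (neg_eq_zero.mp h0)
    · exact h6 h0
  · rw [psi2sq_add]
    intro h0
    apply hP4
    have : (b4 * b8 - b6 ^ 2) ^ 2 = 0 := by
      have e : (4 * (-b8 / b6) ^ 3 + b2 * (-b8 / b6) ^ 2 + 2 * b4 * (-b8 / b6) + b6) * b6 ^ 3
          = (b4 * b8 - b6 ^ 2) ^ 2 := by
        field_simp
        linear_combination (-b8 ^ 2) * hrel
      rw [← e, h0, zero_mul]
    exact pow_eq_zero_iff (by norm_num) |>.mp this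
  · have := dupNum_sub V x₁
    have e : (x₁ + -b8 / b6) * b6 = x₁ * b6 - b8 := by field_simp; ring
    rw [e]
    linear_combination this
  · have e := dupNum_add V x₁ (-b8 / b6)
    have e' : (-b8 / b6) ^ 4 - b4 * (-b8 / b6) ^ 2 - 2 * b6 * (-b8 / b6) - b8 = 0 := by
      have : ((-b8 / b6) ^ 4 - b4 * (-b8 / b6) ^ 2 - 2 * b6 * (-b8 / b6) - b8) * b6 ^ 4 = 0 := by
        field_simp
        linear_combination (-b8) * h
      rcases mul_eq_zero.mp this with h0 | h0
      · exact h0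
      · exact absurd (pow_eq_zero_iff (by norm_num) |>.mp h0) h6
    linear_combination e + e'

end Fermat.Agent.S51.helper8
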