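import Mathlib
import Fermat.Agent.S51.helper8_FiveAlg

/-!
# Counting `5`-torsion points (helper8, S51 cluster)
-/

namespace Fermat.Agent.S51.helper8

open WeierstrassCurve WeierstrassCurve.Affine Polynomial

variable {F : Type*} [Field F] (V : WeierstrassCurve F)

open Classical in
/-- A chosen `y`-coordinate above `x` (junk value `0` if there is none). -/
noncomputable def ychoice (x : F) : F :=
  if h : ∃ y, V.toAffine.Equation x y then h.choose else 0

lemma ychoice_spec {x y : F} (h : V.toAffine.Equation x y) :
    V.toAffine.Equation x (ychoice V x) := by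
  have h' : ∃ y, V.toAffine.Equation x y := ⟨y, h⟩
  rw [ychoice, dif_pos h']
  exact h'.choose_spec

open Classical in
/-- An injective labelling of the points by `Option (F × Bool)`. -/
noncomputable def label : V.toAffine.Point → Option (F × Bool)
  | .zero => none
  | .some x y _ => some (x, decide (y = ychoice V x))

lemma label_injective : Function.Injective (label V) := by
  classical
  intro P Q hPQ
  cases P with
  | zero =>
    cases Q with
    | zero => rfl
    | some x y h => simp [label] at hPQ
  | some x₁ y₁ h₁ =>
    cases Q with
    | zero => simp [label] at hPQ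
    | some x₂ y₂ h₂ =>
      simp only [label, Option.some.injEq, Prod.mk.injEq] at hPQ
      obtain ⟨hx, hb⟩ := hPQ
      subst hx
      have hy : y₁ = y₂ := by
        by_cases h1 : y₁ = ychoice V x₁
        · have h2 : y₂ = ychoice V x₁ := by
            have : decide (y₂ = ychoice V x₁) = true := by rw [← hb]; simpa using h1
            simpa using this
          rw [h1, h2]
        · have h2 : ¬ y₂ = ychoice V x₁ := by
            intro h2
            have : decide (y₁ = ychoice V x₁) = true := by rw [hb]; simpa using h2
            exact h1 (by simpa using this)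
          have e1 := (Y_eq_of_X_eq h₁.1 (ychoice_spec V h₁.1) rfl).resolve_left h1
          have e2 := (Y_eq_of_X_eq h₂.1 (ychoice_spec V h₁.1) rfl).resolve_left h2
          rw [e1, e2]
      subst hy
      rfl

lemma label_some {x y : F} (h : V.toAffine.Nonsingular x y) :
    ∃ b, label V (.some x y h) = some (x, b) := ⟨_, rfl⟩

variable [DecidableEq F]

/-- A set of points killed by `5` on an elliptic curve has at most `25` elements. -/
theorem finite_and_ncard_le_of_five_nsmul (h5 : (5 : F) ≠ 0) (T : Set V.toAffine.Point)
    (hT : ∀ P ∈ T, 5 • P = 0) : T.Finite ∧ T.ncard ≤ 25 := by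
  classical
  have hp : V.preΨ' 5 ≠ 0 := V.preΨ'_ne_zero (n := 5) (by exact_mod_cast h5)
  set S : Finset F := (V.preΨ' 5).roots.toFinset with hS
  have hScard : S.card ≤ 12 := by
    calc S.card ≤ Multiset.card (V.preΨ' 5).roots := Multiset.toFinset_card_le _
      _ ≤ (V.preΨ' 5).natDegree := Polynomial.card_roots' _
      _ ≤ 12 := by
        have := V.natDegree_preΨ'_le 5
        rw [if_neg (by decide)] at this
        exact this
  set U : Set (Option (F × Bool)) := insert none (some '' ((S : Set F) ×ˢ (Set.univ : Set Bool)))
    with hU
  have hSfin : ((S : Set F) ×ˢ (Set.univ : Set Bool)).Finite :=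
    (Finset.finite_toSet S).prod Set.finite_univ
  have hUfin : U.Finite := (hSfin.image _).insert _
  have hUcard : U.ncard ≤ 25 := by
    calc U.ncard ≤ (some '' ((S : Set F) ×ˢ (Set.univ : Set Bool))).ncard + 1 :=
          Set.ncard_insert_le _ _
      _ ≤ ((S : Set F) ×ˢ (Set.univ : Set Bool)).ncard + 1 :=
          Nat.add_le_add_right (Set.ncard_image_le hSfin) 1
      _ = S.card * 2 + 1 := by
          rw [Set.ncard_prod, Set.ncard_coe_finset, Set.ncard_univ, Nat.card_eq_fintype_card,
            Fintype.card_bool]
      _ ≤ 25 := by omega
  have hmaps : ∀ P ∈ T, label V P ∈ U := by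
    intro P hP
    by_cases h0 : P = 0
    · subst h0
      exact Set.mem_insert _ _
    · have hd := fiveData_of_five_nsmul h0 (hT P hP)
      have hroot := hd.eval_preΨ'_five
      cases P with
      | zero => exact absurd rfl h0
      | some x y h =>
        obtain ⟨b, hb⟩ := label_some V h
        refine Set.mem_insert_of_mem _ ⟨(x, b), ⟨?_, Set.mem_univ _⟩, hb.symm⟩
        simp only [hS, Finset.mem_coe, Multiset.mem_toFinset]
        rw [Polynomial.mem_roots hp]
        exact hroot
  have hfin : T.Finite :=
    Set.Finite.of_injOn (f := label V) hmaps (label_injective V).injOn hUfin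
  exact ⟨hfin, (Set.ncard_le_ncard_of_injOn (label V) hmaps (label_injective V).injOn hUfin).trans
    hUcard⟩

end Fermat.Agent.S51.helper8
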