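import Mathlib
import Fermat.Agent.S51.helper8_FiveAlg

/-!
# Existence of a point of order `5` over an algebraically closed field (helper8, S51 cluster)
-/

namespace Fermat.Agent.S51.helper8

open WeierstrassCurve WeierstrassCurve.Affine Polynomial

variable {F : Type*} [Field F] (V : WeierstrassCurve F)

/-- Over an algebraically closed field, every `x` is the `x`-coordinate of a point of the
Weierstrass equation. -/
lemma exists_equation [IsAlgClosed F] (x : F) : ∃ y, V.toAffine.Equation x y := by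
  set p : F[X] := C (1 : F) * X ^ 2 + C (V.a₁ * x + V.a₃) * X
    + C (-(x ^ 3 + V.a₂ * x ^ 2 + V.a₄ * x + V.a₆)) with hp
  have hdeg : p.degree ≠ 0 := by
    rw [hp, Polynomial.degree_quadratic one_ne_zero]
    norm_num
  obtain ⟨y, hy⟩ := IsAlgClosed.exists_root p hdeg
  refine ⟨y, ?_⟩
  rw [equation_iff]
  simp only [hp, IsRoot.def, eval_add, eval_mul, eval_C, eval_pow, eval_X] at hy
  linear_combination hy

variable [DecidableEq F]

/-- A point whose `x`-coordinate satisfies `FiveData` is killed by `5`. -/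
theorem five_nsmul_eq_zero_of_fiveData {P : V.toAffine.Point} (hP : P ≠ 0) {x₂ : F}
    (h : FiveData V (xc V P) x₂) : 5 • P = 0 := by
  have h2 : 2 • P ≠ 0 := two_nsmul_ne_zero hP h.psi₁
  obtain ⟨-, hd₁⟩ := xc_two_nsmul hP h2
  have hx₂ : xc V (2 • P) = x₂ := by
    apply mul_right_cancel₀ h.psi₁
    rw [hd₁, h.dup₁]
  have h4 : 2 • (2 • P) ≠ 0 := two_nsmul_ne_zero h2 (by rw [hx₂]; exact h.psi₂)
  obtain ⟨-, hd₂⟩ := xc_two_nsmul h2 h4
  rw [hx₂] at hd₂
  have hx₄ : xc V (2 • (2 • P)) = xc V P := by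
    apply mul_right_cancel₀ h.psi₂
    rw [hd₂, h.dup₂]
  have e5 : 5 • P = 2 • (2 • P) + P := by
    rw [← mul_nsmul']; simp only [show 2 * 2 = 4 from rfl]
    rw [show (5 : ℕ) = 4 + 1 from rfl, add_nsmul, one_nsmul]
  rcases (xc_eq_iff h4 hP).mp hx₄ with h' | h'
  · -- 4P = P, so 3P = 0, so 2P = -P, so x₂ = x₁
    exfalso
    apply h.ne
    rw [← hx₂]
    symm
    rw [xc_eq_iff h2 hP]
    right
    have e : 2 • (2 • P) = 2 • P + P + P := by
      rw [two_nsmul, two_nsmul]; abel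
    rw [e] at h'
    have : 2 • P + P = 0 := by
      have := congrArg (fun Q => Q - P) h'
      simpa using this
    exact eq_neg_of_add_eq_zero_left this
  · rw [e5, h']; simp

theorem exists_five_torsion [IsAlgClosed F] (h5 : (5 : F) ≠ 0) (hΔ : V.Δ ≠ 0) :
    ∃ P : V.toAffine.Point, P ≠ 0 ∧ 5 • P = 0 := by
  have hdeg : (V.preΨ' 5).degree ≠ 0 := by
    have hp : V.preΨ' 5 ≠ 0 := V.preΨ'_ne_zero (n := 5) (by exact_mod_cast h5)
    have hn : (V.preΨ' 5).natDegree = 12 := by
      have := V.natDegree_preΨ' (n := 5) (by exact_mod_cast h5)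
      rw [if_neg (by decide)] at this
      exact this
    rw [Polynomial.degree_eq_natDegree hp, hn]
    norm_num
  obtain ⟨x₁, hx₁⟩ := IsAlgClosed.exists_root _ hdeg
  obtain ⟨x₂, hd⟩ := exists_fiveData_of_eval_eq_zero hΔ hx₁
  obtain ⟨y₁, hy₁⟩ := exists_equation V x₁
  have hns : V.toAffine.Nonsingular x₁ y₁ :=
    (equation_iff_nonsingular_of_Δ_ne_zero hΔ).mp hy₁
  refine ⟨.some x₁ y₁ hns, Point.some_ne_zero _, ?_⟩
  exact five_nsmul_eq_zero_of_fiveData V (Point.some_ne_zero _) (x₂ := x₂) hd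

end Fermat.Agent.S51.helper8
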