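import Mathlib
import Fermat.Prelude.Def_FLTPrelim_GaloisRep
import Fermat.Agent.S51.helper8_FiveCount
import Fermat.Agent.S51.helper8_FiveExists

/-!
# The `5`-torsion half of the Galois part of S51 (helper8)
-/

namespace Fermat.Agent.S51.helper8

open WeierstrassCurve WeierstrassCurve.Affine Polynomial

local notation "Kbar" => AlgebraicClosure ℚ

/-- `ℚ̄` is an algebraic closure of `ℚ` for the canonical `ℚ`-algebra structure of a
characteristic zero division ring (which is the one found by instance resolution). -/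
theorem isAlgClosure_rat : IsAlgClosure ℚ Kbar := by
  have h : (DivisionRing.toRatAlgebra : Algebra ℚ Kbar) = AlgebraicClosure.instAlgebra ℚ :=
    Subsingleton.elim _ _
  rw [h]; infer_instance

theorem isGalois_rat : IsGalois ℚ Kbar :=
  haveI := isAlgClosure_rat
  inferInstance

/-- An element of `ℚ̄` fixed by the whole Galois group is rational. -/
lemma exists_rat_of_fixed (x : Kbar) (hx : ∀ σ : Kbar ≃ₐ[ℚ] Kbar, σ x = x) :
    ∃ q : ℚ, algebraMap ℚ Kbar q = x :=
  haveI := isGalois_rat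
  (InfiniteGalois.mem_range_algebraMap_iff_fixed (k := ℚ) (K := Kbar) x).mpr hx

variable (E : WeierstrassCurve ℚ)

lemma xc_smul (σ : Kbar ≃ₐ[ℚ] Kbar) (P : (E.toAffine⁄Kbar).Point) :
    xc (E.toAffine⁄Kbar) (σ • P) = σ (xc (E.toAffine⁄Kbar) P) := by
  cases P with
  | zero => exact (map_zero σ).symm
  | some x y h => rfl

lemma baseChange_Δ_ne_zero (hΔ : E.Δ ≠ 0) : (E.toAffine⁄Kbar).Δ ≠ 0 := by
  have : (E.toAffine⁄Kbar).Δ = algebraMap ℚ Kbar E.Δ := E.map_Δ _
  rw [this]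
  exact (_root_.map_ne_zero _).mpr hΔ

/-- The `5`-torsion of an elliptic curve over `ℚ` is nontrivial over `ℚ̄`. -/
theorem nontrivial_torsion_five (hΔ : E.Δ ≠ 0) :
    Nontrivial (Submodule.torsionBy ℤ (E.toAffine⁄Kbar).Point (5 : ℕ)) := by
  obtain ⟨P, hP, h5⟩ := exists_five_torsion (E.toAffine⁄Kbar) (by norm_num)
    (baseChange_Δ_ne_zero E hΔ)
  refine ⟨⟨⟨P, ?_⟩, 0, ?_⟩⟩
  · rw [Submodule.mem_torsionBy_iff, natCast_zsmul]
    exact h5
  · intro h
    exact hP (congrArg Subtype.val h)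

/-- The `5`-torsion of an elliptic curve over `ℚ̄` is finite of dimension at most `2`. -/
theorem finite_torsion_five :
    Finite (Submodule.torsionBy ℤ (E.toAffine⁄Kbar).Point (5 : ℕ)) ∧
    Nat.card (Submodule.torsionBy ℤ (E.toAffine⁄Kbar).Point (5 : ℕ)) ≤ 25 := by
  have key := finite_and_ncard_le_of_five_nsmul (E.toAffine⁄Kbar) (by norm_num)
    (Submodule.torsionBy ℤ (E.toAffine⁄Kbar).Point (5 : ℕ) : Set (E.toAffine⁄Kbar).Point)
    (fun P hP => by
      have := (Submodule.mem_torsionBy_iff _ _).mp hP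
      rwa [natCast_zsmul] at this)
  refine ⟨key.1, ?_⟩
  have := key.2
  rwa [← Nat.card_coe_set_eq] at this

/-- Multiples of an element of order dividing `5` in an abelian group. -/
lemma five_torsion_multiples {A : Type*} [AddCommGroup A] {P : A} (h5 : (5 : ℕ) • P = 0) :
    (3 : ℕ) • P = -((2 : ℕ) • P) ∧ (4 : ℕ) • P = -P ∧ (2 : ℕ) • ((2 : ℕ) • P) = -P ∧
      (2 : ℕ) • ((3 : ℕ) • P) = P ∧ (2 : ℕ) • ((4 : ℕ) • P) = -((2 : ℕ) • P) := by
  have e3 : (3 : ℕ) • P = -((2 : ℕ) • P) := by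
    have : (3 : ℕ) • P + (2 : ℕ) • P = (5 : ℕ) • P := by rw [← add_nsmul]
    rw [h5] at this
    exact eq_neg_of_add_eq_zero_left this
  have e4 : (4 : ℕ) • P = -P := by
    have : (4 : ℕ) • P + P = (5 : ℕ) • P := by
      rw [show (5 : ℕ) = 4 + 1 from rfl, add_nsmul, one_nsmul]
    rw [h5] at this
    exact eq_neg_of_add_eq_zero_left this
  refine ⟨e3, e4, ?_, ?_, ?_⟩
  · rw [← mul_nsmul']; exact e4
  · have : (2 : ℕ) • ((3 : ℕ) • P) = (5 : ℕ) • P + P := by
      rw [← mul_nsmul', show (2 * 3 : ℕ) = 5 + 1 from rfl, add_nsmul, one_nsmul]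
    rw [this, h5, zero_add]
  · rw [e4, smul_neg]

/-- **The `5`-torsion half of the Galois part of S51.** If the mod `5` representation of an
elliptic curve over `ℚ` is not irreducible, there are `x₁ ≠ x₂` in `ℚ̄` (the `x`-coordinates of
`P` and `2P` for a point `P` of order `5` spanning a Galois-stable line), exchanged or fixed by
every Galois automorphism, so that `x₁ + x₂` and `x₁ x₂` are rational, and related by the
duplication formula. -/
theorem exists_five_data (hΔ : E.Δ ≠ 0)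
    (h : ¬ Affine.Point.GaloisRepIsIrreducible (K := Kbar) ℚ E.toAffine 5) :
    ∃ (s t : ℚ) (x₁ x₂ : Kbar), x₁ + x₂ = algebraMap ℚ Kbar s ∧
      x₁ * x₂ = algebraMap ℚ Kbar t ∧ FiveData (E.toAffine⁄Kbar) x₁ x₂ := by
  classical
  have : Fact (Nat.Prime 5) := ⟨by norm_num⟩
  have hnt := nontrivial_torsion_five E hΔ
  obtain ⟨hfin, hcard⟩ := finite_torsion_five E
  rw [Affine.Point.GaloisRepIsIrreducible, not_and] at h
  have h' := h hnt
  push Not at h'
  obtain ⟨N, hN, hbot, htop⟩ := h'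
  -- the dimension of the `5`-torsion is at most `2`
  have hrank : Module.finrank (ZMod 5)
      (Submodule.torsionBy ℤ (E.toAffine⁄Kbar).Point (5 : ℕ)) ≤ 2 := by
    have hc := Module.natCard_eq_pow_finrank (K := ZMod 5)
      (V := Submodule.torsionBy ℤ (E.toAffine⁄Kbar).Point (5 : ℕ))
    rw [Nat.card_zmod] at hc
    rw [hc] at hcard
    by_contra hlt
    push Not at hlt
    have : 5 ^ 3 ≤ 5 ^ Module.finrank (ZMod 5)
        (Submodule.torsionBy ℤ (E.toAffine⁄Kbar).Point (5 : ℕ)) :=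
      Nat.pow_le_pow_right (by norm_num) hlt
    omega
  have hN1 : Module.finrank (ZMod 5) N = 1 := by
    have h1 : Module.finrank (ZMod 5) N < Module.finrank (ZMod 5)
        (Submodule.torsionBy ℤ (E.toAffine⁄Kbar).Point (5 : ℕ)) := Submodule.finrank_lt htop
    have h2 : 1 ≤ Module.finrank (ZMod 5) N := Submodule.one_le_finrank_iff.mpr hbot
    omega
  obtain ⟨v, hv0, hv⟩ := finrank_eq_one_iff'.mp hN1
  -- the point `P`
  set P : (E.toAffine⁄Kbar).Point := ((v : Submodule.torsionBy ℤ (E.toAffine⁄Kbar).Point (5 : ℕ)) :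
    (E.toAffine⁄Kbar).Point) with hPdef
  have hP0 : P ≠ 0 := by
    intro h0
    apply hv0
    apply Subtype.ext
    apply Subtype.ext
    exact h0
  have hP5 : 5 • P = 0 := by
    have := (Submodule.mem_torsionBy_iff _ _).mp
      (v : Submodule.torsionBy ℤ (E.toAffine⁄Kbar).Point (5 : ℕ)).2
    rwa [natCast_zsmul] at this
  have hdata := fiveData_of_five_nsmul hP0 hP5
  obtain ⟨e3, e4, e22, e23, e24⟩ := five_torsion_multiples hP5
  -- the Galois action on `P`
  have hσ : ∀ σ : Kbar ≃ₐ[ℚ] Kbar, ∃ k : ℕ, k < 5 ∧ σ • P = k • P := by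
    intro σ
    have hmem := hN σ v v.2
    obtain ⟨c, hc⟩ := hv ⟨_, hmem⟩
    refine ⟨c.val, ZMod.val_lt c, ?_⟩
    rw [← ZMod.natCast_zmod_val c, Nat.cast_smul_eq_nsmul] at hc
    have hc' := congrArg (fun w : N => ((w : Submodule.torsionBy ℤ (E.toAffine⁄Kbar).Point
      (5 : ℕ)) : (E.toAffine⁄Kbar).Point)) hc
    simp only [AddSubmonoidClass.coe_nsmul] at hc'
    exact hc'.symm
  have hkey : ∀ σ : Kbar ≃ₐ[ℚ] Kbar,
      (σ (xc _ P) = xc _ P ∧ σ (xc _ (2 • P)) = xc _ (2 • P)) ∨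
      (σ (xc _ P) = xc _ (2 • P) ∧ σ (xc _ (2 • P)) = xc _ P) := by
    intro σ
    obtain ⟨k, hk, hkP⟩ := hσ σ
    have h2σ : σ • (2 • P) = 2 • (σ • P) :=
      map_nsmul (Point.map (W' := E.toAffine) σ.toAlgHom) 2 P
    rw [← xc_smul, ← xc_smul, h2σ, hkP]
    have hk0 : k ≠ 0 := by
      rintro rfl
      rw [zero_nsmul] at hkP
      exact hP0 (Point.map_injective (W' := E.toAffine) σ.toAlgHom hkP)
    interval_cases k
    · exact absurd rfl hk0
    · left; rw [one_nsmul]; exact ⟨rfl, rfl⟩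
    · right; rw [e22, xc_neg]; exact ⟨rfl, rfl⟩
    · right; rw [e23, e3, xc_neg]; exact ⟨rfl, rfl⟩
    · left; rw [e24, e4, xc_neg, xc_neg]; exact ⟨rfl, rfl⟩
  obtain ⟨s, hs⟩ := exists_rat_of_fixed (xc _ P + xc _ (2 • P)) (fun σ => by
    rw [map_add]
    rcases hkey σ with ⟨h1, h2⟩ | ⟨h1, h2⟩
    · rw [h1, h2]
    · rw [h1, h2, add_comm])
  obtain ⟨t, ht⟩ := exists_rat_of_fixed (xc _ P * xc _ (2 • P)) (fun σ => by
    rw [map_mul]
    rcases hkey σ with ⟨h1, h2⟩ | ⟨h1, h2⟩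
    · rw [h1, h2]
    · rw [h1, h2, mul_comm])
  exact ⟨s, t, _, _, hs.symm, ht.symm, hdata⟩

end Fermat.Agent.S51.helper8
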