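import Mathlib

set_option autoImplicit false

namespace Fermat.Agent.S51.helper38

/-- Symmetric and antisymmetric consequences of the two duplication relations. -/
theorem sym_anti_of_dup {K : Type*} [Field K] [CharZero K] (b2 b4 b6 b8 : ℚ)
    (s t : ℚ) (x1 x2 : K) (hs : x1 + x2 = (s : K)) (ht : x1 * x2 = (t : K)) (hne : x1 ≠ x2)
    (h12 : x1 ^ 4 - (b4 : K) * x1 ^ 2 - 2 * (b6 : K) * x1 - (b8 : K)
        = x2 * (4 * x1 ^ 3 + (b2 : K) * x1 ^ 2 + 2 * (b4 : K) * x1 + (b6 : K)))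
    (h21 : x2 ^ 4 - (b4 : K) * x2 ^ 2 - 2 * (b6 : K) * x2 - (b8 : K)
        = x1 * (4 * x2 ^ 3 + (b2 : K) * x2 ^ 2 + 2 * (b4 : K) * x2 + (b6 : K))) :
    (s ^ 3 - 6 * s * t - b4 * s - b6 - b2 * t = 0) ∧
    ((s ^ 2 - 2 * t) ^ 2 - 2 * t ^ 2 - b4 * (s ^ 2 - 2 * t) - 3 * b6 * s - 2 * b8
        - 4 * t * (s ^ 2 - 2 * t) - b2 * t * s - 4 * b4 * t = 0) ∧
    (s ^ 2 - 4 * t ≠ 0) := by
  have hd : x1 - x2 ≠ 0 := sub_ne_zero.mpr hne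
  refine ⟨?_, ?_, ?_⟩
  · have h : (x1 - x2) * (((s : K)) ^ 3 - 6 * (s : K) * (t : K) - (b4 : K) * (s : K) - (b6 : K)
        - (b2 : K) * (t : K)) = 0 := by
      rw [← hs, ← ht]
      linear_combination h12 - h21
    have h' := (mul_eq_zero.mp h).resolve_left hd
    exact_mod_cast h'
  · have h : ((s : K) ^ 2 - 2 * (t : K)) ^ 2 - 2 * (t : K) ^ 2 - (b4 : K) * ((s : K) ^ 2 - 2 * (t : K))
        - 3 * (b6 : K) * (s : K) - 2 * (b8 : K)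
        - 4 * (t : K) * ((s : K) ^ 2 - 2 * (t : K)) - (b2 : K) * (t : K) * (s : K)
        - 4 * (b4 : K) * (t : K) = 0 := by
      rw [← hs, ← ht]
      linear_combination h12 + h21
    exact_mod_cast h
  · intro h
    have h' : ((s : K)) ^ 2 - 4 * (t : K) = 0 := by exact_mod_cast congrArg (fun q : ℚ => (q : K)) h
    rw [← hs, ← ht] at h'
    have : (x1 - x2) ^ 2 = 0 := by linear_combination h'
    exact hd ((pow_eq_zero_iff two_ne_zero).mp this)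

/-- Core of the endgame in normalised (shifted) coordinates. -/
theorem endgame_core (B2 n δ X : ℚ) (hδ0 : δ ≠ 0) (hn : n ≠ 22)
    (hC1 : B2 ^ 2 = δ * (n ^ 2 + 16))
    (h3 : 3 * X ^ 4 + B2 * X ^ 3 + 3 * (n - 2) * δ * X ^ 2 + 3 * B2 * δ * X + (n + 3) * δ ^ 2 = 0)
    (hdesc : ∀ x y : ℚ, y ^ 2 = x * (x + 9) * (x - 16) →
      x = 0 ∨ x = -9 ∨ x = 16 ∨ x = -4 ∨ x = 36) :
    n = 2 ∨ n = -58 ∨ n = -3 ∨ n = 63 / 4 := by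
  have hn16 : 0 < n ^ 2 + 16 := by positivity
  have hδpos : 0 < δ := by
    have h1 : 0 ≤ B2 ^ 2 := sq_nonneg _
    rw [hC1] at h1
    rcases lt_or_gt_of_ne hδ0 with h | h
    · exfalso
      have : δ * (n ^ 2 + 16) < 0 := mul_neg_of_neg_of_pos h hn16
      linarith
    · exact h
  obtain ⟨V, hV⟩ : ∃ V : ℚ, V = X ^ 2 / δ := ⟨_, rfl⟩
  obtain ⟨U, hU⟩ : ∃ U : ℚ, U = B2 * X / δ := ⟨_, rfl⟩
  have hVnn : 0 ≤ V := by rw [hV]; exact div_nonneg (sq_nonneg _) hδpos.le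
  have hV3 : V + 3 ≠ 0 := by linarith
  have hU2 : U ^ 2 = (n ^ 2 + 16) * V := by
    rw [hU, hV]; field_simp; rw [hC1]; ring
  have hUV : U * (V + 3) = -(3 * V ^ 2 + 3 * (n - 2) * V + n + 3) := by
    rw [hU, hV]; field_simp; linear_combination h3
  have hRel : (3 * V ^ 2 + 3 * (n - 2) * V + n + 3) ^ 2 = (n ^ 2 + 16) * V * (V + 3) ^ 2 := by
    have : (U * (V + 3)) ^ 2 = (n ^ 2 + 16) * V * (V + 3) ^ 2 := by rw [mul_pow, hU2]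
    rw [hUV] at this
    linear_combination this
  have hxy := hdesc (9 * (V - 1)) (9 * (V - 1) * (n * (V - 1) - 3 * (3 * V + 1)) / (V + 3)) (by
    rw [div_pow, div_eq_iff (pow_ne_zero 2 hV3)]
    linear_combination (-81 * (V - 1)) * hRel)
  have hn22 : n - 22 ≠ 0 := sub_ne_zero.mpr hn
  rcases hxy with h | h | h | h | h
  · -- V = 1
    exfalso
    have hV1 : V = 1 := by linarith
    rw [hV1] at hRel
    nlinarith [hRel]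
  · -- V = 0
    have hV0 : V = 0 := by linarith
    rw [hV0] at hRel
    have : (n + 3) ^ 2 = 0 := by linear_combination hRel
    have : n + 3 = 0 := by simpa using this
    right; right; left; linarith
  · -- V = 25/9
    have hV' : V = 25 / 9 := by linarith
    rw [hV'] at hRel
    have : (4 * n - 63) ^ 2 = 0 := by linear_combination (-729 / 256 : ℚ) * hRel
    have : 4 * n - 63 = 0 := by simpa using this
    right; right; right; linarith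
  · -- V = 5/9
    have hV' : V = 5 / 9 := by linarith
    rw [hV'] at hRel
    have : (n - 22) * (n + 58) = 0 := by linear_combination (729 / 64 : ℚ) * hRel
    rcases mul_eq_zero.mp this with h' | h'
    · exact absurd h' hn22
    · right; left; linarith
  · -- V = 5
    have hV' : V = 5 := by linarith
    rw [hV'] at hRel
    have : (n - 22) * (n - 2) = 0 := by linear_combination (-1 / 64 : ℚ) * hRel
    rcases mul_eq_zero.mp this with h' | h'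
    · exact absurd h' hn22
    · left; linarith

/-- The purely rational endgame: from the symmetric/antisymmetric duplication relations and a
rational root of `ψ₃` to the four `j`-invariants (stated as `c₄ ^ 3 = j * Δ`). -/
theorem endgame_rat (b2 b4 b6 b8 : ℚ) (hb8 : 4 * b8 = b2 * b6 - b4 ^ 2)
    (hΔ : -b2 ^ 2 * b8 - 8 * b4 ^ 3 - 27 * b6 ^ 2 + 9 * b2 * b4 * b6 ≠ 0)
    (x3 : ℚ) (h3 : 3 * x3 ^ 4 + b2 * x3 ^ 3 + 3 * b4 * x3 ^ 2 + 3 * b6 * x3 + b8 = 0)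
    (s t : ℚ)
    (hanti : s ^ 3 - 6 * s * t - b4 * s - b6 - b2 * t = 0)
    (hsym : (s ^ 2 - 2 * t) ^ 2 - 2 * t ^ 2 - b4 * (s ^ 2 - 2 * t) - 3 * b6 * s - 2 * b8
        - 4 * t * (s ^ 2 - 2 * t) - b2 * t * s - 4 * b4 * t = 0)
    (hdisc : s ^ 2 - 4 * t ≠ 0)
    (hdesc : ∀ x y : ℚ, y ^ 2 = x * (x + 9) * (x - 16) →
      x = 0 ∨ x = -9 ∨ x = 16 ∨ x = -4 ∨ x = 36) :
    (b2 ^ 2 - 24 * b4) ^ 3
      = (-25 / 2) * (-b2 ^ 2 * b8 - 8 * b4 ^ 3 - 27 * b6 ^ 2 + 9 * b2 * b4 * b6) ∨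
    (b2 ^ 2 - 24 * b4) ^ 3
      = (-349938025 / 8) * (-b2 ^ 2 * b8 - 8 * b4 ^ 3 - 27 * b6 ^ 2 + 9 * b2 * b4 * b6) ∨
    (b2 ^ 2 - 24 * b4) ^ 3
      = (-121945 / 32) * (-b2 ^ 2 * b8 - 8 * b4 ^ 3 - 27 * b6 ^ 2 + 9 * b2 * b4 * b6) ∨
    (b2 ^ 2 - 24 * b4) ^ 3
      = (46969655 / 32768) * (-b2 ^ 2 * b8 - 8 * b4 ^ 3 - 27 * b6 ^ 2 + 9 * b2 * b4 * b6) := by
  -- eliminate b8
  obtain rfl : b8 = (b2 * b6 - b4 ^ 2) / 4 := by linarith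
  -- parametrise s, t
  obtain ⟨r, rfl⟩ : ∃ r, s = 2 * r := ⟨s / 2, by ring⟩
  obtain ⟨δ, rfl⟩ : ∃ δ, t = r ^ 2 - δ := ⟨r ^ 2 - t, by ring⟩
  have hδ0 : δ ≠ 0 := by
    intro h; apply hdisc; rw [h]; ring
  obtain ⟨B2, rfl⟩ : ∃ B2, b2 = B2 - 12 * r := ⟨b2 + 12 * r, by ring⟩
  obtain ⟨n, rfl⟩ : ∃ n, b4 = (n - 2) * δ - r * B2 + 6 * r ^ 2 :=
    ⟨(b4 + r * B2 - 6 * r ^ 2) / δ + 2, by field_simp; ring⟩
  obtain rfl : b6 = B2 * δ - 2 * r * ((n - 2) * δ) + r ^ 2 * B2 - 4 * r ^ 3 := by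
    linear_combination -hanti
  have hC1 : B2 ^ 2 = δ * (n ^ 2 + 16) := by
    have h : δ * (B2 ^ 2 - δ * (n ^ 2 + 16)) = 0 := by linear_combination (-2) * hsym
    have h' := (mul_eq_zero.mp h).resolve_left hδ0
    linarith
  obtain ⟨X, rfl⟩ : ∃ X, x3 = X + r := ⟨x3 - r, by ring⟩
  have h3' : 3 * X ^ 4 + B2 * X ^ 3 + 3 * (n - 2) * δ * X ^ 2 + 3 * B2 * δ * X
      + (n + 3) * δ ^ 2 = 0 := by
    linear_combination h3 - (δ / 4) * hC1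
  have hc4 : ((B2 - 12 * r) ^ 2 - 24 * ((n - 2) * δ - r * B2 + 6 * r ^ 2))
      = δ * (n ^ 2 - 24 * n + 64) := by
    linear_combination hC1
  have hΔ2 : (-(B2 - 12 * r) ^ 2 *
          (((B2 - 12 * r) * (B2 * δ - 2 * r * ((n - 2) * δ) + r ^ 2 * B2 - 4 * r ^ 3) -
              ((n - 2) * δ - r * B2 + 6 * r ^ 2) ^ 2) / 4) -
        8 * ((n - 2) * δ - r * B2 + 6 * r ^ 2) ^ 3 -
        27 * (B2 * δ - 2 * r * ((n - 2) * δ) + r ^ 2 * B2 - 4 * r ^ 3) ^ 2 +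
        9 * (B2 - 12 * r) * ((n - 2) * δ - r * B2 + 6 * r ^ 2) *
          (B2 * δ - 2 * r * ((n - 2) * δ) + r ^ 2 * B2 - 4 * r ^ 3))
      = 32 * δ ^ 3 * (n - 22) := by
    linear_combination (-(B2 ^ 2 + δ * (n ^ 2 + 16)) * δ / 4 + ((n - 2) * δ) ^ 2 / 4
      - 27 * δ ^ 2 + 9 * ((n - 2) * δ) * δ) * hC1
  rw [hΔ2] at hΔ
  have hn : n ≠ 22 := by
    rintro rfl; apply hΔ; ring
  rw [hc4, hΔ2]
  rcases endgame_core B2 n δ X hδ0 hn hC1 h3' hdesc with rfl | rfl | rfl | rfl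
  · left; ring
  · right; left; ring
  · right; right; left; ring
  · right; right; right; ring

/-- Endgame with the 5-isogeny data given by two conjugate `x`-coordinates in a field `K` of
characteristic zero (e.g. `AlgebraicClosure ℚ`). -/
theorem endgame {K : Type*} [Field K] [CharZero K] (b2 b4 b6 b8 : ℚ)
    (hb8 : 4 * b8 = b2 * b6 - b4 ^ 2)
    (hΔ : -b2 ^ 2 * b8 - 8 * b4 ^ 3 - 27 * b6 ^ 2 + 9 * b2 * b4 * b6 ≠ 0)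
    (x3 : ℚ) (h3 : 3 * x3 ^ 4 + b2 * x3 ^ 3 + 3 * b4 * x3 ^ 2 + 3 * b6 * x3 + b8 = 0)
    (s t : ℚ) (x1 x2 : K) (hs : x1 + x2 = (s : K)) (ht : x1 * x2 = (t : K)) (hne : x1 ≠ x2)
    (h12 : x1 ^ 4 - (b4 : K) * x1 ^ 2 - 2 * (b6 : K) * x1 - (b8 : K)
        = x2 * (4 * x1 ^ 3 + (b2 : K) * x1 ^ 2 + 2 * (b4 : K) * x1 + (b6 : K)))
    (h21 : x2 ^ 4 - (b4 : K) * x2 ^ 2 - 2 * (b6 : K) * x2 - (b8 : K)
        = x1 * (4 * x2 ^ 3 + (b2 : K) * x2 ^ 2 + 2 * (b4 : K) * x2 + (b6 : K)))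
    (hdesc : ∀ x y : ℚ, y ^ 2 = x * (x + 9) * (x - 16) →
      x = 0 ∨ x = -9 ∨ x = 16 ∨ x = -4 ∨ x = 36) :
    (b2 ^ 2 - 24 * b4) ^ 3
      = (-25 / 2) * (-b2 ^ 2 * b8 - 8 * b4 ^ 3 - 27 * b6 ^ 2 + 9 * b2 * b4 * b6) ∨
    (b2 ^ 2 - 24 * b4) ^ 3
      = (-349938025 / 8) * (-b2 ^ 2 * b8 - 8 * b4 ^ 3 - 27 * b6 ^ 2 + 9 * b2 * b4 * b6) ∨
    (b2 ^ 2 - 24 * b4) ^ 3
      = (-121945 / 32) * (-b2 ^ 2 * b8 - 8 * b4 ^ 3 - 27 * b6 ^ 2 + 9 * b2 * b4 * b6) ∨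
    (b2 ^ 2 - 24 * b4) ^ 3
      = (46969655 / 32768) * (-b2 ^ 2 * b8 - 8 * b4 ^ 3 - 27 * b6 ^ 2 + 9 * b2 * b4 * b6) := by
  obtain ⟨hanti, hsym, hdisc⟩ := sym_anti_of_dup b2 b4 b6 b8 s t x1 x2 hs ht hne h12 h21
  exact endgame_rat b2 b4 b6 b8 hb8 hΔ x3 h3 s t hanti hsym hdisc hdesc

/-- Endgame for a Weierstrass curve over `ℚ`: a rational root of `ψ₃` together with
5-isogeny data forces `c₄ ^ 3 = j * Δ` for one of the four `j`-invariants of the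
non-cuspidal rational points of `X₀(15)`. -/
theorem endgame_curve {K : Type*} [Field K] [CharZero K] (E : WeierstrassCurve ℚ) (hΔ : E.Δ ≠ 0)
    (x3 : ℚ) (h3 : 3 * x3 ^ 4 + E.b₂ * x3 ^ 3 + 3 * E.b₄ * x3 ^ 2 + 3 * E.b₆ * x3 + E.b₈ = 0)
    (s t : ℚ) (x1 x2 : K) (hs : x1 + x2 = (s : K)) (ht : x1 * x2 = (t : K)) (hne : x1 ≠ x2)
    (h12 : x1 ^ 4 - (E.b₄ : K) * x1 ^ 2 - 2 * (E.b₆ : K) * x1 - (E.b₈ : K)
        = x2 * (4 * x1 ^ 3 + (E.b₂ : K) * x1 ^ 2 + 2 * (E.b₄ : K) * x1 + (E.b₆ : K)))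
    (h21 : x2 ^ 4 - (E.b₄ : K) * x2 ^ 2 - 2 * (E.b₆ : K) * x2 - (E.b₈ : K)
        = x1 * (4 * x2 ^ 3 + (E.b₂ : K) * x2 ^ 2 + 2 * (E.b₄ : K) * x2 + (E.b₆ : K)))
    (hdesc : ∀ x y : ℚ, y ^ 2 = x * (x + 9) * (x - 16) →
      x = 0 ∨ x = -9 ∨ x = 16 ∨ x = -4 ∨ x = 36) :
    E.c₄ ^ 3 = (-25 / 2) * E.Δ ∨ E.c₄ ^ 3 = (-349938025 / 8) * E.Δ ∨
    E.c₄ ^ 3 = (-121945 / 32) * E.Δ ∨ E.c₄ ^ 3 = (46969655 / 32768) * E.Δ := by
  have hΔ' : -E.b₂ ^ 2 * E.b₈ - 8 * E.b₄ ^ 3 - 27 * E.b₆ ^ 2 + 9 * E.b₂ * E.b₄ * E.b₆ ≠ 0 := hΔ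
  have := endgame (K := K) E.b₂ E.b₄ E.b₆ E.b₈ E.b_relation hΔ' x3 h3 s t x1 x2 hs ht hne h12 h21
    hdesc
  simpa only [WeierstrassCurve.c₄, WeierstrassCurve.Δ] using this

end Fermat.Agent.S51.helper38
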