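import Mathlib

/-!
# Existence of nonzero 3- and 5-torsion points (helper39, S51 piece I6-a)

Pure algebra part: polynomial identities between the values of the division polynomials
`Ψ₂Sq, Ψ₃, preΨ₄, Φ₂, ψ₅` of a Weierstrass curve, all modulo the relation
`4 b₈ = b₂ b₆ - b₄²`.
-/

set_option autoImplicit false

namespace Fermat.Agent.S51.helper39

section Algebra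

variable {R : Type*} [CommRing R] (W : WeierstrassCurve R)

/-- The value at `x` of `Ψ₂Sq = 4X³ + b₂X² + 2b₄X + b₆`. -/
def psi2sq (x : R) : R := 4 * x ^ 3 + W.b₂ * x ^ 2 + 2 * W.b₄ * x + W.b₆

/-- The value at `x` of `Ψ₃ = 3X⁴ + b₂X³ + 3b₄X² + 3b₆X + b₈`. -/
def psi3 (x : R) : R := 3 * x ^ 4 + W.b₂ * x ^ 3 + 3 * W.b₄ * x ^ 2 + 3 * W.b₆ * x + W.b₈

/-- The value at `x` of `preΨ₄`. -/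
def prepsi4 (x : R) : R :=
  2 * x ^ 6 + W.b₂ * x ^ 5 + 5 * W.b₄ * x ^ 4 + 10 * W.b₆ * x ^ 3 + 10 * W.b₈ * x ^ 2 +
    (W.b₂ * W.b₈ - W.b₄ * W.b₆) * x + (W.b₄ * W.b₈ - W.b₆ ^ 2)

/-- The numerator `Φ₂ = X⁴ - b₄X² - 2b₆X - b₈` of the duplication formula. -/
def dupNum (x : R) : R := x ^ 4 - W.b₄ * x ^ 2 - 2 * W.b₆ * x - W.b₈

/-- The value at `x` of `ψ₅ = preΨ₄ Ψ₂Sq² - Ψ₃³`. -/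
def psi5 (x : R) : R := prepsi4 W x * psi2sq W x ^ 2 - psi3 W x ^ 3

lemma dupNum_eq (x : R) : dupNum W x = x * psi2sq W x - psi3 W x := by
  simp only [dupNum, psi2sq, psi3]; ring

/-- Bezout identity for `Ψ₃` and `Ψ₂Sq`. -/
lemma bezout_psi3_psi2sq (x : R) :
    (48 * x ^ 2 + 8 * x * W.b₂ - W.b₂ ^ 2 + 32 * W.b₄) * psi3 W x +
      (-36 * x ^ 3 - 9 * x ^ 2 * W.b₂ + x * W.b₂ ^ 2 - 42 * x * W.b₄ + W.b₂ * W.b₄ - 27 * W.b₆) * psi2sq W x = W.Δ := by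
  simp only [psi3, psi2sq, WeierstrassCurve.Δ]
  linear_combination (12 * x ^ 2 + 2 * x * W.b₂ + 8 * W.b₄) * W.b_relation

/-- Bezout identity for `Ψ₃` and `preΨ₄`. -/
lemma bezout_psi3_prepsi4 (x : R) :
    (8 * x ^ 5 * W.b₂ ^ 3 - 288 * x ^ 5 * W.b₂ * W.b₄ + 1728 * x ^ 5 * W.b₆ + 4 * x ^ 4 * W.b₂ ^ 4 - 152 * x ^ 4 * W.b₂ ^ 2 * W.b₄ + 720 * x ^ 4 * W.b₂ * W.b₆ + 384 * x ^ 4 * W.b₄ ^ 2 + 16 * x ^ 3 * W.b₂ ^ 3 * W.b₄ - 48 * x ^ 3 * W.b₂ ^ 2 * W.b₆ - 544 * x ^ 3 * W.b₂ * W.b₄ ^ 2 + 4032 * x ^ 3 * W.b₄ * W.b₆ + 50 * x ^ 2 * W.b₂ ^ 3 * W.b₆ - 26 * x ^ 2 * W.b₂ ^ 2 * W.b₄ ^ 2 - 1944 * x ^ 2 * W.b₂ * W.b₄ * W.b₆ + 960 * x ^ 2 * W.b₄ ^ 3 + 8856 * x ^ 2 * W.b₆ ^ 2 + 9 * x * W.b₂ ^ 4 * W.b₆ - 9 * x * W.b₂ ^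 3 * W.b₄ ^ 2 - 332 * x * W.b₂ ^ 2 * W.b₄ * W.b₆ + 312 * x * W.b₂ * W.b₄ ^ 3 + 1476 * x * W.b₂ * W.b₆ ^ 2 - 912 * x * W.b₄ ^ 2 * W.b₆ + W.b₂ ^ 5 * W.b₆ - W.b₂ ^ 4 * W.b₄ ^ 2 - 51 * W.b₂ ^ 3 * W.b₄ * W.b₆ + 47 * W.b₂ ^ 2 * W.b₄ ^ 3 + 132 * W.b₂ ^ 2 * W.b₆ ^ 2 + 488 * W.b₂ * W.b₄ ^ 2 * W.b₆ - 448 * W.b₄ ^ 4 - 1692 * W.b₄ * W.b₆ ^ 2) * psi3 W x +
      (-12 * x ^ 3 * W.b₂ ^ 3 + 432 * x ^ 3 * W.b₂ * W.b₄ - 2592 * x ^ 3 * W.b₆ - 4 * x ^ 2 * W.b₂ ^ 4 + 156 * x ^ 2 * W.b₂ ^ 2 * W.b₄ - 648 * x ^ 2 * W.b₂ * W.b₆ - 576 * x ^ 2 * W.b₄ ^ 2 - 8 * x * W.b₂ ^ 3 * W.b₄ + 36 * x * W.b₂ ^ 2 * W.b₆ + 264 * x * W.b₂ * W.b₄ ^ 2 - 2160 * x * W.b₄ * W.b₆ - 21 * W.b₂ ^ 3 * W.b₆ + 17 * W.b₂ ^ 2 * W.b₄ ^ 2 + 792 * W.b₂ * W.b₄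 * W.b₆ - 576 * W.b₄ ^ 3 - 2916 * W.b₆ ^ 2) * prepsi4 W x = 4 * W.Δ ^ 2 := by
  simp only [psi3, prepsi4, WeierstrassCurve.Δ]
  linear_combination (-28 * x ^ 5 * W.b₂ ^ 3 + 1008 * x ^ 5 * W.b₂ * W.b₄ - 6048 * x ^ 5 * W.b₆ - 12 * x ^ 4 * W.b₂ ^ 4 + 460 * x ^ 4 * W.b₂ ^ 2 * W.b₄ - 2088 * x ^ 4 * W.b₂ * W.b₆ - 1344 * x ^ 4 * W.b₄ ^ 2 - x ^ 3 * W.b₂ ^ 5 + 20 * x ^ 3 * W.b₂ ^ 3 * W.b₄ - 84 * x ^ 3 * W.b₂ ^ 2 * W.b₆ + 488 * x ^ 3 * W.b₂ * W.b₄ ^ 2 - 5040 * x ^ 3 * W.b₄ * W.b₆ - 3 * x ^ 2 * W.b₂ ^ 4 * W.b₄ - 31 * x ^ 2 * W.b₂ ^ 3 * W.b₆ + 141 * x ^ 2 * W.b₂ ^ 2 * W.b₄ ^ 2 + 792 * x ^ 2 * W.b₂ * W.b₄ * W.b₆ - 1344 * x ^ 2 * W.b₄ ^ 3 - 5076 * x ^ 2 * W.b₆ ^ 2 - 3 * x * W.b₂ ^ 4 * W.b₆ + 124 * x * W.b₂ ^ 2 *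 W.b₄ * W.b₆ - 360 * x * W.b₂ * W.b₆ ^ 2 - 768 * x * W.b₄ ^ 2 * W.b₆ - W.b₂ ^ 4 * W.b₈ - 21 * W.b₂ ^ 2 * W.b₆ ^ 2 + 320 * W.b₂ * W.b₄ ^ 2 * W.b₆ - 256 * W.b₄ ^ 4 - 1152 * W.b₄ * W.b₆ ^ 2) * W.b_relation

/-- `Ψ₂Sq(x(2P)) Ψ₂Sq(x)³ = preΨ₄(x)²`. -/
lemma psi2sq_dup (x x₁ : R) (h : x₁ * psi2sq W x = dupNum W x) :
    psi2sq W x₁ * psi2sq W x ^ 3 = prepsi4 W x ^ 2 := by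
  have e : psi2sq W x₁ * psi2sq W x ^ 3 =
      4 * (x₁ * psi2sq W x) ^ 3 + W.b₂ * (x₁ * psi2sq W x) ^ 2 * psi2sq W x +
        2 * W.b₄ * (x₁ * psi2sq W x) * psi2sq W x ^ 2 + W.b₆ * psi2sq W x ^ 3 := by
    generalize psi2sq W x = s
    simp only [psi2sq]; ring
  rw [e, h]
  simp only [psi2sq, dupNum, prepsi4]
  linear_combination (-13 * x ^ 8 - 8 * x ^ 7 * W.b₂ - x ^ 6 * W.b₂ ^ 2 - 28 * x ^ 6 * W.b₄ - 6 * x ^ 5 * W.b₂ * W.b₄ - 38 * x ^ 5 * W.b₆ - 7 * x ^ 4 * W.b₂ * W.b₆ - 8 * x ^ 4 * W.b₄ ^ 2 - 22 * x ^ 4 * W.b₈ - 4 * x ^ 3 * W.b₂ * W.b₈ - 16 * x ^ 3 * W.b₄ * W.b₆ - 8 * x ^ 2 * W.b₄ * W.b₈ - 7 * x ^ 2 * W.b₆ ^ 2 - 6 * x * W.b₆ * W.b₈ - W.b₈ ^ 2) * W.b_relation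

/-- `(Φ₂(x(2P)) - x Ψ₂Sq(x(2P))) Ψ₂Sq(x)⁴ = -ψ₅(x) Ψ₃(x)`. -/
lemma dupNum_dup (x x₁ : R) (h : x₁ * psi2sq W x = dupNum W x) :
    (dupNum W x₁ - x * psi2sq W x₁) * psi2sq W x ^ 4 = -(psi5 W x * psi3 W x) := by
  have e : dupNum W x₁ * psi2sq W x ^ 4 =
      (x₁ * psi2sq W x) ^ 4 - W.b₄ * (x₁ * psi2sq W x) ^ 2 * psi2sq W x ^ 2 -
        2 * W.b₆ * (x₁ * psi2sq W x) * psi2sq W x ^ 3 - W.b₈ * psi2sq W x ^ 4 := by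
    generalize psi2sq W x = s
    simp only [dupNum]; ring
  have e' := psi2sq_dup W x x₁ h
  have e'' : (dupNum W x₁ - x * psi2sq W x₁) * psi2sq W x ^ 4 =
      dupNum W x₁ * psi2sq W x ^ 4 - x * psi2sq W x * (psi2sq W x₁ * psi2sq W x ^ 3) := by ring
  rw [e'', e, e', h]
  simp only [psi2sq, dupNum, prepsi4, psi5, psi3]
  linear_combination (-4 * x ^ 12 - 5 * x ^ 11 * W.b₂ - x ^ 10 * W.b₂ ^ 2 - 42 * x ^ 10 * W.b₄ - 16 * x ^ 9 * W.b₂ * W.b₄ - 93 * x ^ 9 * W.b₆ - x ^ 8 * W.b₂ ^ 2 * W.b₄ - 36 * x ^ 8 * W.b₂ * W.b₆ - 28 * x ^ 8 * W.b₄ ^ 2 - 72 * x ^ 8 * W.b₈ - 3 * x ^ 7 * W.b₂ ^ 2 * W.b₆ - 4 * x ^ 7 * W.b₂ * W.b₄ ^ 2 - 30 * x ^ 7 * W.b₂ * W.b₈ - 84 * x ^ 7 * W.b₄ * W.b₆ - 3 * x ^ 6 * W.b₂ ^ 2 * W.b₈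 - 14 * x ^ 6 * W.b₂ * W.b₄ * W.b₆ - 4 * x ^ 6 * W.b₄ ^ 3 - 60 * x ^ 6 * W.b₄ * W.b₈ - 39 * x ^ 6 * W.b₆ ^ 2 - 12 * x ^ 5 * W.b₂ * W.b₄ * W.b₈ - 7 * x ^ 5 * W.b₂ * W.b₆ ^ 2 - 16 * x ^ 5 * W.b₄ ^ 2 * W.b₆ - 38 * x ^ 5 * W.b₆ * W.b₈ - 8 * x ^ 4 * W.b₂ * W.b₆ * W.b₈ - 12 * x ^ 4 * W.b₄ ^ 2 * W.b₈ - 15 * x ^ 4 * W.b₄ * W.b₆ ^ 2 - 4 * x ^ 4 * W.b₈ ^ 2 - x ^ 3 * W.b₂ * W.b₈ ^ 2 - 16 * x ^ 3 * W.b₄ * W.b₆ * W.b₈ - 4 * x ^ 3 * W.b₆ ^ 3 - 2 * x ^ 2 * W.b₄ * W.b₈ ^ 2 - 5 * x ^ 2 * W.b₆ ^ 2 * W.b₈ - x * W.b₆ * W.b₈ ^ 2) * W.b_relation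

end Algebra

end Fermat.Agent.S51.helper39
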