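import Mathlib
import Fermat.Prelude.Def_FLTPrelim_GaloisRep
import Fermat.Agent.S51.helper39_TorsionAlgebra

/-!
# Existence of nonzero 3- and 5-torsion points (helper39, S51 piece I6-a)
-/

set_option autoImplicit false

namespace Fermat.Agent.S51.helper39

open WeierstrassCurve

section Points

variable {K : Type*} [Field K] (W : WeierstrassCurve K)

/-- On the curve, `Ψ₂Sq(x) = (2y + a₁x + a₃)²`. -/
lemma psi2sq_eq_sq {x y : K} (h : W.toAffine.Equation x y) :
    psi2sq W x = (y - W.toAffine.negY x y) ^ 2 := by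
  rw [Affine.equation_iff] at h
  simp only [psi2sq, Affine.negY, WeierstrassCurve.b₂, WeierstrassCurve.b₄, WeierstrassCurve.b₆]
  linear_combination (-4 : K) * h

lemma psi2sq_ne_zero_iff {x y : K} (h : W.toAffine.Equation x y) :
    psi2sq W x ≠ 0 ↔ y ≠ W.toAffine.negY x y := by
  rw [psi2sq_eq_sq W h, ne_eq, ne_eq, pow_eq_zero_iff (two_ne_zero), sub_eq_zero]

variable [DecidableEq K]

/-- The duplication formula for the `x`-coordinate: `x(2P) Ψ₂Sq(x) = Φ₂(x)`. -/
lemma addX_self_mul_psi2sq {x y : K} (h : W.toAffine.Equation x y)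
    (hy : y ≠ W.toAffine.negY x y) :
    W.toAffine.addX x x (W.toAffine.slope x x y y) * psi2sq W x = dupNum W x := by
  have hd : y - W.toAffine.negY x y ≠ 0 := sub_ne_zero.mpr hy
  rw [Affine.slope_of_Y_ne rfl hy, psi2sq_eq_sq W h]
  rw [Affine.equation_iff] at h
  simp only [Affine.addX, dupNum, WeierstrassCurve.b₄, WeierstrassCurve.b₆, WeierstrassCurve.b₈]
  field_simp
  simp only [Affine.negY]
  linear_combination (-(8 * x + W.a₁ ^ 2 + 4 * W.a₂)) * h

/-- Doubling a point which is not `2`-torsion: the result is affine and its `x`-coordinate is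
given by the duplication formula. -/
lemma exists_add_self {x y : K} (h : W.toAffine.Nonsingular x y) (hS : psi2sq W x ≠ 0) :
    ∃ (x₁ y₁ : K) (h₁ : W.toAffine.Nonsingular x₁ y₁),
      Affine.Point.some x y h + Affine.Point.some x y h = Affine.Point.some x₁ y₁ h₁ ∧
        x₁ * psi2sq W x = dupNum W x := by
  have hY : y ≠ W.toAffine.negY x y := (psi2sq_ne_zero_iff W h.1).mp hS
  exact ⟨_, _, _, Affine.Point.add_self_of_Y_ne hY, addX_self_mul_psi2sq W h.1 hY⟩

end Points

section Exists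

variable {K : Type*} [Field K] [DecidableEq K] [IsAlgClosed K] (W : WeierstrassCurve K)

omit [DecidableEq K] in
/-- Over an algebraically closed field every `x` is the `x`-coordinate of an affine point. -/
lemma exists_equation (x : K) : ∃ y : K, W.toAffine.Equation x y := by
  have hdeg : (Polynomial.C (1 : K) * Polynomial.X ^ 2 + Polynomial.C (W.a₁ * x + W.a₃) * Polynomial.X +
      Polynomial.C (-(x ^ 3 + W.a₂ * x ^ 2 + W.a₄ * x + W.a₆))).degree ≠ 0 := by
    rw [Polynomial.degree_quadratic one_ne_zero]; norm_num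
  obtain ⟨y, hy⟩ := IsAlgClosed.exists_root _ hdeg
  refine ⟨y, ?_⟩
  rw [Affine.equation_iff]
  simp only [Polynomial.IsRoot, Polynomial.eval_add, Polynomial.eval_mul, Polynomial.eval_C,
    Polynomial.eval_pow, Polynomial.eval_X] at hy
  linear_combination hy

/-- A Weierstrass curve with nonzero discriminant over an algebraically closed field in which
`3 ≠ 0` has a nonzero point of order `3`. -/
theorem exists_three_torsion (h3 : (3 : K) ≠ 0) (hΔ : W.Δ ≠ 0) :
    ∃ P : W.toAffine.Point, P ≠ 0 ∧ (3 : ℕ) • P = 0 := by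
  obtain ⟨x, hx⟩ := IsAlgClosed.exists_root W.Ψ₃ (by
    rw [Polynomial.degree_eq_natDegree (W.Ψ₃_ne_zero h3), W.natDegree_Ψ₃ h3]; norm_num)
  have hx3 : psi3 W x = 0 := by
    simpa [WeierstrassCurve.Ψ₃, psi3] using hx
  obtain ⟨y, hy⟩ := exists_equation W x
  have hns : W.toAffine.Nonsingular x y :=
    (W.toAffine.equation_iff_nonsingular_of_Δ_ne_zero hΔ).mp hy
  have hS : psi2sq W x ≠ 0 := by
    intro h0
    have := bezout_psi3_psi2sq W x
    rw [hx3, h0, mul_zero, mul_zero, add_zero] at this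
    exact hΔ this.symm
  obtain ⟨x₁, y₁, h₁, hadd, hx₁⟩ := exists_add_self W hns hS
  have hX : x₁ = x := by
    rw [dupNum_eq, hx3, sub_zero] at hx₁
    exact mul_right_cancel₀ hS hx₁
  refine ⟨.some x y hns, Affine.Point.some_ne_zero hns, ?_⟩
  have hcases := (Affine.Point.X_eq_iff (h₁ := h₁) (h₂ := hns)).mp hX
  rw [← hadd] at hcases
  rcases hcases with h | h
  · exfalso
    exact Affine.Point.some_ne_zero hns (by simp at h)
  · rw [show (3 : ℕ) • Affine.Point.some x y hns =
        (Affine.Point.some x y hns + Affine.Point.some x y hns) + Affine.Point.some x y hns by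
      rw [succ_nsmul, two_nsmul], h]
    exact neg_add_cancel _

/-- A Weierstrass curve with nonzero discriminant over an algebraically closed field in which
`2 ≠ 0` and `5 ≠ 0` has a nonzero point of order `5`. -/
theorem exists_five_torsion (h2 : (2 : K) ≠ 0) (h5 : (5 : K) ≠ 0) (hΔ : W.Δ ≠ 0) :
    ∃ P : W.toAffine.Point, P ≠ 0 ∧ (5 : ℕ) • P = 0 := by
  have h5' : ((5 : ℕ) : K) ≠ 0 := by exact_mod_cast h5
  obtain ⟨x, hx⟩ := IsAlgClosed.exists_root (W.preΨ' 5) (by
    rw [Polynomial.degree_eq_natDegree (W.preΨ'_ne_zero h5')]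
    exact_mod_cast (W.natDegree_preΨ'_pos (by norm_num) h5').ne')
  have hx5 : psi5 W x = 0 := by
    have e : W.preΨ' 5 = W.preΨ₄ * W.Ψ₂Sq ^ 2 - W.Ψ₃ ^ 3 := by
      have := W.preΨ'_odd 0
      simpa using this
    rw [e] at hx
    simpa [WeierstrassCurve.Ψ₃, WeierstrassCurve.preΨ₄, WeierstrassCurve.Ψ₂Sq, psi5, psi3,
      prepsi4, psi2sq] using hx
  have h4 : (4 : K) ≠ 0 := by
    have : (4 : K) = 2 * 2 := by norm_num
    rw [this]; exact mul_ne_zero h2 h2
  -- the three non-vanishing statements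
  have key : psi3 W x = 0 → False := by
    intro h0
    have hprod : prepsi4 W x * psi2sq W x ^ 2 = 0 := by
      have := hx5
      rw [psi5, h0] at this
      simpa using this
    rcases mul_eq_zero.mp hprod with h | h
    · have := bezout_psi3_prepsi4 W x
      rw [h0, h, mul_zero, mul_zero, add_zero] at this
      exact hΔ (pow_eq_zero_iff (two_ne_zero) |>.mp
        ((mul_eq_zero.mp this.symm).resolve_left h4))
    · have hS0 : psi2sq W x = 0 := pow_eq_zero_iff (two_ne_zero) |>.mp h
      have := bezout_psi3_psi2sq W x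
      rw [h0, hS0, mul_zero, mul_zero, add_zero] at this
      exact hΔ this.symm
  have hP3 : psi3 W x ≠ 0 := fun h => key h
  have hS : psi2sq W x ≠ 0 := by
    intro h0
    apply key
    have := hx5
    rw [psi5, h0] at this
    have h3 : psi3 W x ^ 3 = 0 := by
      have e : prepsi4 W x * (0 : K) ^ 2 - psi3 W x ^ 3 = -(psi3 W x ^ 3) := by ring
      rw [e] at this
      exact neg_eq_zero.mp this
    exact pow_eq_zero_iff (three_ne_zero) |>.mp h3
  have hP4 : prepsi4 W x ≠ 0 := by
    intro h0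
    apply key
    have := hx5
    rw [psi5, h0] at this
    have h3 : psi3 W x ^ 3 = 0 := by
      have e : (0 : K) * psi2sq W x ^ 2 - psi3 W x ^ 3 = -(psi3 W x ^ 3) := by ring
      rw [e] at this
      exact neg_eq_zero.mp this
    exact pow_eq_zero_iff (three_ne_zero) |>.mp h3
  obtain ⟨y, hy⟩ := exists_equation W x
  have hns : W.toAffine.Nonsingular x y :=
    (W.toAffine.equation_iff_nonsingular_of_Δ_ne_zero hΔ).mp hy
  obtain ⟨x₁, y₁, h₁, hadd, hx₁⟩ := exists_add_self W hns hS
  have hne : x₁ ≠ x := by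
    intro h
    rw [h, dupNum_eq] at hx₁
    apply hP3
    linear_combination hx₁
  have hS₁ : psi2sq W x₁ ≠ 0 := by
    intro h0
    have := psi2sq_dup W x x₁ hx₁
    rw [h0, zero_mul] at this
    exact hP4 (pow_eq_zero_iff (two_ne_zero) |>.mp this.symm)
  obtain ⟨x₂, y₂, h₂, hadd₂, hx₂⟩ := exists_add_self W h₁ hS₁
  have hX : x₂ = x := by
    have := dupNum_dup W x x₁ hx₁
    rw [hx5, zero_mul, neg_zero] at this
    have h0 : dupNum W x₁ - x * psi2sq W x₁ = 0 :=
      (mul_eq_zero.mp this).resolve_right (pow_ne_zero _ hS)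
    rw [sub_eq_zero] at h0
    rw [h0] at hx₂
    exact mul_right_cancel₀ hS₁ hx₂
  set P : W.toAffine.Point := .some x y hns with hP
  have h4P : (4 : ℕ) • P = .some x₂ y₂ h₂ := by
    rw [show (4 : ℕ) • P = (P + P) + (P + P) by
      rw [show (4 : ℕ) = 2 + 2 by norm_num, add_nsmul, two_nsmul], hadd, hadd₂]
  refine ⟨P, Affine.Point.some_ne_zero hns, ?_⟩
  have hcases : (4 : ℕ) • P = P ∨ (4 : ℕ) • P = -P := by
    rw [h4P]
    exact (Affine.Point.X_eq_iff (h₁ := h₂) (h₂ := hns)).mp hX
  rcases hcases with h | h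
  · -- 4P = P, so 3P = 0, so 2P = -P, so x₁ = x
    exfalso
    have h3P : (P + P) + P = 0 := by
      have : (4 : ℕ) • P = ((P + P) + P) + P := by
        rw [show (4 : ℕ) = 3 + 1 by norm_num, add_nsmul, one_nsmul,
          show (3 : ℕ) = 2 + 1 by norm_num, add_nsmul, one_nsmul, two_nsmul]
      rw [this] at h
      simpa using h
    have h2P : P + P = -P := eq_neg_of_add_eq_zero_left h3P
    rw [hadd] at h2P
    exact hne ((Affine.Point.X_eq_iff (h₁ := h₁) (h₂ := hns)).mpr (Or.inr h2P))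
  · rw [show (5 : ℕ) • P = (4 : ℕ) • P + P by
      rw [show (5 : ℕ) = 4 + 1 by norm_num, add_nsmul, one_nsmul], h]
    exact neg_add_cancel _

end Exists

section Rat

open WeierstrassCurve.Affine

/-- The `n`-torsion of an elliptic curve over `ℚ` (nonzero discriminant) over `AlgebraicClosure ℚ`
is nontrivial for `n = 3` and `n = 5`, in the exact shape of the first conjunct of
`WeierstrassCurve.Affine.Point.GaloisRepIsIrreducible`. -/
theorem nontrivial_torsionBy (E : WeierstrassCurve ℚ) (hΔ : E.Δ ≠ 0) {n : ℕ}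
    (hn : n = 3 ∨ n = 5) :
    Nontrivial (Submodule.torsionBy ℤ ((E.toAffine)⁄(AlgebraicClosure ℚ)).Point n) := by
  have hΔ' : (E.baseChange (AlgebraicClosure ℚ)).Δ ≠ 0 := by
    rw [WeierstrassCurve.baseChange, WeierstrassCurve.map_Δ]
    exact (map_ne_zero_iff _ (algebraMap ℚ (AlgebraicClosure ℚ)).injective).mpr hΔ
  have key : ∃ P : ((E.toAffine)⁄(AlgebraicClosure ℚ)).Point, P ≠ 0 ∧ n • P = 0 := by
    rcases hn with rfl | rfl
    · exact exists_three_torsion (E.baseChange (AlgebraicClosure ℚ)) (by norm_num) hΔ'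
    · exact exists_five_torsion (E.baseChange (AlgebraicClosure ℚ)) (by norm_num) (by norm_num) hΔ'
  obtain ⟨P, hP0, hP⟩ := key
  have hmem : P ∈ Submodule.torsionBy ℤ ((E.toAffine)⁄(AlgebraicClosure ℚ)).Point n := by
    rw [Submodule.mem_torsionBy_iff]
    rw [Nat.cast_smul_eq_nsmul]
    exact hP
  refine ⟨⟨⟨P, hmem⟩, 0, ?_⟩⟩
  intro h
  exact hP0 (congrArg Subtype.val h)

/-- Version for an integral Weierstrass model, matching `WeierstrassCurve.ModRepIsIrreducible`. -/
theorem nontrivial_torsionBy_int (W : WeierstrassCurve ℤ) (hΔ : W.Δ ≠ 0) {n : ℕ}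
    (hn : n = 3 ∨ n = 5) :
    Nontrivial (Submodule.torsionBy ℤ
      (((W.map (Int.castRingHom ℚ)).toAffine)⁄(AlgebraicClosure ℚ)).Point n) := by
  apply nontrivial_torsionBy _ _ hn
  rw [WeierstrassCurve.map_Δ]
  simpa using hΔ

/-- Consequently: if the mod-`n` representation (`n = 3` or `5`) is not irreducible, there is a
Galois-stable `ZMod n`-submodule of `E[n]` which is neither `⊥` nor `⊤`. -/
theorem exists_stable_of_not_irreducible (E : WeierstrassCurve ℚ) (hΔ : E.Δ ≠ 0) {n : ℕ}
    (hn : n = 3 ∨ n = 5)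
    (h : ¬ WeierstrassCurve.Affine.Point.GaloisRepIsIrreducible (K := AlgebraicClosure ℚ) ℚ
      E.toAffine n) :
    ∃ N : Submodule (ZMod n) (Submodule.torsionBy ℤ ((E.toAffine)⁄(AlgebraicClosure ℚ)).Point n),
      WeierstrassCurve.Affine.Point.IsGaloisStable ℚ N ∧ N ≠ ⊥ ∧ N ≠ ⊤ := by
  by_contra hcon
  apply h
  refine ⟨nontrivial_torsionBy E hΔ hn, fun N hN => ?_⟩
  by_contra hN'
  rw [not_or] at hN'
  exact hcon ⟨N, hN, hN'.1, hN'.2⟩

end Rat

end Fermat.Agent.S51.helper39
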