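import Mathlib
import Fermat.Prelude.Def_FLTPrelim_GaloisRep
import Fermat.Agent.S51.helper8_FiveGalois
import Fermat.Agent.S51.helper39_TorsionExists

/-!
# The `3`-torsion half of the Galois part of S51 (helper38)

Built on the torsion toolkit of helper8 (`xc`, `xc_two_nsmul`, `label`, `exists_rat_of_fixed`)
and the existence results of helper39.
-/

set_option autoImplicit false

namespace Fermat.Agent.S51.helper38

open WeierstrassCurve WeierstrassCurve.Affine Polynomial
open Fermat.Agent.S51.helper8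

local notation "Kbar" => AlgebraicClosure ℚ

section Generic

variable {F : Type*} [Field F] [DecidableEq F] {V : WeierstrassCurve F}

/-- The `x`-coordinate of a nonzero point killed by `3` is a root of `ψ₃`. -/
theorem psi3_of_three_nsmul {P : V.toAffine.Point} (hP : P ≠ 0) (h3 : 3 • P = 0) :
    psi3 V (xc V P) = 0 := by
  have h2 : 2 • P ≠ 0 := by
    intro h
    apply hP
    have : P = 3 • P - 2 • P := by
      rw [show (3 : ℕ) = 2 + 1 from rfl, add_nsmul, one_nsmul]; abel
    rw [this, h3, h]; simp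
  have h2' : 2 • P = -P := by
    have : 2 • P + P = 3 • P := by
      rw [show (3 : ℕ) = 2 + 1 from rfl, add_nsmul, one_nsmul]
    rw [h3] at this
    exact eq_neg_of_add_eq_zero_left this
  obtain ⟨-, hd⟩ := xc_two_nsmul hP h2
  rw [h2', xc_neg] at hd
  have := dupNum_sub V (xc V P)
  rw [← hd, sub_self] at this
  exact neg_eq_zero.mp this.symm

/-- A set of points killed by `3` on a Weierstrass curve has at most `9` elements. -/
theorem finite_and_ncard_le_of_three_nsmul (h3 : (3 : F) ≠ 0) (T : Set V.toAffine.Point)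
    (hT : ∀ P ∈ T, 3 • P = 0) : T.Finite ∧ T.ncard ≤ 9 := by
  classical
  have hp : V.Ψ₃ ≠ 0 := V.Ψ₃_ne_zero h3
  set S : Finset F := V.Ψ₃.roots.toFinset with hS
  have hScard : S.card ≤ 4 := by
    calc S.card ≤ Multiset.card V.Ψ₃.roots := Multiset.toFinset_card_le _
      _ ≤ V.Ψ₃.natDegree := Polynomial.card_roots' _
      _ ≤ 4 := by rw [V.natDegree_Ψ₃ h3]
  set U : Set (Option (F × Bool)) := insert none (some '' ((S : Set F) ×ˢ (Set.univ : Set Bool)))
    with hU
  have hSfin : ((S : Set F) ×ˢ (Set.univ : Set Bool)).Finite :=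
    (Finset.finite_toSet S).prod Set.finite_univ
  have hUfin : U.Finite := (hSfin.image _).insert _
  have hUcard : U.ncard ≤ 9 := by
    calc U.ncard ≤ (some '' ((S : Set F) ×ˢ (Set.univ : Set Bool))).ncard + 1 :=
          Set.ncard_insert_le _ _
      _ ≤ ((S : Set F) ×ˢ (Set.univ : Set Bool)).ncard + 1 :=
          Nat.add_le_add_right (Set.ncard_image_le hSfin) 1
      _ = S.card * 2 + 1 := by
          rw [Set.ncard_prod, Set.ncard_coe_finset, Set.ncard_univ, Nat.card_eq_fintype_card,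
            Fintype.card_bool]
      _ ≤ 9 := by omega
  have hmaps : ∀ P ∈ T, label V P ∈ U := by
    intro P hP
    by_cases h0 : P = 0
    · subst h0
      exact Set.mem_insert _ _
    · have hroot := psi3_of_three_nsmul h0 (hT P hP)
      cases P with
      | zero => exact absurd rfl h0
      | some x y h =>
        obtain ⟨b, hb⟩ := label_some V h
        refine Set.mem_insert_of_mem _ ⟨(x, b), ⟨?_, Set.mem_univ _⟩, hb.symm⟩
        simp only [hS, Finset.mem_coe, Multiset.mem_toFinset]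
        rw [Polynomial.mem_roots hp, Polynomial.IsRoot.def, eval_Ψ₃]
        exact hroot
  have hfin : T.Finite :=
    Set.Finite.of_injOn (f := label V) hmaps (label_injective V).injOn hUfin
  exact ⟨hfin, (Set.ncard_le_ncard_of_injOn (label V) hmaps (label_injective V).injOn hUfin).trans
    hUcard⟩

end Generic

variable (E : WeierstrassCurve ℚ)

/-- The `3`-torsion of an elliptic curve over `ℚ̄` is finite with at most `9` elements. -/
theorem finite_torsion_three :
    Finite (Submodule.torsionBy ℤ (E.toAffine⁄Kbar).Point (3 : ℕ)) ∧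
    Nat.card (Submodule.torsionBy ℤ (E.toAffine⁄Kbar).Point (3 : ℕ)) ≤ 9 := by
  have key := finite_and_ncard_le_of_three_nsmul (V := E.toAffine⁄Kbar) (by norm_num)
    (Submodule.torsionBy ℤ (E.toAffine⁄Kbar).Point (3 : ℕ) : Set (E.toAffine⁄Kbar).Point)
    (fun P hP => by
      have := (Submodule.mem_torsionBy_iff _ _).mp hP
      rwa [natCast_zsmul] at this)
  refine ⟨key.1, ?_⟩
  have := key.2
  rwa [← Nat.card_coe_set_eq] at this

/-- **The `3`-torsion half of the Galois part of S51.** If the mod `3` representation of an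
elliptic curve over `ℚ` is not irreducible, the `3`-division polynomial has a rational root. -/
theorem exists_three_data (hΔ : E.Δ ≠ 0)
    (h : ¬ Affine.Point.GaloisRepIsIrreducible (K := Kbar) ℚ E.toAffine 3) :
    ∃ x₃ : ℚ, 3 * x₃ ^ 4 + E.b₂ * x₃ ^ 3 + 3 * E.b₄ * x₃ ^ 2 + 3 * E.b₆ * x₃ + E.b₈ = 0 := by
  classical
  have : Fact (Nat.Prime 3) := ⟨by norm_num⟩
  have hnt := Fermat.Agent.S51.helper39.nontrivial_torsionBy E hΔ (Or.inl rfl)
  obtain ⟨hfin, hcard⟩ := finite_torsion_three E
  rw [Affine.Point.GaloisRepIsIrreducible, not_and] at h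
  have h' := h hnt
  push Not at h'
  obtain ⟨N, hN, hbot, htop⟩ := h'
  have hrank : Module.finrank (ZMod 3)
      (Submodule.torsionBy ℤ (E.toAffine⁄Kbar).Point (3 : ℕ)) ≤ 2 := by
    have hc := Module.natCard_eq_pow_finrank (K := ZMod 3)
      (V := Submodule.torsionBy ℤ (E.toAffine⁄Kbar).Point (3 : ℕ))
    rw [Nat.card_zmod] at hc
    rw [hc] at hcard
    by_contra hlt
    push Not at hlt
    have : 3 ^ 3 ≤ 3 ^ Module.finrank (ZMod 3)
        (Submodule.torsionBy ℤ (E.toAffine⁄Kbar).Point (3 : ℕ)) :=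
      Nat.pow_le_pow_right (by norm_num) hlt
    omega
  have hN1 : Module.finrank (ZMod 3) N = 1 := by
    have h1 : Module.finrank (ZMod 3) N < Module.finrank (ZMod 3)
        (Submodule.torsionBy ℤ (E.toAffine⁄Kbar).Point (3 : ℕ)) := Submodule.finrank_lt htop
    have h2 : 1 ≤ Module.finrank (ZMod 3) N := Submodule.one_le_finrank_iff.mpr hbot
    omega
  obtain ⟨v, hv0, hv⟩ := finrank_eq_one_iff'.mp hN1
  set P : (E.toAffine⁄Kbar).Point := ((v : Submodule.torsionBy ℤ (E.toAffine⁄Kbar).Point (3 : ℕ)) :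
    (E.toAffine⁄Kbar).Point) with hPdef
  have hP0 : P ≠ 0 := by
    intro h0
    apply hv0
    apply Subtype.ext
    apply Subtype.ext
    exact h0
  have hP3 : 3 • P = 0 := by
    have := (Submodule.mem_torsionBy_iff _ _).mp
      (v : Submodule.torsionBy ℤ (E.toAffine⁄Kbar).Point (3 : ℕ)).2
    rwa [natCast_zsmul] at this
  have h2' : 2 • P = -P := by
    have : 2 • P + P = 3 • P := by
      rw [show (3 : ℕ) = 2 + 1 from rfl, add_nsmul, one_nsmul]
    rw [hP3] at this
    exact eq_neg_of_add_eq_zero_left this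
  have hσ : ∀ σ : Kbar ≃ₐ[ℚ] Kbar, ∃ k : ℕ, k < 3 ∧ σ • P = k • P := by
    intro σ
    have hmem := hN σ v v.2
    obtain ⟨c, hc⟩ := hv ⟨_, hmem⟩
    refine ⟨c.val, ZMod.val_lt c, ?_⟩
    rw [← ZMod.natCast_zmod_val c, Nat.cast_smul_eq_nsmul] at hc
    have hc' := congrArg (fun w : N => ((w : Submodule.torsionBy ℤ (E.toAffine⁄Kbar).Point
      (3 : ℕ)) : (E.toAffine⁄Kbar).Point)) hc
    simp only [AddSubmonoidClass.coe_nsmul] at hc'
    exact hc'.symm
  have hkey : ∀ σ : Kbar ≃ₐ[ℚ] Kbar, σ (xc _ P) = xc _ P := by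
    intro σ
    obtain ⟨k, hk, hkP⟩ := hσ σ
    rw [← xc_smul, hkP]
    have hk0 : k ≠ 0 := by
      rintro rfl
      rw [zero_nsmul] at hkP
      exact hP0 (Point.map_injective (W' := E.toAffine) σ.toAlgHom hkP)
    interval_cases k
    · exact absurd rfl hk0
    · rw [one_nsmul]
    · rw [h2', xc_neg]
  obtain ⟨x₃, hx₃⟩ := exists_rat_of_fixed (xc _ P) hkey
  refine ⟨x₃, ?_⟩
  have hroot := psi3_of_three_nsmul hP0 hP3
  rw [← hx₃] at hroot
  apply (algebraMap ℚ Kbar).injective
  have hb2 : (E.toAffine⁄Kbar).b₂ = algebraMap ℚ Kbar E.b₂ := E.map_b₂ _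
  have hb4 : (E.toAffine⁄Kbar).b₄ = algebraMap ℚ Kbar E.b₄ := E.map_b₄ _
  have hb6 : (E.toAffine⁄Kbar).b₆ = algebraMap ℚ Kbar E.b₆ := E.map_b₆ _
  have hb8 : (E.toAffine⁄Kbar).b₈ = algebraMap ℚ Kbar E.b₈ := E.map_b₈ _
  simp only [psi3, hb2, hb4, hb6, hb8] at hroot
  simp only [map_add, map_mul, map_pow, map_ofNat, map_zero]
  exact hroot

end Fermat.Agent.S51.helper38
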