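import Mathlib.AlgebraicGeometry.EllipticCurve.Weierstrass
import Mathlib.Tactic

/-!
# S51, piece I4 (helper44): 5-isogeny parametrisation identity

Let `dup x = (x⁴ - b₄x² - 2b₆x - b₈) / (4x³ + b₂x² + 2b₄x + b₆)` be the `x`-coordinate duplication
map of a Weierstrass curve over a field of characteristic zero.  If `x₁ ≠ x₂`, `dup x₁ = x₂` and
`dup x₂ = x₁` (stated without denominators), then with `D = (x₁ - x₂)²`: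
`c₄ D⁵ = Δ² + 10 Δ D³ + 5 D⁶`.
-/

set_option autoImplicit false

namespace Fermat.Agent.S51.helper44

/-- First cofactor of the I4 identity (short Weierstrass coordinates). -/
def i4A {F : Type*} [CommRing F] (X1 X2 c4 c6 : F) : F :=
  640 * X1 ^ 9 - 5760 * X1 ^ 8 * X2 + 26880 * X1 ^ 7 * X2 ^ 2 - 200448 * X1 ^ 7 * c4 - 104832 *
  X1 ^ 6 * X2 ^ 3 + 2056320 * X1 ^ 6 * X2 * c4 + 1306368 * X1 ^ 6 * c6 + 565920 * X1 ^ 5 * X2 ^ 4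
  - 15380928 * X1 ^ 5 * X2 ^ 2 * c4 - 17356032 * X1 ^ 5 * X2 * c6 + 15699744 * X1 ^ 5 * c4 ^ 2 -
  1807104 * X1 ^ 4 * X2 ^ 5 + 35960544 * X1 ^ 4 * X2 ^ 3 * c4 + 32332608 * X1 ^ 4 * X2 ^ 2 * c6 +
  146849760 * X1 ^ 4 * X2 * c4 ^ 2 + 544195584 * X1 ^ 4 * c4 * c6 + 2309352 * X1 ^ 3 * X2 ^ 6 +
  4316544 * X1 ^ 3 * X2 ^ 4 * c4 + 91795680 * X1 ^ 3 * X2 ^ 3 * c6 - 736050888 * X1 ^ 3 * X2 ^ 2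
  * c4 ^ 2 - 2040733440 * X1 ^ 3 * X2 * c4 * c6 + 2693264256 * X1 ^ 3 * c4 ^ 3 - 2176782336 * X1
  ^ 3 * c6 ^ 2 - 1456020 * X1 ^ 2 * X2 ^ 7 - 2231712 * X1 ^ 2 * X2 ^ 5 * c4 - 267233904 * X1 ^ 2
  * X2 ^ 4 * c6 - 1144585404 * X1 ^ 2 * X2 ^ 3 * c4 ^ 2 - 816293376 * X1 ^ 2 * X2 ^ 2 * c4 * c6 -
  1528660512 * X1 ^ 2 * X2 * c4 ^ 3 + 9795520512 * X1 ^ 2 * X2 * c6 ^ 2 + 18366600960 * X1 ^ 2 *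
  c4 ^ 2 * c6 + 752010 * X1 * X2 ^ 8 - 33077376 * X1 * X2 ^ 6 * c4 + 211999032 * X1 * X2 ^ 5 * c6
  + 636677982 * X1 * X2 ^ 4 * c4 ^ 2 + 2857026816 * X1 * X2 ^ 3 * c4 * c6 + 26412381504 * X1 * X2
  ^ 2 * c4 ^ 3 - 4897760256 * X1 * X2 ^ 2 * c6 ^ 2 + 3673320192 * X1 * X2 * c4 ^ 2 * c6 +
  30389922144 * X1 * c4 ^ 4 - 117546246144 * X1 * c4 * c6 ^ 2 - 126295 * X2 ^ 9 + 898182 * X2 ^ 7
  * c4 - 80399952 * X2 ^ 6 * c6 + 448580673 * X2 ^ 5 * c4 ^ 2 + 1224440064 * X2 ^ 4 * c4 * c6 +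
  8158524768 * X2 ^ 3 * c4 ^ 3 - 9795520512 * X2 ^ 3 * c6 ^ 2 - 23876581248 * X2 ^ 2 * c4 ^ 2 *
  c6 - 260635672512 * X2 * c4 ^ 4 - 1484021357568 * c4 ^ 3 * c6 + 940369969152 * c6 ^ 3

/-- Second cofactor of the I4 identity (short Weierstrass coordinates). -/
def i4B {F : Type*} [CommRing F] (X1 X2 c4 c6 : F) : F :=
  -7328 * X1 ^ 9 + 130080 * X1 ^ 8 * X2 - 779256 * X1 ^ 7 * X2 ^ 2 - 2445120 * X1 ^ 7 * c4 +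
  1915068 * X1 ^ 6 * X2 ^ 3 + 24189408 * X1 ^ 6 * X2 * c4 - 1920030 * X1 ^ 5 * X2 ^ 4 - 53090640
  * X1 ^ 5 * X2 ^ 2 * c4 - 256887936 * X1 ^ 5 * c4 ^ 2 + 958095 * X1 ^ 4 * X2 ^ 5 - 17817624 * X1
  ^ 4 * X2 ^ 3 * c4 + 824154912 * X1 ^ 4 * X2 * c4 ^ 2 - 429660 * X1 ^ 3 * X2 ^ 6 + 59191452 * X1
  ^ 3 * X2 ^ 4 * c4 + 970823880 * X1 ^ 3 * X2 ^ 2 * c4 ^ 2 - 4944369600 * X1 ^ 3 * c4 ^ 3 - 26880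
  * X1 ^ 2 * X2 ^ 7 - 14944014 * X1 ^ 2 * X2 ^ 5 * c4 + 25494588 * X1 ^ 2 * X2 ^ 3 * c4 ^ 2 -
  20443236192 * X1 ^ 2 * X2 * c4 ^ 3 + 5760 * X1 * X2 ^ 8 + 12374964 * X1 * X2 ^ 6 * c4 -
  1012468734 * X1 * X2 ^ 4 * c4 ^ 2 - 3522154752 * X1 * X2 ^ 2 * c4 ^ 3 + 248238216864 * X1 * c4
  ^ 4 - 640 * X2 ^ 9 + 200448 * X2 ^ 7 * c4 + 27556200 * X2 ^ 6 * c6 + 81711423 * X2 ^ 5 * c4 ^ 2
  - 1768635648 * X2 ^ 4 * c4 * c6 - 6825749472 * X2 ^ 3 * c4 ^ 3 + 7074542592 * X2 ^ 3 * c6 ^ 2 +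
  1836660096 * X2 ^ 2 * c4 ^ 2 * c6 - 17992466496 * X2 * c4 ^ 4 + 117546246144 * X2 * c4 * c6 ^ 2
  + 1484021357568 * c4 ^ 3 * c6 - 940369969152 * c6 ^ 3

/-- Pure polynomial identity behind I4 (valid in any commutative ring). -/
theorem i4_poly {F : Type*} [CommRing F] (X1 X2 c4 c6 : F) :
    128 * (X1 - X2) *
        (1296 * c4 * ((X1 - X2) ^ 2) ^ 5 - 2 ^ 12 * 3 ^ 18 * (c4 ^ 3 - c6 ^ 2) ^ 2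
          - 10 * (2 ^ 6 * 3 ^ 9) * (c4 ^ 3 - c6 ^ 2) * ((X1 - X2) ^ 2) ^ 3
          - 5 * ((X1 - X2) ^ 2) ^ 6)
      = i4A X1 X2 c4 c6 *
          (X2 * (4 * X1 ^ 3 - 108 * c4 * X1 - 216 * c6)
            - (X1 ^ 4 + 54 * c4 * X1 ^ 2 + 432 * c6 * X1 + 729 * c4 ^ 2))
        + i4B X1 X2 c4 c6 *
          (X1 * (4 * X2 ^ 3 - 108 * c4 * X2 - 216 * c6)
            - (X2 ^ 4 + 54 * c4 * X2 ^ 2 + 432 * c6 * X2 + 729 * c4 ^ 2)) := by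
  unfold i4A i4B
  ring

/-- The duplication relation in short coordinates `Xᵢ = 36 xᵢ + 3 b₂` is `6⁸` times the
duplication relation at `(x₁, x₂)` (valid over any commutative ring). -/
theorem i4_dup_short {F : Type*} [CommRing F] (W : WeierstrassCurve F) (x₁ x₂ : F) :
    (36 * x₂ + 3 * W.b₂) * (4 * (36 * x₁ + 3 * W.b₂) ^ 3 - 108 * W.c₄ * (36 * x₁ + 3 * W.b₂)
        - 216 * W.c₆)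
      - ((36 * x₁ + 3 * W.b₂) ^ 4 + 54 * W.c₄ * (36 * x₁ + 3 * W.b₂) ^ 2
        + 432 * W.c₆ * (36 * x₁ + 3 * W.b₂) + 729 * W.c₄ ^ 2)
      = 6 ^ 8 * (x₂ * (4 * x₁ ^ 3 + W.b₂ * x₁ ^ 2 + 2 * W.b₄ * x₁ + W.b₆)
          - (x₁ ^ 4 - W.b₄ * x₁ ^ 2 - 2 * W.b₆ * x₁ - W.b₈)) := by
  simp only [WeierstrassCurve.c₄, WeierstrassCurve.c₆, WeierstrassCurve.b₂, WeierstrassCurve.b₄,
    WeierstrassCurve.b₆, WeierstrassCurve.b₈]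
  ring

/-- **I4, scaled form** (any commutative ring). -/
theorem i4_scaled {F : Type*} [CommRing F] (W : WeierstrassCurve F) (x₁ x₂ : F)
    (h₁ : x₂ * (4 * x₁ ^ 3 + W.b₂ * x₁ ^ 2 + 2 * W.b₄ * x₁ + W.b₆)
      = x₁ ^ 4 - W.b₄ * x₁ ^ 2 - 2 * W.b₆ * x₁ - W.b₈)
    (h₂ : x₁ * (4 * x₂ ^ 3 + W.b₂ * x₂ ^ 2 + 2 * W.b₄ * x₂ + W.b₆)
      = x₂ ^ 4 - W.b₄ * x₂ ^ 2 - 2 * W.b₆ * x₂ - W.b₈) :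
    (128 * 36 * 1296 ^ 6 : F) * ((x₁ - x₂) *
      (W.c₄ * ((x₁ - x₂) ^ 2) ^ 5
        - (W.Δ ^ 2 + 10 * W.Δ * ((x₁ - x₂) ^ 2) ^ 3 + 5 * ((x₁ - x₂) ^ 2) ^ 6))) = 0 := by
  have h := i4_poly (36 * x₁ + 3 * W.b₂) (36 * x₂ + 3 * W.b₂) W.c₄ W.c₆
  rw [i4_dup_short W x₁ x₂, i4_dup_short W x₂ x₁, sub_eq_zero.mpr h₁, sub_eq_zero.mpr h₂,
    mul_zero, mul_zero, mul_zero, add_zero, ← W.c_relation] at h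
  linear_combination h

/-- **I4** (5-isogeny parametrisation): if `x₁ ≠ x₂` are exchanged by the `x`-coordinate
duplication map of `W`, then with `D = (x₁ - x₂)²`: `c₄ D⁵ = Δ² + 10 Δ D³ + 5 D⁶`. -/
theorem I4 {F : Type*} [Field F] [CharZero F] (W : WeierstrassCurve F) (x₁ x₂ : F)
    (h₁ : x₂ * (4 * x₁ ^ 3 + W.b₂ * x₁ ^ 2 + 2 * W.b₄ * x₁ + W.b₆)
      = x₁ ^ 4 - W.b₄ * x₁ ^ 2 - 2 * W.b₆ * x₁ - W.b₈)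
    (h₂ : x₁ * (4 * x₂ ^ 3 + W.b₂ * x₂ ^ 2 + 2 * W.b₄ * x₂ + W.b₆)
      = x₂ ^ 4 - W.b₄ * x₂ ^ 2 - 2 * W.b₆ * x₂ - W.b₈)
    (hne : x₁ ≠ x₂) :
    W.c₄ * ((x₁ - x₂) ^ 2) ^ 5
      = W.Δ ^ 2 + 10 * W.Δ * ((x₁ - x₂) ^ 2) ^ 3 + 5 * ((x₁ - x₂) ^ 2) ^ 6 := by
  have h := i4_scaled W x₁ x₂ h₁ h₂
  have hc : (128 * 36 * 1296 ^ 6 : F) ≠ 0 := by norm_num
  have hx : x₁ - x₂ ≠ 0 := sub_ne_zero.mpr hne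
  have h' := (mul_eq_zero.mp ((mul_eq_zero.mp h).resolve_left hc)).resolve_left hx
  exact sub_eq_zero.mp h'

/-- **I4, `j`-form**: with `u = Δ / D³`, `D = (x₁ - x₂)²`, one has
`c₄ = D * (u² + 10 u + 5)`, hence `c₄³ * u = Δ * (u² + 10 u + 5)³`, i.e.
`j * u = (u² + 10 u + 5)³` for `j = c₄³ / Δ`. -/
theorem I4_u {F : Type*} [Field F] [CharZero F] (W : WeierstrassCurve F) (x₁ x₂ : F)
    (h₁ : x₂ * (4 * x₁ ^ 3 + W.b₂ * x₁ ^ 2 + 2 * W.b₄ * x₁ + W.b₆)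
      = x₁ ^ 4 - W.b₄ * x₁ ^ 2 - 2 * W.b₆ * x₁ - W.b₈)
    (h₂ : x₁ * (4 * x₂ ^ 3 + W.b₂ * x₂ ^ 2 + 2 * W.b₄ * x₂ + W.b₆)
      = x₂ ^ 4 - W.b₄ * x₂ ^ 2 - 2 * W.b₆ * x₂ - W.b₈)
    (hne : x₁ ≠ x₂) :
    W.c₄ ^ 3 * (W.Δ / ((x₁ - x₂) ^ 2) ^ 3) =
      W.Δ * ((W.Δ / ((x₁ - x₂) ^ 2) ^ 3) ^ 2 + 10 * (W.Δ / ((x₁ - x₂) ^ 2) ^ 3) + 5) ^ 3 := by
  have h := I4 W x₁ x₂ h₁ h₂ hne
  have hx : x₁ - x₂ ≠ 0 := sub_ne_zero.mpr hne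
  set D := (x₁ - x₂) ^ 2 with hD
  have hD0 : D ≠ 0 := pow_ne_zero _ hx
  have hc4 : W.c₄ = D * ((W.Δ / D ^ 3) ^ 2 + 10 * (W.Δ / D ^ 3) + 5) := by
    field_simp
    linear_combination h
  have e : W.c₄ ^ 3 * (W.Δ / D ^ 3)
      = W.Δ * (W.c₄ / D) ^ 3 := by
    field_simp
  rw [e]
  congr 2
  rw [eq_comm, hc4]
  field_simp

end Fermat.Agent.S51.helper44
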