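import Fermat.Agent.S51.helper44_I3
import Fermat.Agent.S51.helper44_I4
import Fermat.Agent.S51.helper44_I5

/-!
# S51 (helper44): algebraic assembly  I3 + I4 + I2 + I5

Given the Diophantine input I2 (rational points of `X₀(15)` in `(t,u)`-coordinates) as a
hypothesis, a semistable integral Weierstrass curve with `Δ ≠ 0` cannot simultaneously have
* a rational root `x₃` of its 3-division polynomial, and
* two numbers `x₁ ≠ x₂` (in any field extension `K` of `ℚ`) exchanged by the `x`-coordinate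
  duplication map, with `(x₁ - x₂)²` rational.
-/

set_option autoImplicit false

namespace Fermat.Agent.S51.helper44

/-- The statement of piece I2 (rational points on the `(t,u)`-model of `X₀(15)`). -/
def I2Statement : Prop :=
  ∀ t u : ℚ, t ≠ 0 → u ≠ 0 →
    (t + 27) * (t + 3) ^ 3 * u = (u ^ 2 + 10 * u + 5) ^ 3 * t →
      (t = -2 ∧ u = -10) ∨ (t = -729 / 2 ∧ u = -40) ∨ (t = -32 ∧ u = -25 / 2) ∨
        (t = -729 / 32 ∧ u = -25 / 8)

/-- Rational version of the assembly: a semistable integral model with `Δ ≠ 0` cannot have both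
a rational root of `ψ₃` and a rational `D ≠ 0` with `c₄ D⁵ = Δ² + 10 Δ D³ + 5 D⁶`. -/
theorem false_of_rational_data (hI2 : I2Statement)
    (W : WeierstrassCurve ℤ) (hΔ : W.Δ ≠ 0) (hW : W.IsSemistableModel)
    (x₃ : ℚ)
    (hψ : 3 * x₃ ^ 4 + (W.map (Int.castRingHom ℚ)).b₂ * x₃ ^ 3
        + 3 * (W.map (Int.castRingHom ℚ)).b₄ * x₃ ^ 2
        + 3 * (W.map (Int.castRingHom ℚ)).b₆ * x₃ + (W.map (Int.castRingHom ℚ)).b₈ = 0)
    (D : ℚ) (hD0 : D ≠ 0)
    (hD : (W.map (Int.castRingHom ℚ)).c₄ * D ^ 5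
        = (W.map (Int.castRingHom ℚ)).Δ ^ 2 + 10 * (W.map (Int.castRingHom ℚ)).Δ * D ^ 3
          + 5 * D ^ 6) : False := by
  set Wq := W.map (Int.castRingHom ℚ) with hWq
  have hc4 : Wq.c₄ = (W.c₄ : ℚ) := by rw [hWq, WeierstrassCurve.map_c₄]; rfl
  have hΔq : Wq.Δ = (W.Δ : ℚ) := by rw [hWq, WeierstrassCurve.map_Δ]; rfl
  have hΔ0 : Wq.Δ ≠ 0 := by rw [hΔq]; exact_mod_cast hΔ
  -- the 3-isogeny parameter
  have h3 := I3 Wq x₃ hψ
  set Q := 4 * x₃ ^ 3 + Wq.b₂ * x₃ ^ 2 + 2 * Wq.b₄ * x₃ + Wq.b₆ with hQdef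
  have hQ : Q ≠ 0 := by
    intro hQ0
    rw [hQ0] at h3
    have : Wq.Δ ^ 4 = 0 := by linear_combination -h3
    exact hΔ0 (pow_eq_zero_iff (by norm_num) |>.mp this)
  have ht := I3_t Wq x₃ hψ hQ
  rw [← hQdef] at ht
  set t := Wq.Δ / Q ^ 2 with htdef
  have ht0 : t ≠ 0 := div_ne_zero hΔ0 (pow_ne_zero _ hQ)
  -- the 5-isogeny parameter
  set u := Wq.Δ / D ^ 3 with hudef
  have hu0 : u ≠ 0 := div_ne_zero hΔ0 (pow_ne_zero _ hD0)
  have hc4u : Wq.c₄ = D * (u ^ 2 + 10 * u + 5) := by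
    rw [hudef]
    field_simp
    linear_combination hD
  have hu : Wq.c₄ ^ 3 * u = Wq.Δ * (u ^ 2 + 10 * u + 5) ^ 3 := by
    have e : Wq.Δ = u * D ^ 3 := by rw [hudef]; field_simp
    rw [hc4u]
    linear_combination -(u ^ 2 + 10 * u + 5) ^ 3 * e
  -- combine
  have hcomb : (t + 27) * (t + 3) ^ 3 * u = (u ^ 2 + 10 * u + 5) ^ 3 * t := by
    have : Wq.Δ * ((t + 27) * (t + 3) ^ 3 * u) = Wq.Δ * ((u ^ 2 + 10 * u + 5) ^ 3 * t) := by
      linear_combination t * hu - u * ht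
    exact mul_left_cancel₀ hΔ0 this
  have hj : ∀ j : ℚ, j * t = (t + 27) * (t + 3) ^ 3 → (W.c₄ : ℚ) ^ 3 = j * (W.Δ : ℚ) := by
    intro j hjt
    rw [← hc4, ← hΔq]
    have : t * Wq.c₄ ^ 3 = t * (j * Wq.Δ) := by linear_combination ht - Wq.Δ * hjt
    exact mul_left_cancel₀ ht0 this
  rcases hI2 t u ht0 hu0 hcomb with ⟨h1, -⟩ | ⟨h1, -⟩ | ⟨h1, -⟩ | ⟨h1, -⟩
  · exact I5 W hW (-25 / 2) (Or.inl rfl) (hj _ (by rw [h1]; norm_num))
  · exact I5 W hW (-349938025 / 8) (Or.inr (Or.inl rfl)) (hj _ (by rw [h1]; norm_num))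
  · exact I5 W hW (-121945 / 32) (Or.inr (Or.inr (Or.inl rfl))) (hj _ (by rw [h1]; norm_num))
  · exact I5 W hW (46969655 / 32768) (Or.inr (Or.inr (Or.inr rfl))) (hj _ (by rw [h1]; norm_num))

/-- **Assembly**: a semistable integral Weierstrass curve with `Δ ≠ 0` cannot simultaneously have
a rational root `x₃` of its 3-division polynomial and two elements `x₁ ≠ x₂` of a field
extension `K/ℚ` exchanged by the `x`-coordinate duplication map with `(x₁ - x₂)²` rational. -/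
theorem false_of_isogeny_data (hI2 : I2Statement)
    (W : WeierstrassCurve ℤ) (hΔ : W.Δ ≠ 0) (hW : W.IsSemistableModel)
    (x₃ : ℚ)
    (hψ : 3 * x₃ ^ 4 + (W.map (Int.castRingHom ℚ)).b₂ * x₃ ^ 3
        + 3 * (W.map (Int.castRingHom ℚ)).b₄ * x₃ ^ 2
        + 3 * (W.map (Int.castRingHom ℚ)).b₆ * x₃ + (W.map (Int.castRingHom ℚ)).b₈ = 0)
    {K : Type*} [Field K] [Algebra ℚ K] (x₁ x₂ : K)
    (h₁ : x₂ * (4 * x₁ ^ 3 + ((W.map (Int.castRingHom ℚ)).baseChange K).b₂ * x₁ ^ 2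
          + 2 * ((W.map (Int.castRingHom ℚ)).baseChange K).b₄ * x₁
          + ((W.map (Int.castRingHom ℚ)).baseChange K).b₆)
        = x₁ ^ 4 - ((W.map (Int.castRingHom ℚ)).baseChange K).b₄ * x₁ ^ 2
          - 2 * ((W.map (Int.castRingHom ℚ)).baseChange K).b₆ * x₁
          - ((W.map (Int.castRingHom ℚ)).baseChange K).b₈)
    (h₂ : x₁ * (4 * x₂ ^ 3 + ((W.map (Int.castRingHom ℚ)).baseChange K).b₂ * x₂ ^ 2
          + 2 * ((W.map (Int.castRingHom ℚ)).baseChange K).b₄ * x₂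
          + ((W.map (Int.castRingHom ℚ)).baseChange K).b₆)
        = x₂ ^ 4 - ((W.map (Int.castRingHom ℚ)).baseChange K).b₄ * x₂ ^ 2
          - 2 * ((W.map (Int.castRingHom ℚ)).baseChange K).b₆ * x₂
          - ((W.map (Int.castRingHom ℚ)).baseChange K).b₈)
    (hne : x₁ ≠ x₂) (D : ℚ) (hD : algebraMap ℚ K D = (x₁ - x₂) ^ 2) : False := by
  have : CharZero K := charZero_of_injective_algebraMap (algebraMap ℚ K).injective
  have h4 := I4 ((W.map (Int.castRingHom ℚ)).baseChange K) x₁ x₂ h₁ h₂ hne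
  have hD0 : D ≠ 0 := by
    rintro rfl
    rw [map_zero] at hD
    exact sub_ne_zero.mpr hne (pow_eq_zero_iff (by norm_num) |>.mp hD.symm)
  refine false_of_rational_data hI2 W hΔ hW x₃ hψ D hD0 ?_
  apply (algebraMap ℚ K).injective
  rw [← hD] at h4
  simp only [WeierstrassCurve.baseChange] at h4
  rw [WeierstrassCurve.map_c₄ (W.map (Int.castRingHom ℚ)) (algebraMap ℚ K),
    WeierstrassCurve.map_Δ (W.map (Int.castRingHom ℚ)) (algebraMap ℚ K)] at h4
  simp only [map_mul, map_add, map_pow, map_ofNat]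
  exact h4

end Fermat.Agent.S51.helper44
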