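import Mathlib.AlgebraicGeometry.EllipticCurve.Weierstrass
import Mathlib.Tactic

/-!
# S51, piece I3 (helper44): 3-isogeny parametrisation identity

If `x` is a root of the 3-division polynomial
`3x⁴ + b₂x³ + 3b₄x² + 3b₆x + b₈` of a Weierstrass curve over a field of characteristic zero and
`Q = 4x³ + b₂x² + 2b₄x + b₆`, then `c₄³ Q⁶ = (Δ + 27 Q²)(Δ + 3 Q²)³`.
-/

set_option autoImplicit false

namespace Fermat.Agent.S51.helper44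

/-- The cofactor polynomial of the I3 identity (short Weierstrass coordinates). -/
def i3K {F : Type*} [CommRing F] (X c4 c6 : F) : F :=
  -243 * X ^ 20 + 39366 * X ^ 18 * c4 + 52488 * X ^ 17 * c6 - 2893401 * X ^ 16 * c4 ^ 2 - 8503056
  * X ^ 15 * c4 * c6 + 146677716 * X ^ 14 * c4 ^ 3 + 11337408 * X ^ 14 * c6 ^ 2 + 535692528 * X ^
  13 * c4 ^ 2 * c6 - 5954796405 * X ^ 12 * c4 ^ 4 - 1224440064 * X ^ 12 * c4 * c6 ^ 2 -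
  22039921152 * X ^ 11 * c4 ^ 3 * c6 - 1836660096 * X ^ 11 * c6 ^ 3 + 188286357654 * X ^ 10 * c4
  ^ 5 + 52344812736 * X ^ 10 * c4 ^ 2 * c6 ^ 2 + 722151791496 * X ^ 9 * c4 ^ 4 * c6 +
  214889231232 * X ^ 9 * c4 * c6 ^ 3 - 4515385799295 * X ^ 8 * c4 ^ 6 - 231419172096 * X ^ 8 * c6
  ^ 4 - 17573393381040 * X ^ 7 * c4 ^ 5 * c6 - 8777398598784 * X ^ 7 * c4 ^ 2 * c6 ^ 3 +
  85858579090224 * X ^ 6 * c4 ^ 7 - 72301961339136 * X ^ 6 * c4 ^ 4 * c6 ^ 2 + 16067102519808 * X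
  ^ 6 * c4 * c6 ^ 4 + 283182681911616 * X ^ 5 * c4 ^ 6 * c6 + 100419390748800 * X ^ 5 * c4 ^ 3 *
  c6 ^ 3 + 14281868906496 * X ^ 5 * c6 ^ 5 - 1165869126593568 * X ^ 4 * c4 ^ 8 + 2060605898165376
  * X ^ 4 * c4 ^ 5 * c6 ^ 2 - 361509806695680 * X ^ 4 * c4 ^ 2 * c6 ^ 4 - 3253588260261120 * X ^
  3 * c4 ^ 7 * c6 + 2313662762852352 * X ^ 3 * c4 ^ 4 * c6 ^ 3 - 964026151188480 * X ^ 3 * c4 *
  c6 ^ 5 + 5856458868470016 * X ^ 2 * c4 ^ 9 - 13014353041044480 * X ^ 2 * c4 ^ 6 * c6 ^ 2 -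
  1735247072139264 * X ^ 2 * c4 ^ 3 * c6 ^ 4 + 1542441841901568 * X ^ 2 * c6 ^ 6 +
  23425835473880064 * X * c4 ^ 8 * c6 - 46851670947760128 * X * c4 ^ 5 * c6 ^ 3 +
  13881976577114112 * X * c4 ^ 2 * c6 ^ 5 + 52708129816230144 * c4 ^ 10 - 140555012843280384 * c4
  ^ 7 * c6 ^ 2 + 124937789194027008 * c4 ^ 4 * c6 ^ 4 - 41645929731342336 * c4 * c6 ^ 6

/-- Pure polynomial identity behind I3 (valid in any commutative ring). -/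
theorem i3_poly {F : Type*} [CommRing F] (X c4 c6 : F) :
    2 ^ 8 * 3 ^ 12 * c4 ^ 3 * (X ^ 3 - 27 * c4 * X - 54 * c6) ^ 6
      - (4 * 3 ^ 9 * (c4 ^ 3 - c6 ^ 2) + 27 * (X ^ 3 - 27 * c4 * X - 54 * c6) ^ 2)
        * (4 * 3 ^ 9 * (c4 ^ 3 - c6 ^ 2) + 3 * (X ^ 3 - 27 * c4 * X - 54 * c6) ^ 2) ^ 3
      = i3K X c4 c6 * (3 * X ^ 4 - 162 * c4 * X ^ 2 - 648 * c6 * X - 729 * c4 ^ 2) := by
  unfold i3K
  ring


/-- The 3-division polynomial in short coordinates `X = 36 x + 3 b₂` is `6⁸` times the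
3-division polynomial at `x` (valid over any commutative ring). -/
theorem i3_psi3_short {F : Type*} [CommRing F] (W : WeierstrassCurve F) (x : F) :
    3 * (36 * x + 3 * W.b₂) ^ 4 - 162 * W.c₄ * (36 * x + 3 * W.b₂) ^ 2
        - 648 * W.c₆ * (36 * x + 3 * W.b₂) - 729 * W.c₄ ^ 2
      = 6 ^ 8 * (3 * x ^ 4 + W.b₂ * x ^ 3 + 3 * W.b₄ * x ^ 2 + 3 * W.b₆ * x + W.b₈) := by
  simp only [WeierstrassCurve.c₄, WeierstrassCurve.c₆, WeierstrassCurve.b₂, WeierstrassCurve.b₄,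
    WeierstrassCurve.b₆, WeierstrassCurve.b₈]
  ring

/-- The 2-division polynomial squared in short coordinates. -/
theorem i3_Q_short {F : Type*} [CommRing F] (W : WeierstrassCurve F) (x : F) :
    (36 * x + 3 * W.b₂) ^ 3 - 27 * W.c₄ * (36 * x + 3 * W.b₂) - 54 * W.c₆
      = 11664 * (4 * x ^ 3 + W.b₂ * x ^ 2 + 2 * W.b₄ * x + W.b₆) := by
  simp only [WeierstrassCurve.c₄, WeierstrassCurve.c₆, WeierstrassCurve.b₂, WeierstrassCurve.b₄,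
    WeierstrassCurve.b₆]
  ring

/-- **I3, scaled form** (any commutative ring): `2³² 3⁴⁸` times the I3 identity holds. -/
theorem i3_scaled {F : Type*} [CommRing F] (W : WeierstrassCurve F) (x : F)
    (hψ : 3 * x ^ 4 + W.b₂ * x ^ 3 + 3 * W.b₄ * x ^ 2 + 3 * W.b₆ * x + W.b₈ = 0) :
    (2 ^ 32 * 3 ^ 48 : F) * (W.c₄ ^ 3 * (4 * x ^ 3 + W.b₂ * x ^ 2 + 2 * W.b₄ * x + W.b₆) ^ 6) =
      (2 ^ 32 * 3 ^ 48 : F) *
        ((W.Δ + 27 * (4 * x ^ 3 + W.b₂ * x ^ 2 + 2 * W.b₄ * x + W.b₆) ^ 2) *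
          (W.Δ + 3 * (4 * x ^ 3 + W.b₂ * x ^ 2 + 2 * W.b₄ * x + W.b₆) ^ 2) ^ 3) := by
  have h1 := i3_poly (36 * x + 3 * W.b₂) W.c₄ W.c₆
  rw [i3_psi3_short, hψ, mul_zero, mul_zero, i3_Q_short, ← W.c_relation] at h1
  linear_combination h1

/-- **I3** (3-isogeny parametrisation): if `x` is a root of the 3-division polynomial of `W` and
`Q = ψ₂²(x) = 4x³ + b₂x² + 2b₄x + b₆`, then `c₄³ Q⁶ = (Δ + 27 Q²)(Δ + 3 Q²)³`. -/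
theorem I3 {F : Type*} [Field F] [CharZero F] (W : WeierstrassCurve F) (x : F)
    (hψ : 3 * x ^ 4 + W.b₂ * x ^ 3 + 3 * W.b₄ * x ^ 2 + 3 * W.b₆ * x + W.b₈ = 0) :
    W.c₄ ^ 3 * (4 * x ^ 3 + W.b₂ * x ^ 2 + 2 * W.b₄ * x + W.b₆) ^ 6 =
      (W.Δ + 27 * (4 * x ^ 3 + W.b₂ * x ^ 2 + 2 * W.b₄ * x + W.b₆) ^ 2) *
        (W.Δ + 3 * (4 * x ^ 3 + W.b₂ * x ^ 2 + 2 * W.b₄ * x + W.b₆) ^ 2) ^ 3 := by
  have h := i3_scaled W x hψ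
  have hc : (2 ^ 32 * 3 ^ 48 : F) ≠ 0 := by
    have h2 : (2 : F) ≠ 0 := two_ne_zero
    have h3 : (3 : F) ≠ 0 := three_ne_zero
    exact mul_ne_zero (pow_ne_zero _ h2) (pow_ne_zero _ h3)
  exact mul_left_cancel₀ hc h

/-- **I3, `j`-form**: with `t = Δ / Q²` one has `c₄³ * t = Δ * (t + 27) * (t + 3)³`, i.e.
`j * t = (t + 27)(t + 3)³` for `j = c₄³ / Δ`. -/
theorem I3_t {F : Type*} [Field F] [CharZero F] (W : WeierstrassCurve F) (x : F)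
    (hψ : 3 * x ^ 4 + W.b₂ * x ^ 3 + 3 * W.b₄ * x ^ 2 + 3 * W.b₆ * x + W.b₈ = 0)
    (hQ : 4 * x ^ 3 + W.b₂ * x ^ 2 + 2 * W.b₄ * x + W.b₆ ≠ 0) :
    W.c₄ ^ 3 * (W.Δ / (4 * x ^ 3 + W.b₂ * x ^ 2 + 2 * W.b₄ * x + W.b₆) ^ 2) =
      W.Δ * ((W.Δ / (4 * x ^ 3 + W.b₂ * x ^ 2 + 2 * W.b₄ * x + W.b₆) ^ 2 + 27) *
        (W.Δ / (4 * x ^ 3 + W.b₂ * x ^ 2 + 2 * W.b₄ * x + W.b₆) ^ 2 + 3) ^ 3) := by
  have h := I3 W x hψ
  set Q := 4 * x ^ 3 + W.b₂ * x ^ 2 + 2 * W.b₄ * x + W.b₆ with hQdef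
  have hQ2 : Q ^ 2 ≠ 0 := pow_ne_zero _ hQ
  field_simp
  linear_combination W.Δ * h

end Fermat.Agent.S51.helper44
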