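import Mathlib.AlgebraicGeometry.EllipticCurve.Weierstrass
import Mathlib.Algebra.CharZero.Defs
import Mathlib.Tactic.LinearCombination
import Mathlib.Tactic.Ring
import Mathlib.Tactic.FieldSimp

/-!
# S51, pieces I3 and I4 (helper86): isogeny parametrisation identities

For a Weierstrass curve `W` over a field `K` of characteristic zero, with the usual
`b₂, b₄, b₆, b₈, c₄, Δ`: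

* `i3`: if `x` is a root of the 3-division polynomial
  `3x⁴ + b₂x³ + 3b₄x² + 3b₆x + b₈` and `Q = 4x³ + b₂x² + 2b₄x + b₆`, then
  `c₄³ Q⁶ = (Δ + 27Q²)(Δ + 3Q²)³`.
* `i4`: if `x₁ ≠ x₂` are swapped by the x-coordinate duplication map
  `x ↦ (x⁴ - b₄x² - 2b₆x - b₈)/(4x³ + b₂x² + 2b₄x + b₆)` and `D = (x₁ - x₂)²`, then
  `c₄ D⁵ = Δ² + 10 Δ D³ + 5 D⁶`.
* `tu_relation`: the resulting point `(t, u) = (Δ/Q², Δ/D³)` on the curve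
  `(t+27)(t+3)³ u = (u²+10u+5)³ t`, together with `c₄³ t = (t+27)(t+3)³ Δ`.
-/

set_option autoImplicit false
set_option maxHeartbeats 4000000

namespace Fermat.Agent.S51.helper86

/-- Polynomial form of the 3-isogeny identity. -/
theorem i3_core {K : Type*} [Field K] [CharZero K] (x b2 b4 b6 b8 : K)
    (hrel : 4 * b8 - b2 * b6 + b4 * b4 = 0)
    (hpsi : 3 * x ^ 4 + b2 * x ^ 3 + 3 * b4 * x ^ 2 + 3 * b6 * x + b8 = 0) :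
    (b2 ^ 2 - 24 * b4) ^ 3 * (4 * x ^ 3 + b2 * x ^ 2 + 2 * b4 * x + b6) ^ 6 =
      ((-b2 ^ 2 * b8 - 8 * b4 ^ 3 - 27 * b6 ^ 2 + 9 * b2 * b4 * b6) +
          27 * (4 * x ^ 3 + b2 * x ^ 2 + 2 * b4 * x + b6) ^ 2) *
        ((-b2 ^ 2 * b8 - 8 * b4 ^ 3 - 27 * b6 ^ 2 + 9 * b2 * b4 * b6) +
          3 * (4 * x ^ 3 + b2 * x ^ 2 + 2 * b4 * x + b6) ^ 2) ^ 3 := by
  linear_combination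
    (-15925248*x^20 - 26542080*x^19*b2 - 19021824*x^18*b2^2 - 47775744*x^18*b4 - 7593984*x^17*b2^3 - 69009408*x^17*b2*b4
      - 15925248*x^17*b6 - 1823232*x^16*b2^4 - 41582592*x^16*b2^2*b4 - 22560768*x^16*b2*b6 - 65028096*x^16*b4^2
      - 263168*x^15*b2^5 - 13381632*x^15*b2^3*b4 - 13049856*x^15*b2^2*b6 - 78741504*x^15*b2*b4^2
      - 47775744*x^15*b4*b6 - 19776*x^14*b2^6 - 2523648*x^14*b2^4*b4 - 3631104*x^14*b2^3*b6 - 36163584*x^14*b2^2*b4^2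
      - 65028096*x^14*b2*b4*b6 - 61046784*x^14*b4^3 + 15925248*x^14*b6^2 + 864*x^13*b2^7 - 349440*x^13*b2^5*b4
      - 301056*x^13*b2^4*b6 - 6881280*x^13*b2^3*b4^2 - 36384768*x^13*b2^2*b4*b6 - 61931520*x^13*b2*b4^3
      + 18579456*x^13*b2*b6^2 - 55738368*x^13*b4^2*b6 + 749*x^12*b2^8 - 60672*x^12*b2^6*b4 + 104192*x^12*b2^5*b6
      - 191360*x^12*b2^4*b4^2 - 10165248*x^12*b2^3*b4*b6 - 19980288*x^12*b2^2*b4^3 + 8736768*x^12*b2^2*b6^2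
      - 71000064*x^12*b2*b4^2*b6 - 45895680*x^12*b4^4 + 31850496*x^12*b4*b6^2 + 177*x^11*b2^9 - 10128*x^11*b2^7*b4
      + 35232*x^11*b2^6*b6 + 26112*x^11*b2^5*b4^2 - 1286400*x^11*b2^4*b4*b6 - 430080*x^11*b2^3*b4^3
      + 2193408*x^11*b2^3*b6^2 - 34504704*x^11*b2^2*b4^2*b6 - 38817792*x^11*b2*b4^4 + 25878528*x^11*b2*b4*b6^2
      - 42467328*x^11*b4^3*b6 + 11943936*x^11*b6^3 + 21*x^10*b2^10 - 573*x^10*b2^8*b4 + 4776*x^10*b2^7*b6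
      - 32976*x^10*b2^6*b4^2 - 13632*x^10*b2^5*b4*b6 + 896256*x^10*b2^4*b4^3 + 356352*x^10*b2^4*b6^2
      - 7378944*x^10*b2^3*b4^2*b6 - 8248320*x^10*b2^2*b4^4 + 7022592*x^10*b2^2*b4*b6^2 - 47333376*x^10*b2*b4^3*b6
      + 10948608*x^10*b2*b6^3 - 26873856*x^10*b4^5 + 25214976*x^10*b4^2*b6^2 + x^9*b2^11 + 78*x^9*b2^9*b4
      + 379*x^9*b2^8*b6 - 7456*x^9*b2^7*b4^2 + 11376*x^9*b2^6*b4*b6 + 91264*x^9*b2^5*b4^3 + 44032*x^9*b2^5*b6^2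
      - 565760*x^9*b2^4*b4^2*b6 + 1154560*x^9*b2^3*b4^4 + 921600*x^9*b2^3*b4*b6^2 - 16773120*x^9*b2^2*b4^3*b6
      + 3483648*x^9*b2^2*b6^3 - 18100224*x^9*b2*b4^5 + 8073216*x^9*b2*b4^2*b6^2 - 25767936*x^9*b4^4*b6
      + 25878528*x^9*b4*b6^3 + 9*x^8*b2^10*b4 + (69/4)*x^8*b2^9*b6 - (825/4)*x^8*b2^8*b4^2 + 1548*x^8*b2^7*b4*b6
      - 16800*x^8*b2^6*b4^3 + 1728*x^8*b2^6*b6^2 - 17280*x^8*b2^5*b4^2*b6 + 516384*x^8*b2^4*b4^4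
      + 271872*x^8*b2^4*b4*b6^2 - 1714176*x^8*b2^3*b4^3*b6 + 202752*x^8*b2^3*b6^3 - 2193408*x^8*b2^2*b4^5
      - 2985984*x^8*b2^2*b4^2*b6^2 - 19325952*x^8*b2*b4^4*b6 + 24053760*x^8*b2*b4*b6^3 - 11934720*x^8*b4^6
      - 6967296*x^8*b6^4 - (3/2)*x^7*b2^10*b6 + (75/2)*x^7*b2^9*b4^2 + 318*x^7*b2^8*b4*b6 - 2112*x^7*b2^7*b4^3
      - 888*x^7*b2^7*b6^2 - 7296*x^7*b2^6*b4^2*b6 + 14400*x^7*b2^5*b4^4 + 88416*x^7*b2^5*b4*b6^2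
      + 11136*x^7*b2^4*b4^3*b6 - 131520*x^7*b2^4*b6^3 + 648960*x^7*b2^3*b4^5 - 1170432*x^7*b2^3*b4^2*b6^2
      - 2391552*x^7*b2^2*b4^4*b6 + 7934976*x^7*b2^2*b4*b6^3 - 6021120*x^7*b2*b4^6 - 9787392*x^7*b2*b4^3*b6^2
      - 4644864*x^7*b2*b6^4 - 11612160*x^7*b4^5*b6 + 19574784*x^7*b4^2*b6^3 - (1/4)*x^6*b2^11*b6
      + (1/4)*x^6*b2^10*b4^2 + (45/2)*x^6*b2^9*b4*b6 + (125/2)*x^6*b2^8*b4^3 - 163*x^6*b2^8*b6^2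
      + 224*x^6*b2^7*b4^2*b6 - 5308*x^6*b2^6*b4^4 + 9432*x^6*b2^6*b4*b6^2 - 35872*x^6*b2^5*b4^3*b6
      - 28592*x^6*b2^5*b6^3 + 110944*x^6*b2^4*b4^5 + 55680*x^6*b2^4*b4^2*b6^2 + 501888*x^6*b2^3*b4^4*b6
      + 794880*x^6*b2^3*b4*b6^3 - 297728*x^6*b2^2*b4^6 - 5211648*x^6*b2^2*b4^3*b6^2 - 981504*x^6*b2^2*b6^4
      - 2792448*x^6*b2*b4^5*b6 + 17390592*x^6*b2*b4^2*b6^3 - 4202496*x^6*b4^7 - 11943936*x^6*b4^4*b6^2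
      - 8957952*x^6*b4*b6^4 - (3/2)*x^5*b2^10*b4*b6 + (3/2)*x^5*b2^9*b4^3 - (9/2)*x^5*b2^9*b6^2
      + (333/2)*x^5*b2^8*b4^2*b6 - 30*x^5*b2^7*b4^4 - 492*x^5*b2^7*b4*b6^2 - 4224*x^5*b2^6*b4^3*b6
      - 1200*x^5*b2^6*b6^3 - 4176*x^5*b2^5*b4^5 + 52560*x^5*b2^5*b4^2*b6^2 - 30336*x^5*b2^4*b4^4*b6
      - 85152*x^5*b2^4*b4*b6^3 + 162816*x^5*b2^3*b4^6 - 769536*x^5*b2^3*b4^3*b6^2 - 85248*x^5*b2^3*b6^4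
      + 1509120*x^5*b2^2*b4^5*b6 + 4769280*x^5*b2^2*b4^2*b6^3 - 1523712*x^5*b2*b4^7 - 8045568*x^5*b2*b4^4*b6^2
      - 2820096*x^5*b2*b4*b6^4 - 3465216*x^5*b4^6*b6 + 4147200*x^5*b4^3*b6^3 - 1990656*x^5*b6^5
      + (15/16)*x^4*b2^10*b6^2 - (45/8)*x^4*b2^9*b4^2*b6 + (75/16)*x^4*b2^8*b4^4 - 135*x^4*b2^8*b4*b6^2
      + 660*x^4*b2^7*b4^3*b6 + 114*x^4*b2^7*b6^3 - 384*x^4*b2^6*b4^5 + 4908*x^4*b2^6*b4^2*b6^2 - 24048*x^4*b2^5*b4^4*b6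
      - 15576*x^4*b2^5*b4*b6^3 + 9144*x^4*b2^4*b4^6 + 960*x^4*b2^4*b4^3*b6^2 - 10320*x^4*b2^4*b6^4
      + 257472*x^4*b2^3*b4^5*b6 + 295680*x^4*b2^3*b4^2*b6^3 - 19968*x^4*b2^2*b4^7 - 1416960*x^4*b2^2*b4^4*b6^2
      + 69120*x^4*b2^2*b4*b6^4 + 657408*x^4*b2*b4^6*b6 + 4216320*x^4*b2*b4^3*b6^3 - 829440*x^4*b2*b6^5
      - 1056768*x^4*b4^8 - 6303744*x^4*b4^5*b6^2 - 3732480*x^4*b4^2*b6^4 + (1/16)*x^3*b2^11*b6^2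
      - (1/8)*x^3*b2^10*b4^2*b6 + (1/16)*x^3*b2^9*b4^4 - (9/2)*x^3*b2^9*b4*b6^2 + (7/2)*x^3*b2^8*b4^3*b6
      + 9*x^3*b2^8*b6^3 + x^3*b2^7*b4^5 - 54*x^3*b2^7*b4^2*b6^2 + 630*x^3*b2^6*b4^4*b6 - 408*x^3*b2^6*b4*b6^3
      - 480*x^3*b2^5*b4^6 + 8872*x^3*b2^5*b4^3*b6^2 - 208*x^3*b2^5*b6^4 - 35408*x^3*b2^4*b4^5*b6
      - 15632*x^3*b2^4*b4^2*b6^3 + 19456*x^3*b2^3*b4^7 - 108672*x^3*b2^3*b4^4*b6^2 - 28800*x^3*b2^3*b4*b6^4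
      + 527360*x^3*b2^2*b4^6*b6 + 721152*x^3*b2^2*b4^3*b6^3 - 34560*x^3*b2^2*b6^5 - 229376*x^3*b2*b4^8
      - 1216512*x^3*b2*b4^5*b6^2 + 829440*x^3*b2*b4^2*b6^4 - 737280*x^3*b4^7*b6 - 1769472*x^3*b4^4*b6^3
      - 2488320*x^3*b4*b6^5 + (3/16)*x^2*b2^10*b4*b6^2 - (3/8)*x^2*b2^9*b4^3*b6 + (9/4)*x^2*b2^9*b6^3
      + (3/16)*x^2*b2^8*b4^5 - (99/4)*x^2*b2^8*b4^2*b6^2 + (75/2)*x^2*b2^7*b4^4*b6 - 216*x^2*b2^7*b4*b6^3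
      - 15*x^2*b2^6*b4^6 + 1170*x^2*b2^6*b4^3*b6^2 + 564*x^2*b2^6*b6^4 - 1188*x^2*b2^5*b4^5*b6 + 6204*x^2*b2^5*b4^2*b6^3
      + 288*x^2*b2^4*b4^7 - 23712*x^2*b2^4*b4^4*b6^2 - 41232*x^2*b2^4*b4*b6^4 + 9984*x^2*b2^3*b4^6*b6
      - 29760*x^2*b2^3*b4^3*b6^3 + 42048*x^2*b2^3*b6^5 + 3072*x^2*b2^2*b4^8 + 198144*x^2*b2^2*b4^5*b6^2
      + 736128*x^2*b2^2*b4^2*b6^4 + 61440*x^2*b2*b4^7*b6 - 663552*x^2*b2*b4^4*b6^3 - 1617408*x^2*b2*b4*b6^5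
      - 98304*x^2*b4^9 - 737280*x^2*b4^6*b6^2 + 331776*x^2*b4^3*b6^4 + 995328*x^2*b6^6 + (3/16)*x*b2^10*b6^3
      - (3/8)*x*b2^9*b4^2*b6^2 + (3/16)*x*b2^8*b4^4*b6 - 18*x*b2^8*b4*b6^3 + 33*x*b2^7*b4^3*b6^2
      + 54*x*b2^7*b6^4 - 15*x*b2^6*b4^5*b6 + 432*x*b2^6*b4^2*b6^3 - 756*x*b2^5*b4^4*b6^2 - 3408*x*b2^5*b4*b6^4
      + 288*x*b2^4*b4^6*b6 + 2856*x*b2^4*b4^3*b6^3 + 5136*x*b2^4*b6^5 - 3840*x*b2^3*b4^5*b6^2 + 35328*x*b2^3*b4^2*b6^4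
      + 3072*x*b2^2*b4^7*b6 - 119808*x*b2^2*b4^4*b6^3 - 162432*x*b2^2*b4*b6^5 + 208896*x*b2*b4^6*b6^2
      + 608256*x*b2*b4^3*b6^4 + 165888*x*b2*b6^6 - 98304*x*b4^8*b6 - 663552*x*b4^5*b6^3 - 663552*x*b4^2*b6^5
      - (1/64)*b2^11*b6^3 + (3/64)*b2^10*b4^2*b6^2 - (3/64)*b2^9*b4^4*b6 + (9/4)*b2^9*b4*b6^3 + (1/64)*b2^8*b4^6
      - (13/2)*b2^8*b4^3*b6^2 - (9/2)*b2^8*b6^4 + (25/4)*b2^7*b4^5*b6 - (225/2)*b2^7*b4^2*b6^3 - 2*b2^6*b4^7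
      + 333*b2^6*b4^4*b6^2 + 486*b2^6*b4*b6^4 - 312*b2^5*b4^6*b6 + 1998*b2^5*b4^3*b6^3 - 428*b2^5*b6^5
      + 96*b2^4*b4^8 - 7344*b2^4*b4^5*b6^2 - 17060*b2^4*b4^2*b6^4 + 6912*b2^3*b4^7*b6 + 4864*b2^3*b4^4*b6^3
      + 30816*b2^3*b4*b6^5 - 2048*b2^2*b4^9 + 53248*b2^2*b4^6*b6^2 + 182016*b2^2*b4^3*b6^4 - 13824*b2^2*b6^6
      - 57344*b2*b4^8*b6 - 350208*b2*b4^5*b6^3 - 552960*b2*b4^2*b6^5 + 16384*b4^10 + 147456*b4^7*b6^2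
      + 442368*b4^4*b6^4 + 497664*b4*b6^6) * hpsi +
    (3981312*x^20 + 6635520*x^19*b2 + 5529600*x^18*b2^2 + 11943936*x^18*b4 + 3059712*x^17*b2^3 + 17252352*x^17*b2*b4
      + 3981312*x^17*b6 + 1181568*x^16*b2^4 + 12718080*x^16*b2^2*b4 + 5640192*x^16*b2*b6 + 16257024*x^16*b4^2
      + 307712*x^15*b2^5 + 6248448*x^15*b2^3*b4 + 4423680*x^15*b2^2*b6 + 19685376*x^15*b2*b4^2 + 11943936*x^15*b4*b6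
      + 50304*x^14*b2^6 + 2082432*x^14*b2^4*b4 + 2359296*x^14*b2^3*b6 + 11943936*x^14*b2^2*b4^2
      + 16257024*x^14*b2*b4*b6 + 15261696*x^14*b4^3 - 3981312*x^14*b6^2 + 4320*x^13*b2^7 + 450240*x^13*b2^5*b4
      + 801024*x^13*b2^4*b6 + 4623360*x^13*b2^3*b4^2 + 11999232*x^13*b2^2*b4*b6 + 15482880*x^13*b2*b4^3
      - 4644864*x^13*b2*b6^2 + 13934592*x^13*b4^2*b6 + (7/4)*x^12*b2^8 + 60528*x^12*b2^6*b4 + 151072*x^12*b2^5*b6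
      + 1140800*x^12*b2^4*b4^2 - 17280*x^12*b2^4*b8 + 5755392*x^12*b2^3*b4*b6 + 6653952*x^12*b2^2*b4^3
      - 2391552*x^12*b2^2*b6^2 + 17750016*x^12*b2*b4^2*b6 + 11473920*x^12*b4^4 - 7962624*x^12*b4*b6^2
      - (177/4)*x^11*b2^9 + 4800*x^11*b2^7*b4 + 9552*x^11*b2^6*b6 + 179232*x^11*b2^5*b4^2 - 17280*x^11*b2^5*b8
      + 1721280*x^11*b2^4*b4*b6 + 1282560*x^11*b2^3*b4^3 - 755712*x^11*b2^3*b6^2 + 11529216*x^11*b2^2*b4^2*b6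
      + 9704448*x^11*b2*b4^4 - 6469632*x^11*b2*b4*b6^2 + 10616832*x^11*b4^3*b6 - 2985984*x^11*b6^3
      - (21/4)*x^10*b2^10 + (573/4)*x^10*b2^8*b4 - 1680*x^10*b2^7*b6 + 21204*x^10*b2^6*b4^2 - 6480*x^10*b2^6*b8
      + 292848*x^10*b2^5*b4*b6 + 43776*x^10*b2^4*b4^3 - 34560*x^10*b2^4*b4*b8 - 166848*x^10*b2^4*b6^2
      + 4644096*x^10*b2^3*b4^2*b6 + 2234880*x^10*b2^2*b4^4 - 2170368*x^10*b2^2*b4*b6^2 + 11833344*x^10*b2*b4^3*b6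
      - 2737152*x^10*b2*b6^3 + 6718464*x^10*b4^5 - 6303744*x^10*b4^2*b6^2 - (1/4)*x^9*b2^11 - (39/2)*x^9*b2^9*b4
      - (1459/4)*x^9*b2^8*b6 + 2134*x^9*b2^7*b4^2 - 1080*x^9*b2^7*b8 + 21456*x^9*b2^6*b4*b6 - 3376*x^9*b2^5*b4^3
      - 25920*x^9*b2^5*b4*b8 - 28288*x^9*b2^5*b6^2 + 1156640*x^9*b2^4*b4^2*b6 - 17280*x^9*b2^4*b6*b8
      - 340480*x^9*b2^3*b4^4 - 230400*x^9*b2^3*b4*b6^2 + 5368320*x^9*b2^2*b4^3*b6 - 1562112*x^9*b2^2*b6^3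
      + 4525056*x^9*b2*b4^5 - 2018304*x^9*b2*b4^2*b6^2 + 6441984*x^9*b4^4*b6 - 6469632*x^9*b4*b6^3
      - (9/4)*x^8*b2^10*b4 - (339/16)*x^8*b2^9*b6 + (1095/16)*x^8*b2^8*b4^2 - (135/2)*x^8*b2^8*b8
      - 792*x^8*b2^7*b4*b6 + 4740*x^8*b2^6*b4^3 - 6480*x^8*b2^6*b4*b8 - 4482*x^8*b2^6*b6^2 + 163080*x^8*b2^5*b4^2*b6
      - 12960*x^8*b2^5*b6*b8 - 180936*x^8*b2^4*b4^4 - 25920*x^8*b2^4*b4^2*b8 + 87552*x^8*b2^4*b4*b6^2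
      + 1413504*x^8*b2^3*b4^3*b6 - 569088*x^8*b2^3*b6^3 + 278784*x^8*b2^2*b4^5 + 435456*x^8*b2^2*b4^2*b6^2
      + 4831488*x^8*b2*b4^4*b6 - 6013440*x^8*b2*b4*b6^3 + 2983680*x^8*b4^6 + 1741824*x^8*b6^4 + (3/8)*x^7*b2^10*b6
      - (75/8)*x^7*b2^9*b4^2 - (429/2)*x^7*b2^8*b4*b6 + 663*x^7*b2^7*b4^3 - 540*x^7*b2^7*b4*b8 - 588*x^7*b2^7*b6^2
      + 9114*x^7*b2^6*b4^2*b6 - 3240*x^7*b2^6*b6*b8 - 9000*x^7*b2^5*b4^4 - 12960*x^7*b2^5*b4^2*b8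
      + 23256*x^7*b2^5*b4*b6^2 + 275856*x^7*b2^4*b4^3*b6 - 25920*x^7*b2^4*b4*b6*b8 - 96720*x^7*b2^4*b6^3
      - 333312*x^7*b2^3*b4^5 + 603648*x^7*b2^3*b4^2*b6^2 + 546048*x^7*b2^2*b4^4*b6 - 3020544*x^7*b2^2*b4*b6^3
      + 1505280*x^7*b2*b4^6 + 2446848*x^7*b2*b4^3*b6^2 + 1161216*x^7*b2*b6^4 + 2903040*x^7*b4^5*b6
      - 4893696*x^7*b4^2*b6^3 + (1/16)*x^6*b2^11*b6 - (1/16)*x^6*b2^10*b4^2 - (45/8)*x^6*b2^9*b4*b6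
      - (125/8)*x^6*b2^8*b4^3 - (71/4)*x^6*b2^8*b6^2 - (823/2)*x^6*b2^7*b4^2*b6 - 234*x^6*b2^7*b6*b8
      + 1741*x^6*b2^6*b4^4 - 1656*x^6*b2^6*b4^2*b8 - 1710*x^6*b2^6*b4*b6^2 + 144*x^6*b2^6*b8^2 + 36724*x^6*b2^5*b4^3*b6
      - 16848*x^6*b2^5*b4*b6*b8 - 2356*x^6*b2^5*b6^3 - 52360*x^6*b2^4*b4^5 - 5184*x^6*b2^4*b4^3*b8
      + 233616*x^6*b2^4*b4^2*b6^2 + 5184*x^6*b2^4*b6^2*b8 - 148800*x^6*b2^3*b4^4*b6 - 810432*x^6*b2^3*b4*b6^3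
      - 24064*x^6*b2^2*b4^6 + 1282176*x^6*b2^2*b4^3*b6^2 + 255744*x^6*b2^2*b6^4 + 698112*x^6*b2*b4^5*b6
      - 4347648*x^6*b2*b4^2*b6^3 + 1050624*x^6*b4^7 + 2985984*x^6*b4^4*b6^2 + 2239488*x^6*b4*b6^4
      + (3/8)*x^5*b2^10*b4*b6 - (3/8)*x^5*b2^9*b4^3 + (45/8)*x^5*b2^9*b6^2 - (405/8)*x^5*b2^8*b4^2*b6
      + 18*x^5*b2^8*b6*b8 + 12*x^5*b2^7*b4^4 - 18*x^5*b2^7*b4^2*b8 - 768*x^5*b2^7*b4*b6^2 + 72*x^5*b2^7*b8^2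
      + 1839*x^5*b2^6*b4^3*b6 - 3564*x^5*b2^6*b4*b6*b8 + 948*x^5*b2^6*b6^3 + 1152*x^5*b2^5*b4^5
      - 432*x^5*b2^5*b4^3*b8 + 29628*x^5*b2^5*b4^2*b6^2 + 2592*x^5*b2^5*b6^2*b8 - 7320*x^5*b2^4*b4^4*b6
      - 12960*x^5*b2^4*b4^2*b6*b8 - 90168*x^5*b2^4*b4*b6^3 - 61440*x^5*b2^3*b4^6 + 441216*x^5*b2^3*b4^3*b6^2
      + 26496*x^5*b2^3*b6^4 - 548352*x^5*b2^2*b4^5*b6 - 1710720*x^5*b2^2*b4^2*b6^3 + 380928*x^5*b2*b4^7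
      + 2011392*x^5*b2*b4^4*b6^2 + 705024*x^5*b2*b4*b6^4 + 866304*x^5*b4^6*b6 - 1036800*x^5*b4^3*b6^3
      + 497664*x^5*b6^5 + (21/64)*x^4*b2^10*b6^2 + (9/32)*x^4*b2^9*b4^2*b6 + (9/4)*x^4*b2^9*b6*b8
      - (39/64)*x^4*b2^8*b4^4 - (9/4)*x^4*b2^8*b4^2*b8 - 18*x^4*b2^8*b4*b6^2 + 9*x^4*b2^8*b8^2 - (273/4)*x^4*b2^7*b4^3*b6
      - 207*x^4*b2^7*b4*b6*b8 + (105/2)*x^4*b2^7*b6^3 + 51*x^4*b2^6*b4^5 + 180*x^4*b2^6*b4^3*b8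
      - 903*x^4*b2^6*b4^2*b6^2 + 144*x^4*b2^6*b4*b8^2 + 324*x^4*b2^6*b6^2*b8 + 4500*x^4*b2^5*b4^4*b6
      - 7128*x^4*b2^5*b4^2*b6*b8 - 642*x^4*b2^5*b4*b6^3 - 1152*x^4*b2^4*b4^6 + 2376*x^4*b2^4*b4^4*b8
      + 96960*x^4*b2^4*b4^3*b6^2 + 5184*x^4*b2^4*b4*b6^2*b8 + 3228*x^4*b2^4*b6^4 - 158976*x^4*b2^3*b4^5*b6
      - 296832*x^4*b2^3*b4^2*b6^3 + 15360*x^4*b2^2*b4^7 + 424224*x^4*b2^2*b4^4*b6^2 - 6912*x^4*b2^2*b4*b6^4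
      - 164352*x^4*b2*b4^6*b6 - 1054080*x^4*b2*b4^3*b6^3 + 207360*x^4*b2*b6^5 + 264192*x^4*b4^8
      + 1575936*x^4*b4^5*b6^2 + 933120*x^4*b4^2*b6^4 - (1/64)*x^3*b2^11*b6^2 + (1/32)*x^3*b2^10*b4^2*b6
      - (1/64)*x^3*b2^9*b4^4 + (27/8)*x^3*b2^9*b4*b6^2 - (43/8)*x^3*b2^8*b4^3*b6 + 9*x^3*b2^8*b4*b6*b8
      + (9/4)*x^3*b2^8*b6^3 + 2*x^3*b2^7*b4^5 - 9*x^3*b2^7*b4^3*b8 - (477/2)*x^3*b2^7*b4^2*b6^2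
      + 36*x^3*b2^7*b4*b8^2 + 18*x^3*b2^7*b6^2*b8 + 306*x^3*b2^6*b4^4*b6 - 990*x^3*b2^6*b4^2*b6*b8
      - 60*x^3*b2^6*b4*b6^3 + 72*x^3*b2^6*b6*b8^2 - 96*x^3*b2^5*b4^6 + 864*x^3*b2^5*b4^4*b8 + 6584*x^3*b2^5*b4^3*b6^2
      - 648*x^3*b2^5*b4*b6^2*b8 + 1240*x^3*b2^5*b6^4 - 6592*x^3*b2^4*b4^5*b6 - 432*x^3*b2^4*b4^3*b6*b8
      - 3112*x^3*b2^4*b4^2*b6^3 + 4752*x^3*b2^4*b6^3*b8 + 2048*x^3*b2^3*b4^7 + 55680*x^3*b2^3*b4^4*b6^2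
      - 75744*x^3*b2^3*b4*b6^4 - 152576*x^3*b2^2*b4^6*b6 - 190656*x^3*b2^2*b4^3*b6^3 + 112320*x^3*b2^2*b6^5
      + 57344*x^3*b2*b4^8 + 304128*x^3*b2*b4^5*b6^2 - 207360*x^3*b2*b4^2*b6^4 + 184320*x^3*b4^7*b6
      + 442368*x^3*b4^4*b6^3 + 622080*x^3*b4*b6^5 - (3/64)*x^2*b2^10*b4*b6^2 + (3/32)*x^2*b2^9*b4^3*b6
      + (9/16)*x^2*b2^9*b6^3 - (3/64)*x^2*b2^8*b4^5 + (99/16)*x^2*b2^8*b4^2*b6^2 + (9/2)*x^2*b2^8*b6^2*b8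
      - (51/4)*x^2*b2^7*b4^4*b6 + (9/2)*x^2*b2^7*b4^2*b6*b8 - (135/2)*x^2*b2^7*b4*b6^3 + 18*x^2*b2^7*b6*b8^2
      + 6*x^2*b2^6*b4^6 - 9*x^2*b2^6*b4^4*b8 - 306*x^2*b2^6*b4^3*b6^2 + 36*x^2*b2^6*b4^2*b8^2 - 486*x^2*b2^6*b4*b6^2*b8
      + 156*x^2*b2^6*b6^4 + 648*x^2*b2^5*b4^5*b6 - 540*x^2*b2^5*b4^3*b6*b8 + 2850*x^2*b2^5*b4^2*b6^3
      + 1188*x^2*b2^5*b6^3*b8 - 288*x^2*b2^4*b4^7 + 864*x^2*b2^4*b4^5*b8 + 6576*x^2*b2^4*b4^4*b6^2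
      + 1296*x^2*b2^4*b4^2*b6^2*b8 - 11076*x^2*b2^4*b4*b6^4 - 14592*x^2*b2^3*b4^6*b6 + 3120*x^2*b2^3*b4^3*b6^3
      + 15408*x^2*b2^3*b6^5 + 6144*x^2*b2^2*b4^8 - 28800*x^2*b2^2*b4^5*b6^2 - 181440*x^2*b2^2*b4^2*b6^4
      - 15360*x^2*b2*b4^7*b6 + 165888*x^2*b2*b4^4*b6^3 + 404352*x^2*b2*b4*b6^5 + 24576*x^2*b4^9
      + 184320*x^2*b4^6*b6^2 - 82944*x^2*b4^3*b6^4 - 248832*x^2*b6^6 - (3/64)*x*b2^10*b6^3 + (3/32)*x*b2^9*b4^2*b6^2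
      - (3/64)*x*b2^8*b4^4*b6 + (27/4)*x*b2^8*b4*b6^3 - (51/4)*x*b2^7*b4^3*b6^2 + 9*x*b2^7*b4*b6^2*b8
      - (27/2)*x*b2^7*b6^4 + 6*x*b2^6*b4^5*b6 - 9*x*b2^6*b4^3*b6*b8 - 351*x*b2^6*b4^2*b6^3 + 36*x*b2^6*b4*b6*b8^2
      + 648*x*b2^5*b4^4*b6^2 - 972*x*b2^5*b4^2*b6^2*b8 + 1446*x*b2^5*b4*b6^4 - 288*x*b2^4*b4^6*b6
      + 864*x*b2^4*b4^4*b6*b8 + 7440*x*b2^4*b4^3*b6^3 + 2376*x*b2^4*b4*b6^3*b8 - 1284*x*b2^4*b6^5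
      - 14592*x*b2^3*b4^5*b6^2 - 51600*x*b2^3*b4^2*b6^4 + 6144*x*b2^2*b4^7*b6 + 67968*x*b2^2*b4^4*b6^3
      + 92448*x*b2^2*b4*b6^5 - 52224*x*b2*b4^6*b6^2 - 152064*x*b2*b4^3*b6^4 - 41472*x*b2*b6^6 + 24576*x*b4^8*b6
      + 165888*x*b4^5*b6^3 + 165888*x*b4^2*b6^5 - (1/64)*b2^10*b6^2*b8 + (1/32)*b2^9*b4^2*b6*b8
      - (1/16)*b2^9*b6*b8^2 - (1/64)*b2^8*b4^4*b8 + (1/16)*b2^8*b4^2*b8^2 + (9/4)*b2^8*b4*b6^2*b8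
      - (1/4)*b2^8*b8^3 - (17/4)*b2^7*b4^3*b6*b8 + 9*b2^7*b4*b6*b8^2 - (9/2)*b2^7*b6^3*b8 + 2*b2^6*b4^5*b8
      - 8*b2^6*b4^3*b8^2 - 117*b2^6*b4^2*b6^2*b8 - 18*b2^6*b6^2*b8^2 + 216*b2^5*b4^4*b6*b8 + 486*b2^5*b4*b6^3*b8
      - b2^5*b6^5 - 96*b2^4*b4^6*b8 - 432*b2^4*b4^3*b6^2*b8 - b2^4*b4^2*b6^4 - 432*b2^4*b6^4*b8
      + 6560*b2^3*b4^4*b6^3 + 72*b2^3*b4*b6^5 - 16768*b2^2*b4^6*b6^2 - 52416*b2^2*b4^3*b6^4 + 14336*b2*b4^8*b6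
      + 87552*b2*b4^5*b6^3 + 138240*b2*b4^2*b6^5 - 4096*b4^10 - 36864*b4^7*b6^2 - 110592*b4^4*b6^4
      - 124416*b4*b6^6) * hrel

/-- Polynomial form of the 5-isogeny identity. -/
theorem i4_core {K : Type*} [Field K] [CharZero K] (x₁ x₂ b2 b4 b6 b8 : K)
    (hrel : 4 * b8 - b2 * b6 + b4 * b4 = 0)
    (hne : x₁ ≠ x₂)
    (h₁ : x₁ ^ 4 - b4 * x₁ ^ 2 - 2 * b6 * x₁ - b8 =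
      x₂ * (4 * x₁ ^ 3 + b2 * x₁ ^ 2 + 2 * b4 * x₁ + b6))
    (h₂ : x₂ ^ 4 - b4 * x₂ ^ 2 - 2 * b6 * x₂ - b8 =
      x₁ * (4 * x₂ ^ 3 + b2 * x₂ ^ 2 + 2 * b4 * x₂ + b6)) :
    (b2 ^ 2 - 24 * b4) * ((x₁ - x₂) ^ 2) ^ 5 =
      (-b2 ^ 2 * b8 - 8 * b4 ^ 3 - 27 * b6 ^ 2 + 9 * b2 * b4 * b6) ^ 2 +
        10 * (-b2 ^ 2 * b8 - 8 * b4 ^ 3 - 27 * b6 ^ 2 + 9 * b2 * b4 * b6) * ((x₁ - x₂) ^ 2) ^ 3 +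
        5 * ((x₁ - x₂) ^ 2) ^ 6 := by
  have hd : x₁ - x₂ ≠ 0 := sub_ne_zero.mpr hne
  have hR1 : (x₁ + x₂) ^ 3 - 6 * (x₁ + x₂) * (x₁ * x₂) - b2 * (x₁ * x₂) - b4 * (x₁ + x₂) - b6
      = 0 := by
    have h : (x₁ - x₂) * ((x₁ + x₂) ^ 3 - 6 * (x₁ + x₂) * (x₁ * x₂) - b2 * (x₁ * x₂)
        - b4 * (x₁ + x₂) - b6) = 0 := by
      linear_combination h₁ - h₂
    rcases mul_eq_zero.mp h with h | h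
    · exact absurd h hd
    · exact h
  have hR2 : (x₁ + x₂) ^ 4 - 8 * (x₁ + x₂) ^ 2 * (x₁ * x₂) + 10 * (x₁ * x₂) ^ 2
      - b2 * (x₁ + x₂) * (x₁ * x₂) - b4 * (x₁ + x₂) ^ 2 - 2 * b4 * (x₁ * x₂)
      - 3 * b6 * (x₁ + x₂) - 2 * b8 = 0 := by
    linear_combination h₁ + h₂
  linear_combination
    (-5*(x₁ + x₂)^9 + 90*(x₁ + x₂)^7*(x₁ * x₂) + (x₁ + x₂)^7*b2^2 - 29*(x₁ + x₂)^7*b4 - 5*(x₁ + x₂)^6*(x₁ * x₂)*b2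
      - 5*(x₁ + x₂)^6*b6 - 660*(x₁ + x₂)^5*(x₁ * x₂)^2 - 14*(x₁ + x₂)^5*(x₁ * x₂)*b2^2 + 396*(x₁
      + x₂)^5*(x₁ * x₂)*b4 + (x₁ + x₂)^5*b2^2*b4 - 29*(x₁ + x₂)^5*b4^2 + 60*(x₁ + x₂)^4*(x₁ * x₂)^2*b2
      + (x₁ + x₂)^4*(x₁ * x₂)*b2^3 - 34*(x₁ + x₂)^4*(x₁ * x₂)*b2*b4 + 60*(x₁ + x₂)^4*(x₁ * x₂)*b6
      + (x₁ + x₂)^4*b2^2*b6 - 34*(x₁ + x₂)^4*b4*b6 + 2072*(x₁ + x₂)^3*(x₁ * x₂)^3 + 59*(x₁ + x₂)^3*(x₁ * x₂)^2*b2^2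
      - 1812*(x₁ + x₂)^3*(x₁ * x₂)^2*b4 + (1/2)*(x₁ + x₂)^3*(x₁ * x₂)*b2^4 - 24*(x₁ + x₂)^3*(x₁ * x₂)*b2^2*b4
      + (227/4)*(x₁ + x₂)^3*(x₁ * x₂)*b2*b6 + (525/4)*(x₁ + x₂)^3*(x₁ * x₂)*b4^2 - 155*(x₁ + x₂)^3*(x₁ * x₂)*b8
      - 2*(x₁ + x₂)^3*b2^3*b6 + 4*(x₁ + x₂)^3*b2^2*b4^2 + 10*(x₁ + x₂)^3*b2^2*b8 - 12*(x₁ + x₂)^3*b2*b4*b6
      - 51*(x₁ + x₂)^3*b4^3 + 33*(x₁ + x₂)^3*b6^2 - 292*(x₁ + x₂)^2*(x₁ * x₂)^3*b2 - 4*(x₁ + x₂)^2*(x₁ * x₂)^2*b2^3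
      + 36*(x₁ + x₂)^2*(x₁ * x₂)^2*b2*b4 - 132*(x₁ + x₂)^2*(x₁ * x₂)^2*b6 + 4*(x₁ + x₂)^2*(x₁ * x₂)*b2^3*b4
      - (155/4)*(x₁ + x₂)^2*(x₁ * x₂)*b2^2*b6 - (417/4)*(x₁ + x₂)^2*(x₁ * x₂)*b2*b4^2 + 147*(x₁
      + x₂)^2*(x₁ * x₂)*b2*b8 + 260*(x₁ + x₂)^2*(x₁ * x₂)*b4*b6 + (1/2)*(x₁ + x₂)^2*b2^3*b4^2 + 2*(x₁
      + x₂)^2*b2^3*b8 + (7/2)*(x₁ + x₂)^2*b2^2*b4*b6 - (39/2)*(x₁ + x₂)^2*b2*b4^3 - 78*(x₁ + x₂)^2*b2*b4*b8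
      + 21*(x₁ + x₂)^2*b4^2*b6 + 232*(x₁ + x₂)^2*b6*b8 - 1776*(x₁ + x₂)*(x₁ * x₂)^4 - 90*(x₁ + x₂)*(x₁ * x₂)^3*b2^2
      + 2384*(x₁ + x₂)*(x₁ * x₂)^3*b4 - (3/2)*(x₁ + x₂)*(x₁ * x₂)^2*b2^4 + 77*(x₁ + x₂)*(x₁ * x₂)^2*b2^2*b4
      - (1073/4)*(x₁ + x₂)*(x₁ * x₂)^2*b2*b6 - (3967/4)*(x₁ + x₂)*(x₁ * x₂)^2*b4^2 + 833*(x₁ + x₂)*(x₁ * x₂)^2*b8
      + (1/2)*(x₁ + x₂)*(x₁ * x₂)*b2^4*b4 + 2*(x₁ + x₂)*(x₁ * x₂)*b2^3*b6 - 22*(x₁ + x₂)*(x₁ * x₂)*b2^2*b4^2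
      + 12*(x₁ + x₂)*(x₁ * x₂)*b2^2*b8 - (363/2)*(x₁ + x₂)*(x₁ * x₂)*b2*b4*b6 + (567/2)*(x₁ + x₂)*(x₁ * x₂)*b4^3
      - 2*(x₁ + x₂)*(x₁ * x₂)*b4*b8 + 498*(x₁ + x₂)*(x₁ * x₂)*b6^2 - (1/2)*(x₁ + x₂)*b2^4*b8 + 5*(x₁
      + x₂)*b2^3*b4*b6 - 3*(x₁ + x₂)*b2^2*b4^3 + 26*(x₁ + x₂)*b2^2*b4*b8 + (123/4)*(x₁ + x₂)*b2^2*b6^2
      - (1227/4)*(x₁ + x₂)*b2*b4^2*b6 - (855/4)*(x₁ + x₂)*b2*b6*b8 + 192*(x₁ + x₂)*b4^4 + (363/4)*(x₁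
      + x₂)*b4^2*b8 + 711*(x₁ + x₂)*b4*b6^2 + 155*(x₁ + x₂)*b8^2 + 624*(x₁ * x₂)^4*b2 + 15*(x₁ * x₂)^3*b2^3
      - 480*(x₁ * x₂)^3*b2*b4 + 1040*(x₁ * x₂)^3*b6 - 8*(x₁ * x₂)^2*b2^3*b4 + (197/2)*(x₁ * x₂)^2*b2^2*b6
      + (357/2)*(x₁ * x₂)^2*b2*b4^2 - 294*(x₁ * x₂)^2*b2*b8 - 1552*(x₁ * x₂)^2*b4*b6 - (x₁ * x₂)*b2^4*b6
      + 2*(x₁ * x₂)*b2^3*b4^2 + 6*(x₁ * x₂)*b2^3*b8 - 65*(x₁ * x₂)*b2^2*b4*b6 + 27*(x₁ * x₂)*b2*b4^3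
      + 156*(x₁ * x₂)*b2*b4*b8 + (243/2)*(x₁ * x₂)*b2*b6^2 + (219/2)*(x₁ * x₂)*b4^2*b6 - 154*(x₁ * x₂)*b6*b8
      + 4*b2^3*b6^2 - 3*b2^2*b4^2*b6 + 10*b2^2*b6*b8 - 246*b2*b4*b6^2 + 192*b4^3*b6 + 729*b6^3) * hR1 +
    (368*(x₁ + x₂)^2*(x₁ * x₂)^3 + 12*(x₁ + x₂)^2*(x₁ * x₂)^2*b2^2 - 312*(x₁ + x₂)^2*(x₁ * x₂)^2*b4 - (1/2)*(x₁
      + x₂)^2*(x₁ * x₂)*b2^4 + 16*(x₁ + x₂)^2*(x₁ * x₂)*b2^2*b4 - (267/4)*(x₁ + x₂)^2*(x₁ * x₂)*b2*b6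
      + (363/4)*(x₁ + x₂)^2*(x₁ * x₂)*b4^2 + 155*(x₁ + x₂)^2*(x₁ * x₂)*b8 + 2*(x₁ + x₂)^2*b2^3*b6
      - 3*(x₁ + x₂)^2*b2^2*b4^2 - 78*(x₁ + x₂)^2*b2*b4*b6 + 102*(x₁ + x₂)^2*b4^3 + 232*(x₁ + x₂)^2*b6^2
      - 8*(x₁ + x₂)*(x₁ * x₂)^3*b2 - 4*(x₁ + x₂)*(x₁ * x₂)^2*b2^3 + 216*(x₁ + x₂)*(x₁ * x₂)^2*b2*b4
      - 168*(x₁ + x₂)*(x₁ * x₂)^2*b6 - 2*(x₁ + x₂)*(x₁ * x₂)*b2^3*b4 + (123/4)*(x₁ + x₂)*(x₁ * x₂)*b2^2*b6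
      + (165/4)*(x₁ + x₂)*(x₁ * x₂)*b2*b4^2 - 147*(x₁ + x₂)*(x₁ * x₂)*b2*b8 - 8*(x₁ + x₂)*(x₁ * x₂)*b4*b6
      - (1/2)*(x₁ + x₂)*b2^3*b4^2 - 2*(x₁ + x₂)*b2^3*b8 - (3/2)*(x₁ + x₂)*b2^2*b4*b6 + (39/2)*(x₁
      + x₂)*b2*b4^3 + 78*(x₁ + x₂)*b2*b4*b8 - 84*(x₁ + x₂)*b4^2*b6 - 232*(x₁ + x₂)*b6*b8 - 2048*(x₁ * x₂)^4
      - 40*(x₁ * x₂)^3*b2^2 + 2048*(x₁ * x₂)^3*b4 + (3/2)*(x₁ * x₂)^2*b2^4 - 56*(x₁ * x₂)^2*b2^2*b4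
      + (779/4)*(x₁ * x₂)^2*b2*b6 + (1525/4)*(x₁ * x₂)^2*b4^2 - 523*(x₁ * x₂)^2*b8 - (1/2)*(x₁ * x₂)*b2^4*b4
      + 4*(x₁ * x₂)*b2^3*b6 + 14*(x₁ * x₂)*b2^2*b4^2 - 72*(x₁ * x₂)*b2^2*b8 + (975/2)*(x₁ * x₂)*b2*b4*b6
      - (1023/2)*(x₁ * x₂)*b4^3 + 2*(x₁ * x₂)*b4*b8 - 1624*(x₁ * x₂)*b6^2 + (1/2)*b2^4*b8 - 5*b2^3*b4*b6
      + 4*b2^2*b4^3 - 16*b2^2*b4*b8 - (119/4)*b2^2*b6^2 + (867/4)*b2*b4^2*b6 + (855/4)*b2*b6*b8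
      - 141*b4^4 - (363/4)*b4^2*b8 - 480*b4*b6^2 - 155*b8^2) * hR2 +
    ((x₁ + x₂)^2*b2^2*b4^2 + 51*(x₁ + x₂)^2*b4^3 - 3*(x₁ + x₂)*(x₁ * x₂)^2*b2^3 + 81*(x₁ + x₂)*(x₁ * x₂)^2*b6
      + 2*(x₁ + x₂)*(x₁ * x₂)*b2^3*b4 - 39*(x₁ + x₂)*(x₁ * x₂)*b2^2*b6 + 117*(x₁ + x₂)*(x₁ * x₂)*b2*b4^2
      - (147/2)*(x₁ + x₂)*(x₁ * x₂)*b2*b8 - (315/2)*(x₁ + x₂)*(x₁ * x₂)*b4*b6 - (x₁ + x₂)*b2^3*b8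
      + 6*(x₁ + x₂)*b2^2*b4*b6 + 39*(x₁ + x₂)*b2*b4*b8 + (117/2)*(x₁ + x₂)*b2*b6^2 - 39*(x₁ + x₂)*b4^2*b6
      - (387/2)*(x₁ + x₂)*b6*b8 + (567/2)*(x₁ * x₂)^4 - (147/2)*(x₁ * x₂)^3*b2^2 + (1515/2)*(x₁ * x₂)^3*b4
      + (x₁ * x₂)^2*b2^4 + 15*(x₁ * x₂)^2*b2^2*b4 - (1035/2)*(x₁ * x₂)^2*b2*b6 + 387*(x₁ * x₂)^2*b4^2
      + 126*(x₁ * x₂)^2*b8 - 3*(x₁ * x₂)*b2^3*b6 + 8*(x₁ * x₂)*b2^2*b4^2 - 36*(x₁ * x₂)*b2^2*b8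
      + (741/2)*(x₁ * x₂)*b2*b4*b6 - 282*(x₁ * x₂)*b4^3 - (153/2)*(x₁ * x₂)*b4*b8 - (1701/2)*(x₁ * x₂)*b6^2
      - 8*b2^2*b4*b8 - 4*b2^2*b6^2 + 80*b2*b4^2*b6 + (175/2)*b2*b6*b8 - 64*b4^4 - 26*b4^2*b8 - 240*b4*b6^2
      - (155/2)*b8^2) * hrel

variable {K : Type*} [Field K] [CharZero K] (W : WeierstrassCurve K)

/-- **I3** (3-isogeny parametrisation). If `x` is a root of the 3-division polynomial of `W` and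
`Q = 4x³ + b₂x² + 2b₄x + b₆`, then `c₄³ Q⁶ = (Δ + 27 Q²)(Δ + 3 Q²)³`. -/
theorem i3 (x : K)
    (hx : 3 * x ^ 4 + W.b₂ * x ^ 3 + 3 * W.b₄ * x ^ 2 + 3 * W.b₆ * x + W.b₈ = 0) :
    W.c₄ ^ 3 * (4 * x ^ 3 + W.b₂ * x ^ 2 + 2 * W.b₄ * x + W.b₆) ^ 6 =
      (W.Δ + 27 * (4 * x ^ 3 + W.b₂ * x ^ 2 + 2 * W.b₄ * x + W.b₆) ^ 2) *
        (W.Δ + 3 * (4 * x ^ 3 + W.b₂ * x ^ 2 + 2 * W.b₄ * x + W.b₆) ^ 2) ^ 3 := by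
  have hrel : 4 * W.b₈ - W.b₂ * W.b₆ + W.b₄ * W.b₄ = 0 := by
    linear_combination W.b_relation
  have h := i3_core x W.b₂ W.b₄ W.b₆ W.b₈ hrel hx
  simpa only [WeierstrassCurve.c₄, WeierstrassCurve.Δ] using h

/-- **I4** (5-isogeny parametrisation). If `x₁ ≠ x₂` are exchanged by the duplication map on
x-coordinates and `D = (x₁ - x₂)²`, then `c₄ D⁵ = Δ² + 10 Δ D³ + 5 D⁶`. -/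
theorem i4 (x₁ x₂ : K) (hne : x₁ ≠ x₂)
    (h₁ : x₁ ^ 4 - W.b₄ * x₁ ^ 2 - 2 * W.b₆ * x₁ - W.b₈ =
      x₂ * (4 * x₁ ^ 3 + W.b₂ * x₁ ^ 2 + 2 * W.b₄ * x₁ + W.b₆))
    (h₂ : x₂ ^ 4 - W.b₄ * x₂ ^ 2 - 2 * W.b₆ * x₂ - W.b₈ =
      x₁ * (4 * x₂ ^ 3 + W.b₂ * x₂ ^ 2 + 2 * W.b₄ * x₂ + W.b₆)) :
    W.c₄ * ((x₁ - x₂) ^ 2) ^ 5 =
      W.Δ ^ 2 + 10 * W.Δ * ((x₁ - x₂) ^ 2) ^ 3 + 5 * ((x₁ - x₂) ^ 2) ^ 6 := by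
  have hrel : 4 * W.b₈ - W.b₂ * W.b₆ + W.b₄ * W.b₄ = 0 := by
    linear_combination W.b_relation
  have h := i4_core x₁ x₂ W.b₂ W.b₄ W.b₆ W.b₈ hrel hne h₁ h₂
  simpa only [WeierstrassCurve.c₄, WeierstrassCurve.Δ] using h

end Fermat.Agent.S51.helper86
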