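import Fermat.Agent.S51.helper86_Isogeny
import Fermat.Prelude.Def_FLTPrelim_Modularity

/-!
# S51, pieces I3/I4 packaged and I5 (helper86)

* `tu_relation`: from a root `x₃` of the 3-division polynomial and a pair `x₁ ≠ x₂` exchanged by
  duplication, the quantities `t = Δ/Q²`, `u = Δ/D³` are nonzero, satisfy
  `c₄³ t = (t+27)(t+3)³ Δ`, `c₄³ u = (u²+10u+5)³ Δ` and lie on the curve
  `(t+27)(t+3)³ u = (u²+10u+5)³ t`.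
* `i5`: a semistable integral model cannot have `c₄³ t = (t+27)(t+3)³ Δ` for
  `t ∈ {-2, -729/2, -32, -729/32}` (the four non-cuspidal rational points of `X₀(15)`).
-/

set_option autoImplicit false

namespace Fermat.Agent.S51.helper86

section Field

variable {K : Type*} [Field K] [CharZero K] (W : WeierstrassCurve K)

/-- A root of the 3-division polynomial is not a root of `ψ₂² = 4x³ + b₂x² + 2b₄x + b₆`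
when `Δ ≠ 0`. -/
theorem psi2Sq_ne_zero_of_psi3 (hΔ : W.Δ ≠ 0) (x : K)
    (hx : 3 * x ^ 4 + W.b₂ * x ^ 3 + 3 * W.b₄ * x ^ 2 + 3 * W.b₆ * x + W.b₈ = 0) :
    4 * x ^ 3 + W.b₂ * x ^ 2 + 2 * W.b₄ * x + W.b₆ ≠ 0 := by
  intro hQ
  have h := i3 W x hx
  rw [hQ] at h
  have h4 : W.Δ ^ 4 = 0 := by
    have : (0 : K) = W.Δ * W.Δ ^ 3 := by simpa using h
    rw [pow_succ', ← this]
  exact hΔ (pow_eq_zero_iff (by norm_num) |>.mp h4)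

omit [CharZero K] in
theorem t_aux (c4 Δ Q : K) (hQ : Q ≠ 0)
    (h : c4 ^ 3 * Q ^ 6 = (Δ + 27 * Q ^ 2) * (Δ + 3 * Q ^ 2) ^ 3) :
    c4 ^ 3 * (Δ / Q ^ 2) = (Δ / Q ^ 2 + 27) * (Δ / Q ^ 2 + 3) ^ 3 * Δ := by
  have hQ2 : Q ^ 2 ≠ 0 := pow_ne_zero 2 hQ
  obtain ⟨t, rfl⟩ : ∃ t, Δ = t * Q ^ 2 := ⟨Δ / Q ^ 2, (div_mul_cancel₀ _ hQ2).symm⟩
  rw [mul_div_assoc, div_self hQ2, mul_one]
  have h6 : Q ^ 6 ≠ 0 := pow_ne_zero 6 hQ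
  have h' : Q ^ 6 * (c4 ^ 3 * t) = Q ^ 6 * ((t + 27) * (t + 3) ^ 3 * (t * Q ^ 2)) := by
    linear_combination t * h
  exact mul_left_cancel₀ h6 h'

omit [CharZero K] in
theorem u_aux (c4 Δ D : K) (hD : D ≠ 0)
    (h : c4 * D ^ 5 = Δ ^ 2 + 10 * Δ * D ^ 3 + 5 * D ^ 6) :
    c4 ^ 3 * (Δ / D ^ 3) = ((Δ / D ^ 3) ^ 2 + 10 * (Δ / D ^ 3) + 5) ^ 3 * Δ := by
  have hD3 : D ^ 3 ≠ 0 := pow_ne_zero 3 hD
  obtain ⟨u, rfl⟩ : ∃ u, Δ = u * D ^ 3 := ⟨Δ / D ^ 3, (div_mul_cancel₀ _ hD3).symm⟩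
  rw [mul_div_assoc, div_self hD3, mul_one]
  have h5 : D ^ 5 ≠ 0 := pow_ne_zero 5 hD
  have hc : c4 = D * (u ^ 2 + 10 * u + 5) := by
    have h' : D ^ 5 * c4 = D ^ 5 * (D * (u ^ 2 + 10 * u + 5)) := by linear_combination h
    exact mul_left_cancel₀ h5 h'
  rw [hc]; ring

/-- Packaged form of I3: `t = Δ / Q²` satisfies `c₄³ t = (t+27)(t+3)³ Δ`. -/
theorem i3_t (hΔ : W.Δ ≠ 0) (x : K)
    (hx : 3 * x ^ 4 + W.b₂ * x ^ 3 + 3 * W.b₄ * x ^ 2 + 3 * W.b₆ * x + W.b₈ = 0) :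
    W.Δ / (4 * x ^ 3 + W.b₂ * x ^ 2 + 2 * W.b₄ * x + W.b₆) ^ 2 ≠ 0 ∧
    W.c₄ ^ 3 * (W.Δ / (4 * x ^ 3 + W.b₂ * x ^ 2 + 2 * W.b₄ * x + W.b₆) ^ 2) =
      (W.Δ / (4 * x ^ 3 + W.b₂ * x ^ 2 + 2 * W.b₄ * x + W.b₆) ^ 2 + 27) *
        (W.Δ / (4 * x ^ 3 + W.b₂ * x ^ 2 + 2 * W.b₄ * x + W.b₆) ^ 2 + 3) ^ 3 * W.Δ := by
  have hQ := psi2Sq_ne_zero_of_psi3 W hΔ x hx
  exact ⟨div_ne_zero hΔ (pow_ne_zero 2 hQ), t_aux _ _ _ hQ (i3 W x hx)⟩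

/-- Packaged form of I4: `u = Δ / D³` satisfies `c₄³ u = (u²+10u+5)³ Δ`. -/
theorem i4_u (hΔ : W.Δ ≠ 0) (x₁ x₂ : K) (hne : x₁ ≠ x₂)
    (h₁ : x₁ ^ 4 - W.b₄ * x₁ ^ 2 - 2 * W.b₆ * x₁ - W.b₈ =
      x₂ * (4 * x₁ ^ 3 + W.b₂ * x₁ ^ 2 + 2 * W.b₄ * x₁ + W.b₆))
    (h₂ : x₂ ^ 4 - W.b₄ * x₂ ^ 2 - 2 * W.b₆ * x₂ - W.b₈ =
      x₁ * (4 * x₂ ^ 3 + W.b₂ * x₂ ^ 2 + 2 * W.b₄ * x₂ + W.b₆)) :
    W.Δ / ((x₁ - x₂) ^ 2) ^ 3 ≠ 0 ∧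
    W.c₄ ^ 3 * (W.Δ / ((x₁ - x₂) ^ 2) ^ 3) =
      ((W.Δ / ((x₁ - x₂) ^ 2) ^ 3) ^ 2 + 10 * (W.Δ / ((x₁ - x₂) ^ 2) ^ 3) + 5) ^ 3 * W.Δ := by
  have hD : (x₁ - x₂) ^ 2 ≠ 0 := pow_ne_zero 2 (sub_ne_zero.mpr hne)
  exact ⟨div_ne_zero hΔ (pow_ne_zero 3 hD), u_aux _ _ _ hD (i4 W x₁ x₂ hne h₁ h₂)⟩

omit [CharZero K] in
theorem tu_aux (c4 Δ t u : K) (hΔ : Δ ≠ 0)
    (ht : c4 ^ 3 * t = (t + 27) * (t + 3) ^ 3 * Δ)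
    (hu : c4 ^ 3 * u = (u ^ 2 + 10 * u + 5) ^ 3 * Δ) :
    (t + 27) * (t + 3) ^ 3 * u = (u ^ 2 + 10 * u + 5) ^ 3 * t := by
  have key : ((t + 27) * (t + 3) ^ 3 * u - (u ^ 2 + 10 * u + 5) ^ 3 * t) * Δ = 0 := by
    linear_combination t * hu - u * ht
  rcases mul_eq_zero.mp key with h | h
  · exact sub_eq_zero.mp h
  · exact absurd h hΔ

/-- The point `(t, u) = (Δ/Q², Δ/D³)` lies on the plane model
`(t+27)(t+3)³ u = (u²+10u+5)³ t` of `X₀(15)`. -/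
theorem tu_relation (hΔ : W.Δ ≠ 0) (x₃ x₁ x₂ : K)
    (hx : 3 * x₃ ^ 4 + W.b₂ * x₃ ^ 3 + 3 * W.b₄ * x₃ ^ 2 + 3 * W.b₆ * x₃ + W.b₈ = 0)
    (hne : x₁ ≠ x₂)
    (h₁ : x₁ ^ 4 - W.b₄ * x₁ ^ 2 - 2 * W.b₆ * x₁ - W.b₈ =
      x₂ * (4 * x₁ ^ 3 + W.b₂ * x₁ ^ 2 + 2 * W.b₄ * x₁ + W.b₆))
    (h₂ : x₂ ^ 4 - W.b₄ * x₂ ^ 2 - 2 * W.b₆ * x₂ - W.b₈ =
      x₁ * (4 * x₂ ^ 3 + W.b₂ * x₂ ^ 2 + 2 * W.b₄ * x₂ + W.b₆)) :
    ∃ t u : K,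
      t = W.Δ / (4 * x₃ ^ 3 + W.b₂ * x₃ ^ 2 + 2 * W.b₄ * x₃ + W.b₆) ^ 2 ∧
      u = W.Δ / ((x₁ - x₂) ^ 2) ^ 3 ∧
      t ≠ 0 ∧ u ≠ 0 ∧
      W.c₄ ^ 3 * t = (t + 27) * (t + 3) ^ 3 * W.Δ ∧
      W.c₄ ^ 3 * u = (u ^ 2 + 10 * u + 5) ^ 3 * W.Δ ∧
      (t + 27) * (t + 3) ^ 3 * u = (u ^ 2 + 10 * u + 5) ^ 3 * t := by
  obtain ⟨ht0, ht⟩ := i3_t W hΔ x₃ hx
  obtain ⟨hu0, hu⟩ := i4_u W hΔ x₁ x₂ hne h₁ h₂
  exact ⟨_, _, rfl, rfl, ht0, hu0, ht, hu, tu_aux _ _ _ _ hΔ ht hu⟩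

end Field

section Int

/-- Core of **I5**: the 5-adic obstruction. -/
theorem i5_core (c4 Δ : ℤ) (hss : (5 : ℤ) ∣ Δ → ¬ (5 : ℤ) ∣ c4)
    (t : ℚ) (ht : t = -2 ∨ t = -729 / 2 ∨ t = -32 ∨ t = -729 / 32)
    (h : (c4 : ℚ) ^ 3 * t = (t + 27) * (t + 3) ^ 3 * (Δ : ℚ)) : False := by
  have hp : Prime (5 : ℤ) := by
    exact_mod_cast Nat.prime_iff_prime_int.mp Nat.prime_five
  -- in each case we get an integer equation `A * c4 ^ 3 = 5 ^ e * B * Δ` with `5 ∤ A B`, `e ∈ {1,2}`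
  have main : ∀ (A B : ℤ) (e : ℕ), (e = 1 ∨ e = 2) → IsCoprime (5 : ℤ) A → IsCoprime (5 : ℤ) B →
      A * c4 ^ 3 = 5 ^ e * B * Δ → False := by
    intro A B e he hA hB heq
    have h5c : (5 : ℤ) ∣ c4 := by
      have h1 : (5 : ℤ) ∣ A * c4 ^ 3 := by
        rw [heq]
        rcases he with rfl | rfl
        · exact ⟨B * Δ, by ring⟩
        · exact ⟨5 * B * Δ, by ring⟩
      exact hp.dvd_of_dvd_pow (hA.dvd_of_dvd_mul_left h1)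
    obtain ⟨k, rfl⟩ := h5c
    have h5Δ : (5 : ℤ) ∣ Δ := by
      rcases he with rfl | rfl
      · have h2 : (5 : ℤ) * (B * Δ) = 5 * (A * 25 * k ^ 3) := by linear_combination -heq
        have h3 : B * Δ = A * 25 * k ^ 3 := mul_left_cancel₀ (by norm_num) h2
        have h4 : (5 : ℤ) ∣ B * Δ := ⟨A * 5 * k ^ 3, by rw [h3]; ring⟩
        exact hB.dvd_of_dvd_mul_left h4
      · have h2 : (25 : ℤ) * (B * Δ) = 25 * (A * 5 * k ^ 3) := by linear_combination -heq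
        have h3 : B * Δ = A * 5 * k ^ 3 := mul_left_cancel₀ (by norm_num) h2
        have h4 : (5 : ℤ) ∣ B * Δ := ⟨A * k ^ 3, by rw [h3]; ring⟩
        exact hB.dvd_of_dvd_mul_left h4
    exact hss h5Δ ⟨k, rfl⟩
  have cop : ∀ n : ℤ, n % 5 ≠ 0 → IsCoprime (5 : ℤ) n := by
    intro n hn
    rw [Prime.coprime_iff_not_dvd hp]
    intro hd
    exact hn (Int.emod_eq_zero_of_dvd hd)
  rcases ht with rfl | rfl | rfl | rfl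
  · -- t = -2 : 2 c4^3 = -25 Δ
    refine main 2 (-1) 2 (Or.inr rfl) (cop _ (by decide)) (cop _ (by decide)) ?_
    have : ((2 * c4 ^ 3 : ℤ) : ℚ) = ((5 ^ 2 * (-1) * Δ : ℤ) : ℚ) := by
      push_cast; linear_combination -h
    exact_mod_cast this
  · -- t = -729/2
    refine main 8 (-13997521) 2 (Or.inr rfl) (cop _ (by decide)) (cop _ (by decide)) ?_
    have : ((8 * c4 ^ 3 : ℤ) : ℚ) = ((5 ^ 2 * (-13997521) * Δ : ℤ) : ℚ) := by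
      push_cast; linear_combination (-16 / 729 : ℚ) * h
    exact_mod_cast this
  · -- t = -32
    refine main 32 (-24389) 1 (Or.inl rfl) (cop _ (by decide)) (cop _ (by decide)) ?_
    have : ((32 * c4 ^ 3 : ℤ) : ℚ) = ((5 ^ 1 * (-24389) * Δ : ℤ) : ℚ) := by
      push_cast; linear_combination -h
    exact_mod_cast this
  · -- t = -729/32
    refine main 32768 9393931 1 (Or.inl rfl) (cop _ (by decide)) (cop _ (by decide)) ?_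
    have : ((32768 * c4 ^ 3 : ℤ) : ℚ) = ((5 ^ 1 * 9393931 * Δ : ℤ) : ℚ) := by
      push_cast; linear_combination (-1048576 / 729 : ℚ) * h
    exact_mod_cast this

/-- **I5**: a semistable integral Weierstrass model is incompatible with the four rational
non-cuspidal points of `X₀(15)`. -/
theorem i5 (W : WeierstrassCurve ℤ) (hW : W.IsSemistableModel)
    (t : ℚ) (ht : t = -2 ∨ t = -729 / 2 ∨ t = -32 ∨ t = -729 / 32)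
    (h : ((W.map (Int.castRingHom ℚ)).c₄) ^ 3 * t =
      (t + 27) * (t + 3) ^ 3 * (W.map (Int.castRingHom ℚ)).Δ) : False := by
  have hss : (5 : ℤ) ∣ W.Δ → ¬ (5 : ℤ) ∣ W.c₄ := fun hd => hW 5 Nat.prime_five (by exact_mod_cast hd)
  refine i5_core W.c₄ W.Δ hss t ht ?_
  simpa [WeierstrassCurve.map_c₄, WeierstrassCurve.map_Δ] using h

end Int

end Fermat.Agent.S51.helper86
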