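import Mathlib

set_option autoImplicit false

namespace Fermat.Agent.S51.helper89

/-- squares of odd integers are `1` mod `8`. -/
lemma sq_emod_eight_of_odd {a : ℤ} (ha : a % 2 = 1) : a ^ 2 % 8 = 1 := by
  have h : a % 8 = 1 ∨ a % 8 = 3 ∨ a % 8 = 5 ∨ a % 8 = 7 := by omega
  rcases h with h | h | h | h <;> simp [pow_two, Int.mul_emod, h]

lemma sq_emod_two (a : ℤ) : a ^ 2 % 2 = a % 2 := by
  rcases Int.emod_two_eq_zero_or_one a with h | h <;> simp [pow_two, Int.mul_emod, h]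

lemma sq_emod_four (a : ℤ) : a ^ 2 % 4 = 0 ∨ a ^ 2 % 4 = 1 := by
  have h : a % 4 = 0 ∨ a % 4 = 1 ∨ a % 4 = 2 ∨ a % 4 = 3 := by omega
  rcases h with h | h | h | h <;> simp [pow_two, Int.mul_emod, h]

/-- `3 ∣ s^2 + w^2` forces `3 ∣ w`. -/
lemma three_dvd_of_sq_add_sq {s w : ℤ} (h : (3 : ℤ) ∣ s ^ 2 + w ^ 2) : (3 : ℤ) ∣ w := by
  have hs : s % 3 = 0 ∨ s % 3 = 1 ∨ s % 3 = 2 := by omega
  have hw : w % 3 = 0 ∨ w % 3 = 1 ∨ w % 3 = 2 := by omega
  have h3 : (s ^ 2 + w ^ 2) % 3 = 0 := Int.emod_eq_zero_of_dvd h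
  rcases hs with hs | hs | hs <;> rcases hw with hw | hw | hw <;>
    simp [pow_two, Int.add_emod, Int.mul_emod, hs, hw] at h3 <;> omega

/-- coprime factors of a square, the first one positive, are squares. -/
lemma eq_sq_of_mul_eq_sq {u v m : ℤ} (hu : 0 < u) (hc : IsCoprime u v) (h : u * v = m ^ 2) :
    ∃ a : ℤ, u = a ^ 2 := by
  obtain ⟨a, ha | ha⟩ := Int.sq_of_isCoprime hc h
  · exact ⟨a, ha⟩
  · exfalso
    have : 0 ≤ a ^ 2 := sq_nonneg a
    omega

lemma isCoprime_of_forall_prime {a b : ℤ}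
    (h : ∀ p : ℕ, p.Prime → (p : ℤ) ∣ a → (p : ℤ) ∣ b → False) : IsCoprime a b := by
  rw [Int.isCoprime_iff_gcd_eq_one]
  by_contra hne
  obtain ⟨p, hp, hpd⟩ := Nat.exists_prime_and_dvd hne
  exact h p hp ((Int.natCast_dvd_natCast.mpr hpd).trans (Int.gcd_dvd_left a b))
    ((Int.natCast_dvd_natCast.mpr hpd).trans (Int.gcd_dvd_right a b))

lemma not_prime_dvd_of_isCoprime {a b : ℤ} (hc : IsCoprime a b) {p : ℕ} (hp : p.Prime)
    (ha : (p : ℤ) ∣ a) (hb : (p : ℤ) ∣ b) : False := by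
  have hu : IsUnit (p : ℤ) := hc.isUnit_of_dvd' ha hb
  have := Int.isUnit_iff.mp hu
  have h2 := hp.two_le
  omega

lemma prime_dvd_of_dvd_sq {p : ℕ} (hp : p.Prime) {a : ℤ} (h : (p : ℤ) ∣ a ^ 2) : (p : ℤ) ∣ a :=
  (Nat.prime_iff_prime_int.mp hp).dvd_of_dvd_pow h

/-- a natural prime dividing the integer `n` (a small literal) -/
lemma prime_dvd_mul_sq {p : ℕ} (hp : p.Prime) {c a : ℤ} (h : (p : ℤ) ∣ c * a ^ 2) :
    (p : ℤ) ∣ c ∨ (p : ℤ) ∣ a := by
  rcases (Nat.prime_iff_prime_int.mp hp).dvd_or_dvd h with h | h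
  · exact Or.inl h
  · exact Or.inr (prime_dvd_of_dvd_sq hp h)

lemma prime_eq_three_of_dvd_nine {p : ℕ} (hp : p.Prime) (h : (p : ℤ) ∣ 9) : p = 3 := by
  have h9 : (p : ℤ) ∣ (3 : ℤ) ^ 2 := by norm_num; exact h
  have h3 : (p : ℤ) ∣ 3 := prime_dvd_of_dvd_sq hp h9
  have : p ∣ 3 := by exact_mod_cast h3
  exact (Nat.prime_dvd_prime_iff_eq hp Nat.prime_three).mp this

lemma prime_eq_five_of_dvd_25 {p : ℕ} (hp : p.Prime) (h : (p : ℤ) ∣ 25) : p = 5 := by
  have h9 : (p : ℤ) ∣ (5 : ℤ) ^ 2 := by norm_num; exact h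
  have h3 : (p : ℤ) ∣ 5 := prime_dvd_of_dvd_sq hp h9
  have : p ∣ 5 := by exact_mod_cast h3
  exact (Nat.prime_dvd_prime_iff_eq hp Nat.prime_five).mp this

lemma prime_eq_two_of_dvd_16 {p : ℕ} (hp : p.Prime) (h : (p : ℤ) ∣ 16) : p = 2 := by
  have h9 : (p : ℤ) ∣ (2 : ℤ) ^ 4 := by norm_num; exact h
  have h3 : (p : ℤ) ∣ 2 := (Nat.prime_iff_prime_int.mp hp).dvd_of_dvd_pow h9
  have : p ∣ 2 := by exact_mod_cast h3
  exact (Nat.prime_dvd_prime_iff_eq hp Nat.prime_two).mp this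


/-- The property "no nondegenerate solution with `|t| < B`". -/
def NoSmaller (B : ℤ) : Prop :=
  ∀ r w s t : ℤ, |t| < B → w ≠ 0 → s ≠ 0 →
    r ^ 2 - 16 * w ^ 2 = s ^ 2 → r ^ 2 + 9 * w ^ 2 = t ^ 2 → False

section step

variable {r w s t : ℤ}

/-- Step 2: if `5 ∣ s` and `5 ∣ t` we get a smaller solution. -/
lemma step_five (hr : 0 < r) (ht : 0 < t) (hw : w ≠ 0) (hs : s ≠ 0)
    (h1 : r ^ 2 - 16 * w ^ 2 = s ^ 2) (h2 : r ^ 2 + 9 * w ^ 2 = t ^ 2)
    (IH : NoSmaller t) (h5s : (5 : ℤ) ∣ s) (h5t : (5 : ℤ) ∣ t) : False := by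
  obtain ⟨s1, rfl⟩ := h5s
  obtain ⟨t1, rfl⟩ := h5t
  have hw2 : 0 < w ^ 2 := by positivity
  have hrt : r < 5 * t1 := by nlinarith
  refine IH (4 * t1) s1 (4 * w) r ?_ ?_ ?_ ?_ ?_
  · rw [abs_of_pos hr]; exact hrt
  · intro h; apply hs; rw [h]; ring
  · intro h; apply hw; omega
  · have h3 : 25 * ((4 * t1) ^ 2 - 16 * s1 ^ 2 - (4 * w) ^ 2) = 0 := by
      linear_combination (-16 : ℤ) * h2 + 16 * h1
    have h4 := (mul_eq_zero.mp h3).resolve_left (by norm_num)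
    linarith
  · have h3 : 25 * ((4 * t1) ^ 2 + 9 * s1 ^ 2 - r ^ 2) = 0 := by
      linear_combination (-16 : ℤ) * h2 - 9 * h1
    have h4 := (mul_eq_zero.mp h3).resolve_left (by norm_num)
    linarith


/-- `t` and `r` are coprime. -/
lemma coprime_t_r (hc : IsCoprime r w)
    (h1 : r ^ 2 - 16 * w ^ 2 = s ^ 2) (h2 : r ^ 2 + 9 * w ^ 2 = t ^ 2) : IsCoprime t r := by
  apply isCoprime_of_forall_prime
  intro p hp hpt hpr
  have h9 : (p : ℤ) ∣ 9 * w ^ 2 := by
    have : 9 * w ^ 2 = t ^ 2 - r ^ 2 := by linarith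
    rw [this]
    exact dvd_sub (dvd_pow hpt two_ne_zero) (dvd_pow hpr two_ne_zero)
  rcases prime_dvd_mul_sq hp h9 with h | h
  · have hp3 : p = 3 := prime_eq_three_of_dvd_nine hp h
    subst hp3
    have h3 : (3 : ℤ) ∣ s ^ 2 + w ^ 2 := by
      have : s ^ 2 + w ^ 2 = r ^ 2 - 3 * (5 * w ^ 2) := by linarith
      rw [this]
      exact dvd_sub (dvd_pow (by exact_mod_cast hpr) two_ne_zero) (dvd_mul_right _ _)
    have h3w := three_dvd_of_sq_add_sq h3
    exact not_prime_dvd_of_isCoprime hc Nat.prime_three (by exact_mod_cast hpr)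
      (by exact_mod_cast h3w)
  · exact not_prime_dvd_of_isCoprime hc hp hpr h

/-- `t` and `s` are coprime unless `5` divides both. -/
lemma coprime_t_s (hc : IsCoprime r w)
    (h1 : r ^ 2 - 16 * w ^ 2 = s ^ 2) (h2 : r ^ 2 + 9 * w ^ 2 = t ^ 2)
    (h5 : ¬ ((5 : ℤ) ∣ s ∧ (5 : ℤ) ∣ t)) : IsCoprime t s := by
  apply isCoprime_of_forall_prime
  intro p hp hpt hps
  have h25 : (p : ℤ) ∣ 25 * w ^ 2 := by
    have : 25 * w ^ 2 = t ^ 2 - s ^ 2 := by linarith
    rw [this]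
    exact dvd_sub (dvd_pow hpt two_ne_zero) (dvd_pow hps two_ne_zero)
  rcases prime_dvd_mul_sq hp h25 with h | h
  · have hp5 : p = 5 := prime_eq_five_of_dvd_25 hp h
    subst hp5
    exact h5 ⟨by exact_mod_cast hps, by exact_mod_cast hpt⟩
  · have hr2 : (p : ℤ) ∣ r ^ 2 := by
      have : r ^ 2 = s ^ 2 + 16 * w ^ 2 := by linarith
      rw [this]
      exact dvd_add (dvd_pow hps two_ne_zero) (Dvd.dvd.mul_left (dvd_pow h two_ne_zero) _)
    exact not_prime_dvd_of_isCoprime hc hp (prime_dvd_of_dvd_sq hp hr2) h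

/-- a common prime divisor of `r` and `s` is `2`. -/
lemma prime_dvd_r_s (hc : IsCoprime r w)
    (h1 : r ^ 2 - 16 * w ^ 2 = s ^ 2) {p : ℕ} (hp : p.Prime)
    (hpr : (p : ℤ) ∣ r) (hps : (p : ℤ) ∣ s) : p = 2 := by
  have h16 : (p : ℤ) ∣ 16 * w ^ 2 := by
    have : 16 * w ^ 2 = r ^ 2 - s ^ 2 := by linarith
    rw [this]
    exact dvd_sub (dvd_pow hpr two_ne_zero) (dvd_pow hps two_ne_zero)
  rcases prime_dvd_mul_sq hp h16 with h | h
  · exact prime_eq_two_of_dvd_16 hp h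
  · exact (not_prime_dvd_of_isCoprime hc hp hpr h).elim


lemma coprime_add_sub_of_odd {x y : ℤ} (h : IsCoprime x y) (hodd : (x + y) % 2 = 1) :
    IsCoprime (x + y) (x - y) := by
  apply isCoprime_of_forall_prime
  intro p hp h1 h2
  have hx : (p : ℤ) ∣ 2 * x := by
    have : 2 * x = (x + y) + (x - y) := by ring
    rw [this]; exact dvd_add h1 h2
  have hy : (p : ℤ) ∣ 2 * y := by
    have : 2 * y = (x + y) - (x - y) := by ring
    rw [this]; exact dvd_sub h1 h2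
  have hp2 : ¬ (p : ℤ) ∣ 2 := by
    intro h2'
    have : p ∣ 2 := by exact_mod_cast h2'
    have hp2 : p = 2 := (Nat.prime_dvd_prime_iff_eq hp Nat.prime_two).mp this
    subst hp2
    have : (2 : ℤ) ∣ x + y := by exact_mod_cast h1
    omega
  have hpx := ((Nat.prime_iff_prime_int.mp hp).dvd_or_dvd hx).resolve_left hp2
  have hpy := ((Nat.prime_iff_prime_int.mp hp).dvd_or_dvd hy).resolve_left hp2
  exact not_prime_dvd_of_isCoprime h hp hpx hpy

lemma coprime_half {x y u v : ℤ} (h : IsCoprime x y) (hu : x = u + v) (hv : y = u - v) :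
    IsCoprime u v := by
  apply isCoprime_of_forall_prime
  intro p hp h1 h2
  exact not_prime_dvd_of_isCoprime h hp (hu ▸ dvd_add h1 h2) (hv ▸ dvd_sub h1 h2)

lemma sq_emod_32_of_even {a : ℤ} (h : a % 2 = 0) :
    (a % 8 = 0 ∧ a ^ 2 % 32 = 0) ∨ (a % 8 = 2 ∧ a ^ 2 % 32 = 4) ∨
    (a % 8 = 4 ∧ a ^ 2 % 32 = 16) ∨ (a % 8 = 6 ∧ a ^ 2 % 32 = 4) := by
  obtain ⟨q, c, rfl, hc⟩ : ∃ q c : ℤ, a = 8 * q + c ∧ (c = 0 ∨ c = 2 ∨ c = 4 ∨ c = 6) :=
    ⟨a / 8, a % 8, by omega, by omega⟩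
  rcases hc with rfl | rfl | rfl | rfl
  · left; refine ⟨by omega, ?_⟩; ring_nf; omega
  · right; left; refine ⟨by omega, ?_⟩; ring_nf; omega
  · right; right; left; refine ⟨by omega, ?_⟩; ring_nf; omega
  · right; right; right; refine ⟨by omega, ?_⟩; ring_nf; omega

/-- Step 3, case `w` odd: contradiction. -/
lemma step_odd (hr : 0 < r) (ht : 0 < t) (hw0 : w ≠ 0) (hc : IsCoprime r w) (hw : w % 2 = 1)
    (h1 : r ^ 2 - 16 * w ^ 2 = s ^ 2) (h2 : r ^ 2 + 9 * w ^ 2 = t ^ 2)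
    (h5 : ¬ ((5 : ℤ) ∣ s ∧ (5 : ℤ) ∣ t)) : False := by
  have hw8 := sq_emod_eight_of_odd hw
  have hw2 : 0 < w ^ 2 := by positivity
  have hr2 : r % 2 = 0 := by
    by_contra hne
    have hr1 : r % 2 = 1 := by omega
    have hr8 := sq_emod_eight_of_odd hr1
    have ht4 := sq_emod_four t
    omega
  have ht2 : t % 2 = 1 := by
    have e1 := sq_emod_two t
    have e2 := sq_emod_two r
    omega
  have hs2 : s % 2 = 0 := by
    have e1 := sq_emod_two s
    have e2 := sq_emod_two r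
    omega
  -- `r - s ≡ 4 mod 8`
  have hrs : (r - s) % 8 = 4 := by
    rcases sq_emod_32_of_even hr2 with ⟨hra, hrb⟩ | ⟨hra, hrb⟩ | ⟨hra, hrb⟩ | ⟨hra, hrb⟩ <;>
    rcases sq_emod_32_of_even hs2 with ⟨hsa, hsb⟩ | ⟨hsa, hsb⟩ | ⟨hsa, hsb⟩ | ⟨hsa, hsb⟩ <;>
    omega
  have hrt : r < t := by nlinarith
  have hsr : s ^ 2 < r ^ 2 := by nlinarith
  have hsr' : |s| < |r| := sq_lt_sq.mp hsr
  rw [abs_of_pos hr] at hsr'
  have hs_lt : s < r := lt_of_le_of_lt (le_abs_self s) hsr'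
  have hs_gt : -r < s := by
    have := neg_abs_le s
    linarith
  have hctr := coprime_t_r hc h1 h2
  have hcts := coprime_t_s hc h1 h2 h5
  -- `t + r` is an odd square
  obtain ⟨a, ha⟩ := eq_sq_of_mul_eq_sq (u := t + r) (v := t - r) (m := 3 * w) (by linarith)
    (coprime_add_sub_of_odd hctr (by omega)) (by linear_combination (-1 : ℤ) * h2)
  obtain ⟨c, hc'⟩ := eq_sq_of_mul_eq_sq (u := t + s) (v := t - s) (m := 5 * w) (by linarith)
    (coprime_add_sub_of_odd hcts (by omega)) (by linear_combination h1 - h2)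
  have ha2 : a % 2 = 1 := by
    have e1 := sq_emod_two a
    omega
  have hc2 : c % 2 = 1 := by
    have e1 := sq_emod_two c
    omega
  have ha8 := sq_emod_eight_of_odd ha2
  have hc8 := sq_emod_eight_of_odd hc2
  omega


/-- Step 3, case `w` even: descent to a smaller solution. -/
lemma step_even (hr : 0 < r) (ht : 0 < t) (hw0 : w ≠ 0) (_hs0 : s ≠ 0) (hc : IsCoprime r w)
    (hw : w % 2 = 0)
    (h1 : r ^ 2 - 16 * w ^ 2 = s ^ 2) (h2 : r ^ 2 + 9 * w ^ 2 = t ^ 2)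
    (h5 : ¬ ((5 : ℤ) ∣ s ∧ (5 : ℤ) ∣ t)) (IH : NoSmaller t) : False := by
  have hw2 : 0 < w ^ 2 := by positivity
  have hr2 : r % 2 = 1 := by
    by_contra hne
    have hr0 : r % 2 = 0 := by omega
    exact not_prime_dvd_of_isCoprime hc Nat.prime_two
      (by exact_mod_cast Int.dvd_of_emod_eq_zero hr0)
      (by exact_mod_cast Int.dvd_of_emod_eq_zero hw)
  have ht2 : t % 2 = 1 := by
    have e1 := sq_emod_two t
    have e2 := sq_emod_two r
    have e3 := sq_emod_two w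
    omega
  have hs2 : s % 2 = 1 := by
    have e1 := sq_emod_two s
    have e2 := sq_emod_two r
    omega
  have hrt : r < t := by nlinarith
  have hsr : s ^ 2 < r ^ 2 := by nlinarith
  have hsr' : |s| < |r| := sq_lt_sq.mp hsr
  rw [abs_of_pos hr] at hsr'
  have hs_lt : s < r := lt_of_le_of_lt (le_abs_self s) hsr'
  have hs_gt : -r < s := by
    have := neg_abs_le s
    linarith
  have hctr := coprime_t_r hc h1 h2
  have hcts := coprime_t_s hc h1 h2 h5
  obtain ⟨w1, rfl⟩ : ∃ w1, w = 2 * w1 := ⟨w / 2, by omega⟩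
  obtain ⟨u1, hu1⟩ : ∃ u1, t + r = 2 * u1 := ⟨(t + r) / 2, by omega⟩
  obtain ⟨v1, hv1⟩ : ∃ v1, t - r = 2 * v1 := ⟨(t - r) / 2, by omega⟩
  obtain ⟨u2, hu2⟩ : ∃ u2, r + s = 2 * u2 := ⟨(r + s) / 2, by omega⟩
  obtain ⟨v2, hv2⟩ : ∃ v2, r - s = 2 * v2 := ⟨(r - s) / 2, by omega⟩
  obtain ⟨u3, hu3⟩ : ∃ u3, t + s = 2 * u3 := ⟨(t + s) / 2, by omega⟩
  obtain ⟨v3, hv3⟩ : ∃ v3, t - s = 2 * v3 := ⟨(t - s) / 2, by omega⟩
  have ht_eq : t = u1 + v1 := by omega
  have hr_eq : r = u1 - v1 := by omega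
  have hr_eq' : r = u2 + v2 := by omega
  have hs_eq : s = u2 - v2 := by omega
  have ht_eq' : t = u3 + v3 := by omega
  have hs_eq' : s = u3 - v3 := by omega
  have hc1 : IsCoprime u1 v1 := coprime_half hctr ht_eq hr_eq
  have hc3 : IsCoprime u3 v3 := coprime_half hcts ht_eq' hs_eq'
  have hc2 : IsCoprime u2 v2 := by
    apply isCoprime_of_forall_prime
    intro p hp hp1 hp2
    have hpr : (p : ℤ) ∣ r := hr_eq' ▸ dvd_add hp1 hp2
    have hps : (p : ℤ) ∣ s := hs_eq ▸ dvd_sub hp1 hp2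
    have := prime_dvd_r_s hc h1 hp hpr hps
    subst this
    have : (2 : ℤ) ∣ r := by exact_mod_cast hpr
    omega
  have hp1 : u1 * v1 = (3 * w1) ^ 2 := by
    have : 4 * (u1 * v1) = 4 * (3 * w1) ^ 2 := by
      have e : (t + r) * (t - r) = (2 * u1) * (2 * v1) := by rw [hu1, hv1]
      linear_combination (-1 : ℤ) * e - h2
    linarith
  have hp2 : u2 * v2 = (4 * w1) ^ 2 := by
    have : 4 * (u2 * v2) = 4 * (4 * w1) ^ 2 := by
      have e : (r + s) * (r - s) = (2 * u2) * (2 * v2) := by rw [hu2, hv2]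
      linear_combination (-1 : ℤ) * e + h1
    linarith
  have hp3 : u3 * v3 = (5 * w1) ^ 2 := by
    have : 4 * (u3 * v3) = 4 * (5 * w1) ^ 2 := by
      have e : (t + s) * (t - s) = (2 * u3) * (2 * v3) := by rw [hu3, hv3]
      linear_combination (-1 : ℤ) * e + h1 - h2
    linarith
  obtain ⟨a, ha⟩ := eq_sq_of_mul_eq_sq (by omega) hc1 hp1
  obtain ⟨b, hb⟩ := eq_sq_of_mul_eq_sq (by omega) hc2 hp2
  obtain ⟨c, hc'⟩ := eq_sq_of_mul_eq_sq (by omega) hc3 hp3
  have hu1pos : 0 < u1 := by omega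
  have hu2pos : 0 < u2 := by omega
  have hu3pos : 0 < u3 := by omega
  have hb0 : b ≠ 0 := by
    rintro rfl
    simp at hb
    omega
  have hc0 : c ≠ 0 := by
    rintro rfl
    simp at hc'
    omega
  refine IH (a * b) w1 (b * c) (a * c) ?_ ?_ (mul_ne_zero hb0 hc0) ?_ ?_
  · -- `|a * c| < t`
    have hlt : (a * c) ^ 2 < t ^ 2 := by
      have e : (a * c) ^ 2 = u1 * u3 := by rw [mul_pow, ← ha, ← hc']
      rw [e]
      have h1' : u1 < t := by omega
      have h3' : u3 < t := by omega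
      have := mul_lt_mul'' h1' h3' (le_of_lt hu1pos) (le_of_lt hu3pos)
      rw [pow_two]; exact this
    have := sq_lt_sq.mp hlt
    rwa [abs_of_pos ht] at this
  · intro h; apply hw0; rw [h]; ring
  · have e : 4 * ((a * b) ^ 2 - 16 * w1 ^ 2 - (b * c) ^ 2) = 0 := by
      have e1 : (a * b) ^ 2 = u1 * u2 := by rw [mul_pow, ← ha, ← hb]
      have e2 : (b * c) ^ 2 = u2 * u3 := by rw [mul_pow, ← hb, ← hc']
      rw [e1, e2]
      have f1 : (2 * u1) * (2 * u2) = (t + r) * (r + s) := by rw [hu1, hu2]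
      have f2 : (2 * u2) * (2 * u3) = (r + s) * (t + s) := by rw [hu2, hu3]
      linear_combination f1 - f2 + h1
    linarith
  · have e : 4 * ((a * b) ^ 2 + 9 * w1 ^ 2 - (a * c) ^ 2) = 0 := by
      have e1 : (a * b) ^ 2 = u1 * u2 := by rw [mul_pow, ← ha, ← hb]
      have e2 : (a * c) ^ 2 = u1 * u3 := by rw [mul_pow, ← ha, ← hc']
      rw [e1, e2]
      have f1 : (2 * u1) * (2 * u2) = (t + r) * (r + s) := by rw [hu1, hu2]
      have f2 : (2 * u1) * (2 * u3) = (t + r) * (t + s) := by rw [hu1, hu3]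
      linear_combination f1 - f2 + h2
    linarith

/-- The combined step for coprime positive data. -/
lemma step_all (hr : 0 < r) (ht : 0 < t) (hw0 : w ≠ 0) (hs0 : s ≠ 0) (hc : IsCoprime r w)
    (h1 : r ^ 2 - 16 * w ^ 2 = s ^ 2) (h2 : r ^ 2 + 9 * w ^ 2 = t ^ 2)
    (IH : NoSmaller t) : False := by
  by_cases h5 : (5 : ℤ) ∣ s ∧ (5 : ℤ) ∣ t
  · exact step_five hr ht hw0 hs0 h1 h2 IH h5.1 h5.2
  · rcases Int.emod_two_eq_zero_or_one w with hw | hw
    · exact step_even hr ht hw0 hs0 hc hw h1 h2 h5 IH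
    · exact step_odd hr ht hw0 hc hw h1 h2 h5


end step

lemma NoSmaller.mono {B B' : ℤ} (h : NoSmaller B) (hle : B' ≤ B) : NoSmaller B' :=
  fun r w s t ht => h r w s t (lt_of_lt_of_le ht hle)

/-- The general step: reduce to coprime positive data. -/
lemma step_general {r w s t : ℤ} (hw0 : w ≠ 0) (hs0 : s ≠ 0)
    (h1 : r ^ 2 - 16 * w ^ 2 = s ^ 2) (h2 : r ^ 2 + 9 * w ^ 2 = t ^ 2)
    (IH : NoSmaller |t|) : False := by
  -- divide by the gcd of `r` and `w`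
  obtain ⟨r0, w0, hc, hr, hw⟩ : ∃ r0 w0 : ℤ, IsCoprime r0 w0 ∧
      r = r0 * (Int.gcd r w : ℤ) ∧ w = w0 * (Int.gcd r w : ℤ) := by
    have hg : 0 < Int.gcd r w := Int.gcd_pos_of_ne_zero_right r hw0
    obtain ⟨r0, w0, h, hr, hw⟩ := Int.exists_gcd_one hg
    exact ⟨r0, w0, Int.isCoprime_iff_gcd_eq_one.mpr h, hr, hw⟩
  set g : ℤ := (Int.gcd r w : ℤ) with hg
  have hg0 : g ≠ 0 := by
    have : 0 < Int.gcd r w := Int.gcd_pos_of_ne_zero_right r hw0
    rw [hg]; exact_mod_cast this.ne'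
  have hgs : g ∣ s := by
    have : g ^ 2 ∣ s ^ 2 := by
      rw [← h1, hr, hw]
      exact ⟨r0 ^ 2 - 16 * w0 ^ 2, by ring⟩
    exact (Int.pow_dvd_pow_iff two_ne_zero).mp this
  have hgt : g ∣ t := by
    have : g ^ 2 ∣ t ^ 2 := by
      rw [← h2, hr, hw]
      exact ⟨r0 ^ 2 + 9 * w0 ^ 2, by ring⟩
    exact (Int.pow_dvd_pow_iff two_ne_zero).mp this
  obtain ⟨s0, hs⟩ := hgs
  obtain ⟨t0, ht⟩ := hgt
  have hg2 : g ^ 2 ≠ 0 := pow_ne_zero 2 hg0
  have h1' : r0 ^ 2 - 16 * w0 ^ 2 = s0 ^ 2 := by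
    apply mul_left_cancel₀ hg2
    rw [hr, hw, hs] at h1
    linear_combination h1
  have h2' : r0 ^ 2 + 9 * w0 ^ 2 = t0 ^ 2 := by
    apply mul_left_cancel₀ hg2
    rw [hr, hw, ht] at h2
    linear_combination h2
  have hw0' : w0 ≠ 0 := by
    rintro rfl
    apply hw0; rw [hw]; ring
  have hs0' : s0 ≠ 0 := by
    rintro rfl
    apply hs0; rw [hs]; ring
  have hr0' : r0 ≠ 0 := by
    rintro rfl
    have : 0 < w0 ^ 2 := by positivity
    have : 0 ≤ s0 ^ 2 := sq_nonneg s0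
    omega
  have ht0' : t0 ≠ 0 := by
    rintro rfl
    have : 0 < w0 ^ 2 := by positivity
    have : 0 ≤ r0 ^ 2 := sq_nonneg r0
    omega
  have hle : |t0| ≤ |t| := by
    rw [ht, abs_mul]
    have : 1 ≤ |g| := Int.one_le_abs hg0
    have : 0 ≤ |t0| := abs_nonneg t0
    nlinarith
  have hc' : IsCoprime |r0| w0 := by
    rcases abs_choice r0 with h | h
    · rw [h]; exact hc
    · rw [h]; exact hc.neg_left
  exact step_all (r := |r0|) (t := |t0|) (w := w0) (s := s0) (abs_pos.mpr hr0')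
    (abs_pos.mpr ht0') hw0' hs0' hc' (by rw [sq_abs]; exact h1') (by rw [sq_abs, sq_abs]; exact h2')
    (IH.mono hle)

theorem noSmaller_all : ∀ n : ℕ, NoSmaller (n : ℤ) := by
  intro n
  induction n with
  | zero =>
    intro r w s t ht
    have := abs_nonneg t
    simp at ht
    omega
  | succ n ih =>
    intro r w s t ht hw0 hs0 h1 h2
    have hle : |t| ≤ (n : ℤ) := by push_cast at ht; omega
    exact step_general hw0 hs0 h1 h2 (ih.mono hle)

/-- **Integer form**: the system `r² - 16 w² = s²`, `r² + 9 w² = t²` with `w ≠ 0` forces `s = 0`. -/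
theorem int_system {r w s t : ℤ} (hw0 : w ≠ 0)
    (h1 : r ^ 2 - 16 * w ^ 2 = s ^ 2) (h2 : r ^ 2 + 9 * w ^ 2 = t ^ 2) : s = 0 := by
  by_contra hs0
  refine noSmaller_all (t.natAbs + 1) r w s t ?_ hw0 hs0 h1 h2
  push_cast
  omega


/-- **Rational points of `X₀(15)`**: `y² = x (x + 9) (x - 16)` has only the obvious rational
solutions. -/
theorem descent15 (x y : ℚ) (h : y ^ 2 = x * (x + 9) * (x - 16)) :
    x = 0 ∨ x = -9 ∨ x = 16 ∨ x = -4 ∨ x = 36 := by
  by_cases hy : y = 0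
  · subst hy
    have h0 : x * (x + 9) * (x - 16) = 0 := by rw [← h]; ring
    rcases mul_eq_zero.mp h0 with h0 | h0
    · rcases mul_eq_zero.mp h0 with h0 | h0
      · exact Or.inl h0
      · right; left; linarith
    · right; right; left; linarith
  · have hx : x ≠ 0 := by
      rintro rfl
      apply hy
      have : y ^ 2 = 0 := by rw [h]; ring
      exact pow_eq_zero_iff (two_ne_zero) |>.mp this
    have hx9 : x + 9 ≠ 0 := by
      intro h9
      apply hy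
      have : y ^ 2 = 0 := by rw [h, h9]; ring
      exact pow_eq_zero_iff (two_ne_zero) |>.mp this
    have hx16 : x - 16 ≠ 0 := by
      intro h16
      apply hy
      have : y ^ 2 = 0 := by rw [h, h16]; ring
      exact pow_eq_zero_iff (two_ne_zero) |>.mp this
    -- the rational solution of the system
    set A : ℚ := y / x with hA
    set B : ℚ := y / (x - 16) with hB
    set C : ℚ := y / (x + 9) with hC
    set ρ : ℚ := (B + C - A) / 2 with hρ
    set σ : ℚ := (A + C - B) / 2 with hσ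
    set τ : ℚ := (A + B - C) / 2 with hτ
    have e1 : ρ ^ 2 - 16 = σ ^ 2 := by
      have : ρ ^ 2 - σ ^ 2 = 16 := by
        have : ρ ^ 2 - σ ^ 2 = (B - A) * C := by rw [hρ, hσ]; ring
        rw [this, hA, hB, hC]
        field_simp
        linear_combination (16 : ℚ) * h
      linarith
    have e2 : ρ ^ 2 + 9 = τ ^ 2 := by
      have : τ ^ 2 - ρ ^ 2 = 9 := by
        have : τ ^ 2 - ρ ^ 2 = (A - C) * B := by rw [hρ, hτ]; ring
        rw [this, hA, hB, hC]
        field_simp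
        linear_combination (9 : ℚ) * h
      linarith
    -- clear denominators
    set d : ℤ := (ρ.den : ℤ) * (σ.den : ℤ) * (τ.den : ℤ) with hd
    have hd0 : d ≠ 0 := by
      rw [hd]
      have h1 := ρ.den_ne_zero
      have h2 := σ.den_ne_zero
      have h3 := τ.den_ne_zero
      positivity
    have hρd : (ρ : ℚ) * d = ((ρ.num * (σ.den : ℤ) * (τ.den : ℤ) : ℤ) : ℚ) := by
      rw [hd]; push_cast
      have := Rat.mul_den_eq_num ρ
      linear_combination ((σ.den : ℚ) * (τ.den : ℚ)) * this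
    have hσd : (σ : ℚ) * d = ((σ.num * (ρ.den : ℤ) * (τ.den : ℤ) : ℤ) : ℚ) := by
      rw [hd]; push_cast
      have := Rat.mul_den_eq_num σ
      linear_combination ((ρ.den : ℚ) * (τ.den : ℚ)) * this
    have hτd : (τ : ℚ) * d = ((τ.num * (ρ.den : ℤ) * (σ.den : ℤ) : ℤ) : ℚ) := by
      rw [hd]; push_cast
      have := Rat.mul_den_eq_num τ
      linear_combination ((ρ.den : ℚ) * (σ.den : ℚ)) * this
    have i1 : (ρ.num * (σ.den : ℤ) * (τ.den : ℤ)) ^ 2 - 16 * d ^ 2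
        = (σ.num * (ρ.den : ℤ) * (τ.den : ℤ)) ^ 2 := by
      have : (((ρ.num * (σ.den : ℤ) * (τ.den : ℤ)) ^ 2 - 16 * d ^ 2 : ℤ) : ℚ)
          = (((σ.num * (ρ.den : ℤ) * (τ.den : ℤ)) ^ 2 : ℤ) : ℚ) := by
        push_cast
        push_cast at hρd hσd
        rw [← hρd, ← hσd]
        linear_combination ((d : ℚ) ^ 2) * e1
      exact_mod_cast this
    have i2 : (ρ.num * (σ.den : ℤ) * (τ.den : ℤ)) ^ 2 + 9 * d ^ 2
        = (τ.num * (ρ.den : ℤ) * (σ.den : ℤ)) ^ 2 := by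
      have : (((ρ.num * (σ.den : ℤ) * (τ.den : ℤ)) ^ 2 + 9 * d ^ 2 : ℤ) : ℚ)
          = (((τ.num * (ρ.den : ℤ) * (σ.den : ℤ)) ^ 2 : ℤ) : ℚ) := by
        push_cast
        push_cast at hρd hτd
        rw [← hρd, ← hτd]
        linear_combination ((d : ℚ) ^ 2) * e2
      exact_mod_cast this
    have hs := int_system hd0 i1 i2
    have hσ0 : σ = 0 := by
      have h1 := σ.den_ne_zero
      have h2 := ρ.den_ne_zero
      have h3 := τ.den_ne_zero
      have : σ.num = 0 := by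
        rcases mul_eq_zero.mp hs with h | h
        · rcases mul_eq_zero.mp h with h | h
          · exact h
          · exact absurd (by exact_mod_cast h) h2
        · exact absurd (by exact_mod_cast h) h3
      exact Rat.zero_of_num_zero this
    -- `σ = 0` means `x² - 32 x - 144 = 0`
    have hq : (x - 36) * (x + 4) = 0 := by
      have h0 : A + C - B = 0 := by
        have : σ * 2 = 0 := by rw [hσ0]; ring
        rw [hσ] at this
        linarith [this, div_mul_cancel₀ (A + C - B) (two_ne_zero : (2 : ℚ) ≠ 0)]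
      rw [hA, hB, hC] at h0
      field_simp at h0
      have hy' : y * ((x - 36) * (x + 4)) = 0 := by linear_combination h0
      exact (mul_eq_zero.mp hy').resolve_left hy
    rcases mul_eq_zero.mp hq with h36 | h4
    · right; right; right; right; linarith
    · right; right; right; left; linarith

end Fermat.Agent.S51.helper89
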