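import Mathlib
import Fermat.Prelude.Def_FLTPrelim_GaloisRep
import Fermat.Agent.S51.helper8_FiveGalois

/-!
# The `3`-torsion half of the Galois part of S51 (helper8)
-/

namespace Fermat.Agent.S51.helper8

open WeierstrassCurve WeierstrassCurve.Affine Polynomial

local notation "Kbar" => AlgebraicClosure ℚ

section generic

variable {F : Type*} [Field F] (V : WeierstrassCurve F)

/-- General counting lemma: a set of points whose nonzero members have `x`-coordinate a root of
a fixed nonzero polynomial of degree at most `d` is finite with at most `2 * d + 1` elements. -/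
theorem finite_and_ncard_le_of_isRoot (p : F[X]) (hp : p ≠ 0) (d : ℕ) (hd : p.natDegree ≤ d)
    (T : Set V.toAffine.Point) (hT : ∀ P ∈ T, P ≠ 0 → p.IsRoot (xc V P)) :
    T.Finite ∧ T.ncard ≤ 2 * d + 1 := by
  classical
  set S : Finset F := p.roots.toFinset with hS
  have hScard : S.card ≤ d :=
    calc S.card ≤ Multiset.card p.roots := Multiset.toFinset_card_le _
      _ ≤ p.natDegree := Polynomial.card_roots' _
      _ ≤ d := hd
  set U : Set (Option (F × Bool)) := insert none (some '' ((S : Set F) ×ˢ (Set.univ : Set Bool)))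
    with hU
  have hSfin : ((S : Set F) ×ˢ (Set.univ : Set Bool)).Finite :=
    (Finset.finite_toSet S).prod Set.finite_univ
  have hUfin : U.Finite := (hSfin.image _).insert _
  have hUcard : U.ncard ≤ 2 * d + 1 := by
    calc U.ncard ≤ (some '' ((S : Set F) ×ˢ (Set.univ : Set Bool))).ncard + 1 :=
          Set.ncard_insert_le _ _
      _ ≤ ((S : Set F) ×ˢ (Set.univ : Set Bool)).ncard + 1 :=
          Nat.add_le_add_right (Set.ncard_image_le hSfin) 1
      _ = S.card * 2 + 1 := by
          rw [Set.ncard_prod, Set.ncard_coe_finset, Set.ncard_univ, Nat.card_eq_fintype_card,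
            Fintype.card_bool]
      _ ≤ 2 * d + 1 := by omega
  have hmaps : ∀ P ∈ T, label V P ∈ U := by
    intro P hP
    by_cases h0 : P = 0
    · subst h0
      exact Set.mem_insert _ _
    · have hroot := hT P hP h0
      cases P with
      | zero => exact absurd rfl h0
      | some x y h =>
        obtain ⟨b, hb⟩ := label_some V h
        refine Set.mem_insert_of_mem _ ⟨(x, b), ⟨?_, Set.mem_univ _⟩, hb.symm⟩
        simp only [hS, Finset.mem_coe, Multiset.mem_toFinset]
        rw [Polynomial.mem_roots hp]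
        exact hroot
  have hfin : T.Finite :=
    Set.Finite.of_injOn (f := label V) hmaps (label_injective V).injOn hUfin
  exact ⟨hfin, (Set.ncard_le_ncard_of_injOn (label V) hmaps (label_injective V).injOn hUfin).trans
    hUcard⟩

variable [DecidableEq F]

variable {V} in
/-- The `x`-coordinate of a point of exact order `3` is a root of the `3`-division polynomial. -/
theorem psi3_eq_zero_of_three_nsmul {P : V.toAffine.Point} (hP : P ≠ 0) (h3 : 3 • P = 0) :
    psi2sq V (xc V P) ≠ 0 ∧ psi3 V (xc V P) = 0 := by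
  have e3 : 2 • P + P = 0 := by
    rw [← h3, show (3 : ℕ) = 2 + 1 from rfl, add_nsmul, one_nsmul]
  have h2 : 2 • P ≠ 0 := by
    intro h
    rw [h, zero_add] at e3
    exact hP e3
  have h2' : 2 • P = -P := eq_neg_of_add_eq_zero_left e3
  obtain ⟨hψ, hd⟩ := xc_two_nsmul hP h2
  rw [h2', xc_neg] at hd
  refine ⟨hψ, ?_⟩
  have := dupNum_sub V (xc V P)
  linear_combination this + hd

/-- A point whose `x`-coordinate is a root of the `3`-division polynomial is killed by `3`. -/
theorem three_nsmul_eq_zero_of_psi3 (hΔ : V.Δ ≠ 0) {P : V.toAffine.Point} (hP : P ≠ 0)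
    (h : psi3 V (xc V P) = 0) : 3 • P = 0 := by
  have hψ : psi2sq V (xc V P) ≠ 0 := by
    intro h6
    have hrel := beta_relation V (xc V P)
    have hΔ' := delta_eq_beta V (xc V P)
    have h4 : beta4 V (xc V P) = 0 := by
      have : beta4 V (xc V P) ^ 2 = 0 := by rw [h6, h] at hrel; linear_combination hrel
      exact pow_eq_zero_iff (by norm_num) |>.mp this
    apply hΔ
    rw [hΔ', h6, h, h4]; ring
  have h2 : 2 • P ≠ 0 := two_nsmul_ne_zero hP hψ
  obtain ⟨-, hd⟩ := xc_two_nsmul hP h2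
  have hx : xc V (2 • P) = xc V P := by
    apply mul_right_cancel₀ hψ
    have := dupNum_sub V (xc V P)
    linear_combination hd + this - h
  have e3 : 3 • P = 2 • P + P := by
    rw [show (3 : ℕ) = 2 + 1 from rfl, add_nsmul, one_nsmul]
  rcases (xc_eq_iff h2 hP).mp hx with h' | h'
  · exfalso
    apply hP
    have : P = 2 • P - P := by rw [two_nsmul]; abel
    rw [this, h']; simp
  · rw [e3, h']; simp

theorem exists_three_torsion [IsAlgClosed F] (h3 : (3 : F) ≠ 0) (hΔ : V.Δ ≠ 0) :
    ∃ P : V.toAffine.Point, P ≠ 0 ∧ 3 • P = 0 := by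
  have hdeg : V.Ψ₃.degree ≠ 0 := by
    have hp : V.Ψ₃ ≠ 0 := V.Ψ₃_ne_zero h3
    rw [Polynomial.degree_eq_natDegree hp, V.natDegree_Ψ₃ h3]
    norm_num
  obtain ⟨x₁, hx₁⟩ := IsAlgClosed.exists_root _ hdeg
  rw [IsRoot.def, eval_Ψ₃] at hx₁
  obtain ⟨y₁, hy₁⟩ := exists_equation V x₁
  have hns : V.toAffine.Nonsingular x₁ y₁ :=
    (equation_iff_nonsingular_of_Δ_ne_zero hΔ).mp hy₁
  exact ⟨.some x₁ y₁ hns, Point.some_ne_zero _,
    three_nsmul_eq_zero_of_psi3 V hΔ (Point.some_ne_zero _) hx₁⟩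

/-- A set of points killed by `3` has at most `9` elements. -/
theorem finite_and_ncard_le_of_three_nsmul (h3 : (3 : F) ≠ 0) (T : Set V.toAffine.Point)
    (hT : ∀ P ∈ T, 3 • P = 0) : T.Finite ∧ T.ncard ≤ 9 := by
  have := finite_and_ncard_le_of_isRoot V V.Ψ₃ (V.Ψ₃_ne_zero h3) 4 V.natDegree_Ψ₃_le T
    (fun P hP h0 => by
      rw [IsRoot.def, eval_Ψ₃]
      exact (psi3_eq_zero_of_three_nsmul h0 (hT P hP)).2)
  simpa using this

end generic

variable (E : WeierstrassCurve ℚ)

/-- The `3`-torsion of an elliptic curve over `ℚ` is nontrivial over `ℚ̄`. -/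
theorem nontrivial_torsion_three (hΔ : E.Δ ≠ 0) :
    Nontrivial (Submodule.torsionBy ℤ (E.toAffine⁄Kbar).Point (3 : ℕ)) := by
  obtain ⟨P, hP, h3⟩ := exists_three_torsion (E.toAffine⁄Kbar) (by norm_num)
    (baseChange_Δ_ne_zero E hΔ)
  refine ⟨⟨⟨P, ?_⟩, 0, ?_⟩⟩
  · rw [Submodule.mem_torsionBy_iff, natCast_zsmul]
    exact h3
  · intro h
    exact hP (congrArg Subtype.val h)

theorem finite_torsion_three :
    Finite (Submodule.torsionBy ℤ (E.toAffine⁄Kbar).Point (3 : ℕ)) ∧
    Nat.card (Submodule.torsionBy ℤ (E.toAffine⁄Kbar).Point (3 : ℕ)) ≤ 9 := by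
  have key := finite_and_ncard_le_of_three_nsmul (E.toAffine⁄Kbar) (by norm_num)
    (Submodule.torsionBy ℤ (E.toAffine⁄Kbar).Point (3 : ℕ) : Set (E.toAffine⁄Kbar).Point)
    (fun P hP => by
      have := (Submodule.mem_torsionBy_iff _ _).mp hP
      rwa [natCast_zsmul] at this)
  refine ⟨key.1, ?_⟩
  have := key.2
  rwa [← Nat.card_coe_set_eq] at this

/-- **The `3`-torsion half of the Galois part of S51.** If the mod `3` representation of an
elliptic curve over `ℚ` is not irreducible, the `3`-division polynomial has a rational root. -/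
theorem exists_three_data (hΔ : E.Δ ≠ 0)
    (h : ¬ Affine.Point.GaloisRepIsIrreducible (K := Kbar) ℚ E.toAffine 3) :
    ∃ x₃ : ℚ, psi3 E x₃ = 0 ∧ psi2sq E x₃ ≠ 0 := by
  classical
  have : Fact (Nat.Prime 3) := ⟨by norm_num⟩
  have hnt := nontrivial_torsion_three E hΔ
  obtain ⟨hfin, hcard⟩ := finite_torsion_three E
  rw [Affine.Point.GaloisRepIsIrreducible, not_and] at h
  have h' := h hnt
  push Not at h'
  obtain ⟨N, hN, hbot, htop⟩ := h'
  have hrank : Module.finrank (ZMod 3)
      (Submodule.torsionBy ℤ (E.toAffine⁄Kbar).Point (3 : ℕ)) ≤ 2 := by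
    have hc := Module.natCard_eq_pow_finrank (K := ZMod 3)
      (V := Submodule.torsionBy ℤ (E.toAffine⁄Kbar).Point (3 : ℕ))
    rw [Nat.card_zmod] at hc
    rw [hc] at hcard
    by_contra hlt
    push Not at hlt
    have : 3 ^ 3 ≤ 3 ^ Module.finrank (ZMod 3)
        (Submodule.torsionBy ℤ (E.toAffine⁄Kbar).Point (3 : ℕ)) :=
      Nat.pow_le_pow_right (by norm_num) hlt
    omega
  have hN1 : Module.finrank (ZMod 3) N = 1 := by
    have h1 : Module.finrank (ZMod 3) N < Module.finrank (ZMod 3)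
        (Submodule.torsionBy ℤ (E.toAffine⁄Kbar).Point (3 : ℕ)) := Submodule.finrank_lt htop
    have h2 : 1 ≤ Module.finrank (ZMod 3) N := Submodule.one_le_finrank_iff.mpr hbot
    omega
  obtain ⟨v, hv0, hv⟩ := finrank_eq_one_iff'.mp hN1
  set P : (E.toAffine⁄Kbar).Point := ((v : Submodule.torsionBy ℤ (E.toAffine⁄Kbar).Point (3 : ℕ)) :
    (E.toAffine⁄Kbar).Point) with hPdef
  have hP0 : P ≠ 0 := by
    intro h0
    apply hv0
    apply Subtype.ext
    apply Subtype.ext
    exact h0
  have hP3 : 3 • P = 0 := by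
    have := (Submodule.mem_torsionBy_iff _ _).mp
      (v : Submodule.torsionBy ℤ (E.toAffine⁄Kbar).Point (3 : ℕ)).2
    rwa [natCast_zsmul] at this
  obtain ⟨hψ2, hψ3⟩ := psi3_eq_zero_of_three_nsmul hP0 hP3
  have e2 : 2 • P = -P := by
    have : 2 • P + P = 0 := by
      rw [← hP3, show (3 : ℕ) = 2 + 1 from rfl, add_nsmul, one_nsmul]
    exact eq_neg_of_add_eq_zero_left this
  have hσ : ∀ σ : Kbar ≃ₐ[ℚ] Kbar, ∃ k : ℕ, k < 3 ∧ σ • P = k • P := by
    intro σ
    have hmem := hN σ v v.2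
    obtain ⟨c, hc⟩ := hv ⟨_, hmem⟩
    refine ⟨c.val, ZMod.val_lt c, ?_⟩
    rw [← ZMod.natCast_zmod_val c, Nat.cast_smul_eq_nsmul] at hc
    have hc' := congrArg (fun w : N => ((w : Submodule.torsionBy ℤ (E.toAffine⁄Kbar).Point
      (3 : ℕ)) : (E.toAffine⁄Kbar).Point)) hc
    simp only [AddSubmonoidClass.coe_nsmul] at hc'
    exact hc'.symm
  have hfix : ∀ σ : Kbar ≃ₐ[ℚ] Kbar, σ (xc _ P) = xc _ P := by
    intro σ
    obtain ⟨k, hk, hkP⟩ := hσ σ
    rw [← xc_smul, hkP]
    have hk0 : k ≠ 0 := by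
      rintro rfl
      rw [zero_nsmul] at hkP
      exact hP0 (Point.map_injective (W' := E.toAffine) σ.toAlgHom hkP)
    interval_cases k
    · exact absurd rfl hk0
    · rw [one_nsmul]
    · rw [e2, xc_neg]
  obtain ⟨x₃, hx₃⟩ := exists_rat_of_fixed (xc _ P) hfix
  refine ⟨x₃, ?_, ?_⟩
  · have hinj : Function.Injective (algebraMap ℚ Kbar) := (algebraMap ℚ Kbar).injective
    apply hinj
    rw [map_zero, ← hψ3, ← hx₃]
    simp [psi3, WeierstrassCurve.baseChange]
  · intro h0
    apply hψ2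
    rw [← hx₃]
    have := congrArg (algebraMap ℚ Kbar) h0
    rw [map_zero] at this
    rw [← this]
    simp [psi2sq, WeierstrassCurve.baseChange]

end Fermat.Agent.S51.helper8
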